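/-
S34-UNI-BRIDGE (helper584): the link between the geometry-free core of S34
(`Fermat/Agent/S34/helper1336_Core.lean`, hypothesis `hUni`) and the geometry module shared with
S35 (two Gauss valuations at a prime `q ∥ N`).

* `UniFF n g`      : (UNI-FF), the Kummer-element form of `(g - 1) ^ 2 = 0` on `n`-torsion.
* `unipotent_of_uniFF` : (UNI-FF) gives `g • g • x - 2 • (g • x) + x = 0` on `Pic0[n]`.
* `uniFF_of_rep_of_torFix` : the free half.  Two valuation subrings `V₁ V₂` on which `g` is the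
  identity modulo the maximal ideals, (REP) every Kummer element is a two-sided unit times an
  `n`-th power, (TORFIX) `g` fixes the class of every Kummer element `≡ 1` for both valuations
  give (UNI-FF).
* `rep_of_approx` : (REP) from `e = 1` over the constants, `n`-divisibility of the constants,
  weak approximation for the two valuation rings and the archimedean property.
* `Stmt_UniFF`, `stmt_Uni_of_uniFF` : the modular instance, in exactly the shape of the
  hypothesis `hUni` consumed by the S34 core for `J = JZero N`.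
-/
import Fermat.Agent.S29.helper8217_KummerClass

set_option autoImplicit false

namespace Fermat.Agent.S34.helper584

open AlgebraicCurve
open Fermat.Agent.S29.helper8217

/-! ### The Kummer-element form of unipotency -/

section Abstract

variable {K F : Type*} [Field K] [Field F] [Algebra K F]

/-- `x` is a divisor-free element times an `n`-th power: the class of `x` is trivial. -/
def IsKummerTrivial (K : Type*) {F : Type*} [Field K] [Field F] [Algebra K F] (n : ℕ) (x : F) :
    Prop :=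
  ∃ w c : F, w ≠ 0 ∧ c ≠ 0 ∧ (∀ v : Place K F, v.ord c = 0) ∧ x = c * w ^ n

/-- **(UNI-FF)**: for every `n`-Kummer element `u` the element `g²u · u / (g u)²` is a
divisor-free element times an `n`-th power. -/
def UniFF (n : ℕ) (g : SemilinearAut K F) : Prop :=
  ∀ u : F, IsKummer K n u →
    ∃ w c : F, w ≠ 0 ∧ c ≠ 0 ∧ (∀ v : Place K F, v.ord c = 0) ∧
      (g • g • u) * u = (g • u) ^ 2 * (c * w ^ n)

/-- (UNI-FF) gives `(g - 1) ^ 2 = 0` on the `n`-torsion of `Pic0`. -/
theorem unipotent_of_uniFF [HasPrincipalDivisors K F] {n : ℕ} (hn : n ≠ 0)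
    (g : SemilinearAut K F) (h : UniFF n g) (x : Pic0 K F) (hx : (n : ℤ) • x = 0) :
    g • g • x - (2 : ℤ) • (g • x) + x = 0 := by
  obtain ⟨u, hu, rfl⟩ := exists_kummerClass_eq hn (Pic0.mem_torsion.mpr hx)
  have hu1 : IsKummer K n (g • u) := (isKummer_smul_iff g).mpr hu
  have hu2 : IsKummer K n (g • g • u) := (isKummer_smul_iff g).mpr hu1
  obtain ⟨w, c, hw, hc, hcv, hrel⟩ := h u hu
  rw [smul_kummerClass, smul_kummerClass]
  have h2 : (2 : ℤ) • kummerClass K n (g • u) = kummerClass K n ((g • u) ^ 2) := by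
    rw [kummerClass_pow hu1 2, ← natCast_zsmul]
    rfl
  have hsum : kummerClass K n (g • g • u) + kummerClass K n u =
      kummerClass K n ((g • u) ^ 2) := by
    rw [← kummerClass_mul hu2 hu]
    exact (kummerClass_eq_iff hn (hu2.mul hu) (hu1.pow 2)).mpr ⟨w, c, hw, hc, hcv, hrel⟩
  rw [h2, ← hsum]
  abel

end Abstract

/-! ### The free half: from the two Gauss valuations to (UNI-FF) -/

section FreeHalf

variable {K F : Type*} [Field K] [Field F] [Algebra K F]

/-- **The free half of (UNI).**  Let `g` be a semilinear automorphism of `F` and `V₁ V₂` two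
valuation subrings of `F` such that `g x - x` is a non-unit of `Vᵢ` for every `x ∈ Vᵢ`
(`g` preserves `Vᵢ` and induces the identity on its residue field: inertia).  Assume
* (REP) every `n`-Kummer element is `u₀ * w ^ n` with `u₀` a unit of both `V₁` and `V₂`;
* (TORFIX) for every `n`-Kummer `h` with `h - 1` a non-unit of both `V₁` and `V₂`, the element
  `g h / h` is a divisor-free element times an `n`-th power (`g` fixes the class of `h`).
Then (UNI-FF) holds for `g`. -/
theorem uniFF_of_rep_of_torFix {n : ℕ} (g : SemilinearAut K F) (V₁ V₂ : ValuationSubring F)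
    (hg₁ : ∀ x : F, V₁.valuation x ≤ 1 → V₁.valuation (g • x - x) < 1)
    (hg₂ : ∀ x : F, V₂.valuation x ≤ 1 → V₂.valuation (g • x - x) < 1)
    (hRep : ∀ u : F, IsKummer K n u →
      ∃ u₀ w : F, w ≠ 0 ∧ u = u₀ * w ^ n ∧ V₁.valuation u₀ = 1 ∧ V₂.valuation u₀ = 1)
    (hTor : ∀ h : F, IsKummer K n h → V₁.valuation (h - 1) < 1 → V₂.valuation (h - 1) < 1 →
      ∃ w c : F, w ≠ 0 ∧ c ≠ 0 ∧ (∀ v : Place K F, v.ord c = 0) ∧ g • h = h * (c * w ^ n)) :
    UniFF n g := by
  intro u hu
  obtain ⟨u₀, w, hw, rfl, h1, h2⟩ := hRep u hu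
  have hu₀ : u₀ ≠ 0 := by
    rintro rfl
    rw [map_zero] at h1
    exact zero_ne_one h1
  have hgu₀ : g • u₀ ≠ 0 := by
    rw [SemilinearAut.smul_def]
    exact (map_ne_zero _).mpr hu₀
  have hgw : g • w ≠ 0 := by
    rw [SemilinearAut.smul_def]
    exact (map_ne_zero _).mpr hw
  have hK₀ : IsKummer K n u₀ := by
    have h := hu.div (isKummer_pow_self (K := K) n hw)
    rwa [mul_div_assoc, div_self (pow_ne_zero n hw), mul_one] at h
  have hKh : IsKummer K n (g • u₀ / u₀) := ((isKummer_smul_iff g).mpr hK₀).div hK₀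
  have hval : ∀ V : ValuationSubring F, V.valuation u₀ = 1 →
      (∀ x : F, V.valuation x ≤ 1 → V.valuation (g • x - x) < 1) →
      V.valuation (g • u₀ / u₀ - 1) < 1 := by
    intro V hV hgV
    have e : g • u₀ / u₀ - 1 = (g • u₀ - u₀) / u₀ := by
      field_simp
    rw [e, map_div₀, hV, div_one]
    exact hgV u₀ hV.le
  obtain ⟨w', c, hw', hc, hcv, hrel⟩ := hTor _ hKh (hval V₁ h1 hg₁) (hval V₂ h2 hg₂)
  refine ⟨w' * (g • g • w) * w / (g • w) ^ 2, c, ?_, hc, hcv, ?_⟩
  · refine div_ne_zero (mul_ne_zero (mul_ne_zero hw' ?_) hw) (pow_ne_zero 2 hgw)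
    rw [SemilinearAut.smul_def]
    exact (map_ne_zero _).mpr hgw
  · have hrel' : g • g • u₀ * u₀ = (g • u₀) ^ 2 * (c * w' ^ n) := by
      have h3 : g • (g • u₀ / u₀) = g • g • u₀ / g • u₀ := by
        simp only [SemilinearAut.smul_def, map_div₀]
      rw [h3] at hrel
      field_simp at hrel
      rw [hrel]
      ring
    have e1 : g • g • (u₀ * w ^ n) = g • g • u₀ * (g • g • w) ^ n := by
      simp only [SemilinearAut.smul_def, map_mul, map_pow]
    have e2 : g • (u₀ * w ^ n) = g • u₀ * (g • w) ^ n := by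
      simp only [SemilinearAut.smul_def, map_mul, map_pow]
    rw [e1, e2]
    have e3 : g • g • u₀ * (g • g • w) ^ n * (u₀ * w ^ n) =
        (g • g • u₀ * u₀) * ((g • g • w) ^ n * w ^ n) := by ring
    rw [e3, hrel', div_pow, mul_pow, mul_pow, ← pow_mul, ← pow_mul]
    field_simp
    ring

/-- **(REP) from approximation.**  Let `V₁ V₂` be valuation subrings of `F` with the same
restriction to the constants `K`.  Assume that the constants are `n`-divisible, that every
nonzero element of `F` is a constant times a unit for each `Vᵢ` (`e = 1`), that there are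
`b`, `c'` with `b` a unit of `V₁` and a non-unit of `V₂`, `c'` a non-unit of `V₁` and a unit of
`V₂` (weak approximation), and that the powers of `b` become arbitrarily small for `V₂`.  Then
every nonzero `u` is `u₀ * w ^ n` with `u₀` a unit of both `V₁` and `V₂`. -/
theorem rep_of_approx {n : ℕ} (hn : n ≠ 0) (V₁ V₂ : ValuationSubring F)
    (hK : ∀ a : K, V₂.valuation (algebraMap K F a) ≤ 1 → V₁.valuation (algebraMap K F a) ≤ 1)
    (hdiv : ∀ a : K, ∃ d : K, d ^ n = a)
    (he₁ : ∀ x : F, x ≠ 0 → ∃ a : K, a ≠ 0 ∧ V₁.valuation (x / algebraMap K F a) = 1)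
    (he₂ : ∀ x : F, x ≠ 0 → ∃ a : K, a ≠ 0 ∧ V₂.valuation (x / algebraMap K F a) = 1)
    (b c' : F) (hb₁ : V₁.valuation b = 1) (hc₁ : V₁.valuation c' < 1)
    (hc₂ : V₂.valuation c' = 1)
    (harch : ∀ d : F, d ≠ 0 → ∃ k : ℕ, V₂.valuation (b ^ k / d) < 1)
    (u : F) (hu : u ≠ 0) :
    ∃ u₀ w : F, w ≠ 0 ∧ u = u₀ * w ^ n ∧ V₁.valuation u₀ = 1 ∧ V₂.valuation u₀ = 1 := by
  -- the key approximation: for a constant `d ≠ 0` there is `G` with `|G|₁ = 1`, `|G / d|₂ = 1`
  have key₀ : ∀ d : K, d ≠ 0 → V₂.valuation (algebraMap K F d) ≤ 1 →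
      ∃ G : F, V₁.valuation G = 1 ∧ V₂.valuation (G / algebraMap K F d) = 1 := by
    intro d hd hd2
    have hd1 := hK d hd2
    have hdF : algebraMap K F d ≠ 0 := (map_ne_zero _).mpr hd
    obtain ⟨k, hk⟩ := harch _ hdF
    refine ⟨b ^ k + algebraMap K F d * c', ?_, ?_⟩
    · have h1 : V₁.valuation (algebraMap K F d * c') < V₁.valuation (b ^ k) := by
        rw [map_pow, hb₁, one_pow, map_mul]
        exact mul_lt_one_of_nonneg_of_lt_one_right hd1 zero_le hc₁
      rw [Valuation.map_add_eq_of_lt_left _ h1, map_pow, hb₁, one_pow]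
    · have e : (b ^ k + algebraMap K F d * c') / algebraMap K F d =
          b ^ k / algebraMap K F d + c' := by
        field_simp
      rw [e, Valuation.map_add_eq_of_lt_right _ (by rw [hc₂]; exact hk), hc₂]
  have key : ∀ d : K, d ≠ 0 →
      ∃ G : F, V₁.valuation G = 1 ∧ V₂.valuation (G / algebraMap K F d) = 1 := by
    intro d hd
    by_cases hd2 : V₂.valuation (algebraMap K F d) ≤ 1
    · exact key₀ d hd hd2
    · have hd2' : V₂.valuation (algebraMap K F d⁻¹) ≤ 1 := by
        rw [map_inv₀, map_inv₀]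
        exact inv_le_one_of_one_le₀ (le_of_lt (not_le.mp hd2))
      obtain ⟨G, hG1, hG2⟩ := key₀ d⁻¹ (inv_ne_zero hd) hd2'
      refine ⟨G⁻¹, by rw [map_inv₀, hG1, inv_one], ?_⟩
      have e : G⁻¹ / algebraMap K F d = (G / algebraMap K F d⁻¹)⁻¹ := by
        rw [map_inv₀]
        field_simp
      rw [e, map_inv₀, hG2, inv_one]
  obtain ⟨a₁, ha₁, hv₁⟩ := he₁ u hu
  obtain ⟨d₁, rfl⟩ := hdiv a₁
  have hd₁ : d₁ ≠ 0 := by
    rintro rfl
    exact ha₁ (zero_pow hn)
  have hd₁F : algebraMap K F d₁ ≠ 0 := (map_ne_zero _).mpr hd₁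
  have hu₁ : u / algebraMap K F (d₁ ^ n) ≠ 0 :=
    div_ne_zero hu ((map_ne_zero _).mpr ha₁)
  obtain ⟨a₂, ha₂, hv₂⟩ := he₂ _ hu₁
  obtain ⟨d, rfl⟩ := hdiv a₂
  have hd : d ≠ 0 := by
    rintro rfl
    exact ha₂ (zero_pow hn)
  have hdF : algebraMap K F d ≠ 0 := (map_ne_zero _).mpr hd
  obtain ⟨G, hG1, hG2⟩ := key d hd
  have hG : G ≠ 0 := by
    rintro rfl
    rw [map_zero] at hG1
    exact zero_ne_one hG1
  refine ⟨u / algebraMap K F (d₁ ^ n) / G ^ n, G * algebraMap K F d₁, mul_ne_zero hG hd₁F,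
    ?_, ?_, ?_⟩
  · rw [map_pow]
    field_simp
    ring
  · rw [map_div₀, hv₁, map_pow, hG1, one_pow, div_one]
  · have e : u / algebraMap K F (d₁ ^ n) / G ^ n =
        (u / algebraMap K F (d₁ ^ n) / algebraMap K F (d ^ n)) / (G / algebraMap K F d) ^ n := by
      rw [map_pow, map_pow, div_pow]
      field_simp
    rw [e, map_div₀, hv₂, map_pow, hG2, one_pow, div_one]

end FreeHalf

/-! ### The modular instance: the hypothesis `hUni` of the S34 core -/

section Modular

open ModularCurve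

/-- **(UNI-FF)** at level `N`, modulus `n`, for the Galois automorphism `τ` acting on the function
field `ℚ̄(X₀(N))` coefficientwise (Prelude `arithmeticGalois`). -/
def Stmt_UniFF (N n : ℕ) (τ : AlgebraicClosure ℚ ≃ₐ[ℚ] AlgebraicClosure ℚ) : Prop :=
  UniFF (K := AlgebraicClosure ℚ) (F := modularFunctionFieldBar N) n
    (arithmeticGalois (modularFunctionFieldFull N) τ)

/-- **(UNI)** in the shape consumed by the S34 core (hypothesis `hUni` of
`Fermat.Agent.S34.helper1336`) for `J = JZero N`: inertia at `q` acts unipotently on the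
`p`-power torsion of `J₀(N)`. -/
def Stmt_Uni (N p q : ℕ) : Prop :=
  ∀ P : ValuationSubring (AlgebraicClosure ℚ), P.LiesOverPrime q →
    ∀ τ ∈ P.inertiaSubgroupIn ℚ, ∀ x : JZero N, (∃ n : ℕ, p ^ n • x = 0) →
      τ • τ • x - (2 : ℤ) • (τ • x) + x = 0

variable {N : ℕ} [HasPrincipalDivisors (AlgebraicClosure ℚ) (modularFunctionFieldBar N)]

/-- (UNI-FF) for all powers of `p` gives `(τ - 1) ^ 2 = 0` on the `p`-power torsion of `J₀(N)`. -/
theorem unipotent_of_stmt_UniFF {p : ℕ} (hp : p ≠ 0)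
    (τ : AlgebraicClosure ℚ ≃ₐ[ℚ] AlgebraicClosure ℚ) (h : ∀ m : ℕ, Stmt_UniFF N (p ^ m) τ)
    (x : JZero N) (hx : ∃ n : ℕ, p ^ n • x = 0) :
    τ • τ • x - (2 : ℤ) • (τ • x) + x = 0 := by
  obtain ⟨m, hm⟩ := hx
  have hm' : ((p ^ m : ℕ) : ℤ) • x = 0 := by
    rw [natCast_zsmul]
    exact hm
  rw [galois_smul_pic0_def, galois_smul_pic0_def]
  exact unipotent_of_uniFF (pow_ne_zero m hp) _ (h m) x hm'

/-- **S34-UNI-BRIDGE**: the hypothesis `hUni` of the S34 core from (UNI-FF) at every inertia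
element at `q`. -/
theorem stmt_Uni_of_uniFF {p : ℕ} (hp : p ≠ 0) (q : ℕ)
    (h : ∀ P : ValuationSubring (AlgebraicClosure ℚ), P.LiesOverPrime q →
      ∀ τ ∈ P.inertiaSubgroupIn ℚ, ∀ m : ℕ, Stmt_UniFF N (p ^ m) τ) :
    Stmt_Uni N p q :=
  fun P hP τ hτ x hx => unipotent_of_stmt_UniFF hp τ (h P hP τ hτ) x hx

end Modular

end Fermat.Agent.S34.helper584
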