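/-
S34-UNI-INST (helper584): the hypotheses of the bridge `uniFF_of_rep_of_torFix`
(`Fermat/Agent/S34/helper584_UniBridge.lean`) at the concrete Gauss valuation ring
`gaussV A N := Fermat.Agent.S18.helper8991.gaussF A (residue A) N` of `ℚ̄(X₀(N))` (any level `N`,
any valuation subring `A` of `ℚ̄`), and at its twin `(gaussV A N).comap W` under an automorphism
`W` of the function field commuting with the coefficientwise Galois action (Atkin–Lehner).

* `gaussF_inertia`, `gaussF_valuation_inertia_sub_lt` : inertia at `A` preserves the Gauss ring and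
  induces the identity on its residue field.
* `gaussF_exists_const` : `e = 1` over the constants.
* `gaussV_arch` : rank one.
* `Stmt_TorFix` : (TORFIX) for the pair `(gaussV A N, (gaussV A N).comap W)`.
* `stmt_UniFF_of_torFix`, `stmt_Uni_of_torFix` : (TORFIX) + the `W`-interface give (UNI-FF) and
  the hypothesis `hUni` of the S34 core.
* `exists_witness`, `stmt_Uni_of_torFix_of_swap` : the witnesses `j - j_q ^ q`, `j_q - j ^ q`.
* `gaussF_congr`, `gaussF_eq_gaussV` : the Gauss ring depends only on the kernel of the residue map.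
* `atkinLehnerBar_swap`, `stmt_UniFF_of_torFix_atkinLehner`, `stmt_UniFF_of_torFix_level`,
  `stmt_Uni_of_torFix_of_descent` : the `W`-interface for the landed Atkin–Lehner automorphism
  (S35 `helper1219`), and the last link of the (UNI) chain with (TORFIX) at the auxiliary levels
  and the level descent as the only hypotheses.
-/
import Fermat.Agent.S34.helper584_UniBridge
import Fermat.Agent.S18.helper8991_GaussInst
import Fermat.Agent.S18.helper9428_RankOne
import Fermat.Agent.S37.helper5666_KroneckerSeries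
import Fermat.Agent.S35.helper1219_AtkinLehnerFF
import Fermat.Prelude.Thm_ModularCurve_coeffMap_qExpand
import Fermat.Prelude.Thm_ModularCurve_coeff_jqModC_neg_one

set_option autoImplicit false

namespace Fermat.Agent.S34.helper584

open AlgebraicCurve ModularCurve
open Fermat.Agent.S29.helper8217
open Fermat.Agent.S18

noncomputable section

/-! ### Valuations of a pulled-back valuation subring -/

section Comap

variable {F : Type*} [Field F] (V : ValuationSubring F) (W : F →+* F)

theorem valuation_comap_le_one_iff (x : F) :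
    (V.comap W).valuation x ≤ 1 ↔ V.valuation (W x) ≤ 1 := by
  rw [ValuationSubring.valuation_le_one_iff, ValuationSubring.valuation_le_one_iff,
    ValuationSubring.mem_comap]

theorem valuation_comap_lt_one_iff (x : F) :
    (V.comap W).valuation x < 1 ↔ V.valuation (W x) < 1 := by
  rw [← ValuationSubring.mem_nonunits_iff, ← ValuationSubring.mem_nonunits_iff,
    ValuationSubring.mem_nonunits_iff_or, ValuationSubring.mem_nonunits_iff_or,
    ValuationSubring.mem_comap, map_inv₀, map_eq_zero]

theorem valuation_comap_eq_one_iff (x : F) :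
    (V.comap W).valuation x = 1 ↔ V.valuation (W x) = 1 := by
  have h1 := valuation_comap_le_one_iff V W x
  have h2 := valuation_comap_lt_one_iff V W x
  constructor
  · intro h
    exact le_antisymm (h1.mp h.le)
      (not_lt.mp fun hlt => absurd (h2.mpr hlt) (by rw [h]; exact lt_irrefl _))
  · intro h
    exact le_antisymm (h1.mpr h.le)
      (not_lt.mp fun hlt => absurd (h2.mp hlt) (by rw [h]; exact lt_irrefl _))

end Comap

/-! ### Inertia and the Gauss valuation ring -/

section Inertia

variable {L : Type*} [Field L] [Algebra ℚ L] (A : ValuationSubring L)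

/-- The restriction to `A` of an element of the decomposition group. -/
def decompRingHom (g : A.decompositionSubgroup ℚ) : A →+* A :=
  MulSemiringAction.toRingHom (A.decompositionSubgroup ℚ) A g

theorem coe_decompRingHom (g : A.decompositionSubgroup ℚ) (a : A) :
    ((decompRingHom A g a : A) : L) = (g : L ≃ₐ[ℚ] L) (a : L) := rfl

theorem inc_coeffMap_decomp (g : A.decompositionSubgroup ℚ) (X : LaurentSeries A) :
    helper8991.inc A (coeffMap (decompRingHom A g) X) =
      coeffMap (((g : L ≃ₐ[ℚ] L) : L ≃+* L) : L →+* L) (helper8991.inc A X) := by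
  ext n
  rfl

theorem residue_decompRingHom_of_mem_inertia (g : A.decompositionSubgroup ℚ)
    (hg : g ∈ A.inertiaSubgroup ℚ) (a : A) :
    IsLocalRing.residue A (decompRingHom A g a) = IsLocalRing.residue A a := by
  have hker : MulSemiringAction.toRingAut (A.decompositionSubgroup ℚ)
      (IsLocalRing.ResidueField A) g = 1 := hg
  have h1 : g • (IsLocalRing.residue A a) = IsLocalRing.residue A a := by
    have := congrArg (fun e : RingAut (IsLocalRing.ResidueField A) =>
      e (IsLocalRing.residue A a)) hker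
    exact this
  exact h1

theorem red_coeffMap_decomp_of_mem_inertia (g : A.decompositionSubgroup ℚ)
    (hg : g ∈ A.inertiaSubgroup ℚ) (X : LaurentSeries A) :
    helper8991.red A (IsLocalRing.residue A) (coeffMap (decompRingHom A g) X) =
      helper8991.red A (IsLocalRing.residue A) X := by
  ext n
  exact residue_decompRingHom_of_mem_inertia A g hg (X.coeff n)

/-- **Inertia acts trivially on the reduction of the Gauss ring**: for `τ` in the inertia group of
`A`, the coefficientwise action of `τ` preserves the Gauss valuation ring of `ℚ̄(X₀(N))` and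
commutes with its reduction map. -/
theorem gaussF_inertia (N : ℕ) {τ : L ≃ₐ[ℚ] L} (hτ : τ ∈ A.inertiaSubgroupIn ℚ)
    (x : laurentBaseChange L (modularFunctionFieldFull N))
    (hx : x ∈ helper8991.gaussF A (IsLocalRing.residue A) N) :
    ∃ hx' : arithmeticGalois (modularFunctionFieldFull N) τ • x ∈
        helper8991.gaussF A (IsLocalRing.residue A) N,
      helper8991.gaussFRed A (IsLocalRing.residue A) N ⟨_, hx'⟩ =
        helper8991.gaussFRed A (IsLocalRing.residue A) N ⟨x, hx⟩ := by
  obtain ⟨g, hg, rfl⟩ := hτ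
  obtain ⟨X, Y, hY, h⟩ := (helper8991.mem_gaussF_iff A (IsLocalRing.residue A) N x).mp hx
  have hY' : helper8991.red A (IsLocalRing.residue A) (coeffMap (decompRingHom A g) Y) ≠ 0 := by
    rw [red_coeffMap_decomp_of_mem_inertia A g hg]
    exact hY
  have h' : ((arithmeticGalois (modularFunctionFieldFull N)
        ((A.decompositionSubgroup ℚ).subtype g) • x :
          laurentBaseChange L (modularFunctionFieldFull N)) : LaurentSeries L) *
        helper8991.inc A (coeffMap (decompRingHom A g) Y) =
      helper8991.inc A (coeffMap (decompRingHom A g) X) := by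
    rw [inc_coeffMap_decomp, inc_coeffMap_decomp, ← h, map_mul]
    rfl
  have hx' : arithmeticGalois (modularFunctionFieldFull N)
      ((A.decompositionSubgroup ℚ).subtype g) • x ∈
        helper8991.gaussF A (IsLocalRing.residue A) N :=
    (helper8991.mem_gaussF_iff A (IsLocalRing.residue A) N _).mpr ⟨_, _, hY', h'⟩
  refine ⟨hx', ?_⟩
  rw [helper8991.gaussFRed_eq A (IsLocalRing.residue A) N ⟨_, hx'⟩ hY' h',
    helper8991.gaussFRed_eq A (IsLocalRing.residue A) N ⟨x, hx⟩ hY h,
    red_coeffMap_decomp_of_mem_inertia A g hg, red_coeffMap_decomp_of_mem_inertia A g hg]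

/-- Valuation form of `gaussF_inertia`: the hypothesis `hg₁` of `uniFF_of_rep_of_torFix`. -/
theorem gaussF_valuation_inertia_sub_lt (N : ℕ) {τ : L ≃ₐ[ℚ] L}
    (hτ : τ ∈ A.inertiaSubgroupIn ℚ) (x : laurentBaseChange L (modularFunctionFieldFull N))
    (hx : (helper8991.gaussF A (IsLocalRing.residue A) N).valuation x ≤ 1) :
    (helper8991.gaussF A (IsLocalRing.residue A) N).valuation
      (arithmeticGalois (modularFunctionFieldFull N) τ • x - x) < 1 := by
  have hx' := (ValuationSubring.valuation_le_one_iff _ _).mp hx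
  obtain ⟨hgx, hred⟩ := gaussF_inertia A N hτ x hx'
  have hd : helper8991.gaussFRed A (IsLocalRing.residue A) N
      (⟨_, hgx⟩ - ⟨x, hx'⟩) = 0 := by
    rw [map_sub, hred, sub_self]
  have hm := (helper8991.gaussFRed_eq_zero_iff A (IsLocalRing.residue A) N _).mp hd
  exact (ValuationSubring.valuation_lt_one_iff _ _).mp hm

/-- `e = 1` over the constants: every nonzero function is a constant times a Gauss unit. -/
theorem gaussF_exists_const {k : Type*} [Field k] (π : A →+* k) (N : ℕ)
    (x : laurentBaseChange L (modularFunctionFieldFull N)) (hx : x ≠ 0) :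
    ∃ a : L, a ≠ 0 ∧ (helper8991.gaussF A π N).valuation
      (x / algebraMap L (laurentBaseChange L (modularFunctionFieldFull N)) a) = 1 := by
  obtain ⟨c, u, hc, hu, hxu⟩ := helper8991.exists_const_mul_unit_F A π N x hx
  refine ⟨c, hc, ?_⟩
  have hunit : IsUnit u := (helper8991.isUnit_iff_gaussFRed_ne_zero A π N u).mpr hu
  have hcF : algebraMap L (laurentBaseChange L (modularFunctionFieldFull N)) c ≠ 0 :=
    (map_ne_zero _).mpr hc
  have e : x / algebraMap L (laurentBaseChange L (modularFunctionFieldFull N)) c =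
      (u : laurentBaseChange L (modularFunctionFieldFull N)) := by
    rw [hxu, mul_div_cancel_left₀ _ hcF]
  rw [e]
  exact (ValuationSubring.valuation_eq_one_iff _ u).mp hunit

/-- The Gauss ring lies over `A`. -/
theorem gaussF_valuation_algebraMap_le_one_iff (N : ℕ) (c : L) :
    (helper8991.gaussF A (IsLocalRing.residue A) N).valuation
      (algebraMap L (laurentBaseChange L (modularFunctionFieldFull N)) c) ≤ 1 ↔ c ∈ A := by
  rw [ValuationSubring.valuation_le_one_iff]
  exact helper8991.algebraMap_mem_gaussF_iff A (IsLocalRing.residue A) N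
    (fun a ha => (IsLocalRing.residue_eq_zero_iff a).mpr ha) c

end Inertia

/-! ### The modular instance over `ℚ̄` -/

section Qbar

local notation "Qb" => AlgebraicClosure ℚ

/-- The Gauss valuation ring of `ℚ̄(X₀(N))` attached to a valuation subring `A` of `ℚ̄`
(coefficientwise Gauss valuation of `q`-expansions at the cusp `∞`). -/
abbrev gaussV (A : ValuationSubring Qb) (N : ℕ) : ValuationSubring (modularFunctionFieldBar N) :=
  helper8991.gaussF A (IsLocalRing.residue A) N

/-- **Rank one**: a power of a Gauss-small function is smaller than any nonzero function. -/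
theorem gaussV_arch {q : ℕ} (hq : q.Prime) (A : ValuationSubring Qb) (hA : A.LiesOverPrime q)
    (N : ℕ) {ε : modularFunctionFieldBar N} (hε : (gaussV A N).valuation ε < 1)
    {d : modularFunctionFieldBar N} (hd : d ≠ 0) :
    ∃ k : ℕ, (gaussV A N).valuation (ε ^ k / d) < 1 := by
  rcases eq_or_ne ε 0 with rfl | hε0
  · refine ⟨1, ?_⟩
    rw [pow_one, zero_div, map_zero]
    exact zero_lt_one
  obtain ⟨a, ha, hva⟩ := gaussF_exists_const A (IsLocalRing.residue A) N ε hε0
  obtain ⟨c, hc, hvc⟩ := gaussF_exists_const A (IsLocalRing.residue A) N d hd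
  have haF : (gaussV A N).valuation (algebraMap Qb (modularFunctionFieldBar N) a) ≠ 0 :=
    (Valuation.ne_zero_iff _).mpr ((map_ne_zero _).mpr ha)
  have hcF : (gaussV A N).valuation (algebraMap Qb (modularFunctionFieldBar N) c) ≠ 0 :=
    (Valuation.ne_zero_iff _).mpr ((map_ne_zero _).mpr hc)
  have hεa : (gaussV A N).valuation ε =
      (gaussV A N).valuation (algebraMap Qb (modularFunctionFieldBar N) a) := by
    rw [map_div₀] at hva
    exact (div_eq_one_iff_eq haF).mp hva
  have hdc : (gaussV A N).valuation d =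
      (gaussV A N).valuation (algebraMap Qb (modularFunctionFieldBar N) c) := by
    rw [map_div₀] at hvc
    exact (div_eq_one_iff_eq hcF).mp hvc
  have hat : a ∈ A.nonunits := by
    rw [ValuationSubring.mem_nonunits_iff_or]
    right
    intro hinv
    have h1 := (gaussF_valuation_algebraMap_le_one_iff A N a⁻¹).mpr hinv
    rw [map_inv₀, map_inv₀, ← hεa] at h1
    have hε0' : (gaussV A N).valuation ε ≠ 0 := (Valuation.ne_zero_iff _).mpr hε0
    have h2 : 1 ≤ (gaussV A N).valuation ε := by
      rwa [inv_le_one₀ (zero_lt_iff.mpr hε0')] at h1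
    exact absurd hε (not_lt.mpr h2)
  obtain ⟨n, hn⟩ := helper9428.exists_pow_le_of_le (A := A) (gaussV A N)
    (fun x hx => (ValuationSubring.valuation_le_one_iff _ _).mp
      ((gaussF_valuation_algebraMap_le_one_iff A N x).mpr hx)) hq hA hat hc (le_of_eq hεa)
  refine ⟨n + 1, ?_⟩
  have hd0 : 0 < (gaussV A N).valuation d := zero_lt_iff.mpr ((Valuation.ne_zero_iff _).mpr hd)
  rw [map_div₀, div_lt_one₀ hd0, pow_succ, map_mul, hdc]
  calc (gaussV A N).valuation (ε ^ n) * (gaussV A N).valuation ε
      ≤ (gaussV A N).valuation (algebraMap Qb (modularFunctionFieldBar N) c) *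
          (gaussV A N).valuation ε := mul_le_mul_left hn _
    _ < (gaussV A N).valuation (algebraMap Qb (modularFunctionFieldBar N) c) * 1 :=
        mul_lt_mul_of_pos_left hε (zero_lt_iff.mpr hcF)
    _ = _ := mul_one _

/-- **(TORFIX)** for the Gauss ring `gaussV A N` and its pull-back under `W`: for every
`n`-Kummer element `h` which is `≡ 1` for both valuations, `τ h / h` is a divisor-free element
times an `n`-th power (the class of `h` is fixed by `τ`).  For `τ` in the inertia group of `A`
this is the export (E5) of the geometry module shared with S35. -/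
def Stmt_TorFix (N n : ℕ) (A : ValuationSubring Qb)
    (W : modularFunctionFieldBar N ≃ₐ[Qb] modularFunctionFieldBar N) (τ : Qb ≃ₐ[ℚ] Qb) : Prop :=
  ∀ h : modularFunctionFieldBar N, IsKummer Qb n h →
    (gaussV A N).valuation (h - 1) < 1 → (gaussV A N).valuation (W h - 1) < 1 →
    ∃ w c : modularFunctionFieldBar N, w ≠ 0 ∧ c ≠ 0 ∧
      (∀ v : Place Qb (modularFunctionFieldBar N), v.ord c = 0) ∧
      arithmeticGalois (modularFunctionFieldFull N) τ • h = h * (c * w ^ n)

/-- **(UNI-FF) from (TORFIX)**: `A` a valuation subring of `ℚ̄` over the prime `q`, `τ` in its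
inertia group, `W` an automorphism of `ℚ̄(X₀(N))` over `ℚ̄` commuting with `τ`, and witnesses
`b`, `c'` that the Gauss valuation and its `W`-twin are distinct. -/
theorem stmt_UniFF_of_torFix {n : ℕ} (hn : n ≠ 0) {q : ℕ} (hq : q.Prime)
    (A : ValuationSubring Qb) (hA : A.LiesOverPrime q) (N : ℕ)
    {τ : Qb ≃ₐ[ℚ] Qb} (hτ : τ ∈ A.inertiaSubgroupIn ℚ)
    (W : modularFunctionFieldBar N ≃ₐ[Qb] modularFunctionFieldBar N)
    (hWτ : ∀ x : modularFunctionFieldBar N,
      W (arithmeticGalois (modularFunctionFieldFull N) τ • x) =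
        arithmeticGalois (modularFunctionFieldFull N) τ • W x)
    (b c' : modularFunctionFieldBar N)
    (hb₁ : (gaussV A N).valuation b = 1) (hb₂ : (gaussV A N).valuation (W b) < 1)
    (hc₁ : (gaussV A N).valuation c' < 1) (hc₂ : (gaussV A N).valuation (W c') = 1)
    (hTor : Stmt_TorFix N n A W τ) : Stmt_UniFF N n τ := by
  let Wr : modularFunctionFieldBar N →+* modularFunctionFieldBar N :=
    ((W : modularFunctionFieldBar N ≃+* modularFunctionFieldBar N) :
      modularFunctionFieldBar N →+* modularFunctionFieldBar N)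
  have hWr : ∀ x, Wr x = W x := fun _ => rfl
  have hg₁ := gaussF_valuation_inertia_sub_lt A N hτ
  refine uniFF_of_rep_of_torFix _ (gaussV A N) ((gaussV A N).comap Wr) hg₁ ?_ ?_ ?_
  · intro x hx
    rw [valuation_comap_le_one_iff, hWr] at hx
    rw [valuation_comap_lt_one_iff, hWr, map_sub, hWτ]
    exact hg₁ (W x) hx
  · intro u hu
    refine rep_of_approx hn (gaussV A N) ((gaussV A N).comap Wr) ?_
      (fun a => IsAlgClosed.exists_pow_nat_eq a (Nat.pos_of_ne_zero hn))
      (gaussF_exists_const A (IsLocalRing.residue A) N) ?_ b c' hb₁ hc₁ ?_ ?_ u hu.ne_zero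
    · intro a ha
      rwa [valuation_comap_le_one_iff, hWr, W.commutes] at ha
    · intro x hx
      obtain ⟨a, ha, hva⟩ := gaussF_exists_const A (IsLocalRing.residue A) N (W x)
        ((map_ne_zero W).mpr hx)
      refine ⟨a, ha, ?_⟩
      rw [valuation_comap_eq_one_iff, hWr, map_div₀, W.commutes]
      exact hva
    · rw [valuation_comap_eq_one_iff, hWr]
      exact hc₂
    · intro d hd
      obtain ⟨k, hk⟩ := gaussV_arch hq A hA N hb₂ ((map_ne_zero W).mpr hd)
      refine ⟨k, ?_⟩
      rw [valuation_comap_lt_one_iff, hWr, map_div₀, map_pow]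
      exact hk
  · intro h hK h1 h2
    rw [valuation_comap_lt_one_iff, hWr, map_sub, map_one] at h2
    exact hTor h hK h1 h2

/-- **S34-UNI-INST**: the hypothesis `hUni` of the S34 core (`Stmt_Uni N p q`) from the
`W`-interface (an automorphism of `ℚ̄(X₀(N))` over `ℚ̄` commuting with the coefficientwise Galois
action, with witnesses at every place over `q`) and (TORFIX) at every inertia element. -/
theorem stmt_Uni_of_torFix {N : ℕ}
    [HasPrincipalDivisors Qb (modularFunctionFieldBar N)] {p q : ℕ} (hp : p ≠ 0) (hq : q.Prime)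
    (W : modularFunctionFieldBar N ≃ₐ[Qb] modularFunctionFieldBar N)
    (hWG : ∀ (τ : Qb ≃ₐ[ℚ] Qb) (x : modularFunctionFieldBar N),
      W (arithmeticGalois (modularFunctionFieldFull N) τ • x) =
        arithmeticGalois (modularFunctionFieldFull N) τ • W x)
    (hwit : ∀ A : ValuationSubring Qb, A.LiesOverPrime q →
      ∃ b c' : modularFunctionFieldBar N,
        (gaussV A N).valuation b = 1 ∧ (gaussV A N).valuation (W b) < 1 ∧
        (gaussV A N).valuation c' < 1 ∧ (gaussV A N).valuation (W c') = 1)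
    (hTor : ∀ A : ValuationSubring Qb, A.LiesOverPrime q → ∀ τ ∈ A.inertiaSubgroupIn ℚ,
      ∀ m : ℕ, Stmt_TorFix N (p ^ m) A W τ) :
    Stmt_Uni N p q := by
  refine stmt_Uni_of_uniFF hp q fun A hA τ hτ m => ?_
  obtain ⟨b, c', hb₁, hb₂, hc₁, hc₂⟩ := hwit A hA
  exact stmt_UniFF_of_torFix (pow_ne_zero m hp) hq A hA N hτ W (hWG τ) b c' hb₁ hb₂ hc₁ hc₂
    (hTor A hA τ hτ m)

end Qbar

/-! ### The witnesses `j - j_q ^ q` and `j_q - j ^ q` (Kronecker) -/

section Witness

local notation "Qb" => AlgebraicClosure ℚ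

/-- The residue field of a valuation subring in which the prime `q` is a non-unit has
characteristic `q`. -/
theorem charP_residueField {L : Type*} [Field L] {q : ℕ} (hq : q.Prime) (A : ValuationSubring L)
    (hA : A.LiesOverPrime q) : CharP (IsLocalRing.ResidueField A) q := by
  have h0 : ((q : ℕ) : IsLocalRing.ResidueField A) = 0 := by
    have h1 : ((q : ℕ) : IsLocalRing.ResidueField A) = IsLocalRing.residue A ((q : ℕ) : A) :=
      (map_natCast (IsLocalRing.residue A) q).symm
    rw [h1, IsLocalRing.residue_eq_zero_iff, ValuationSubring.valuation_lt_one_iff]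
    exact (ValuationSubring.mem_nonunits_iff A).mp hA
  obtain ⟨p', hp'⟩ := CharP.exists (IsLocalRing.ResidueField A)
  have hdvd : p' ∣ q := (CharP.cast_eq_zero_iff (IsLocalRing.ResidueField A) p' q).mp h0
  rcases (Nat.dvd_prime hq).mp hdvd with h1 | h1
  · exact absurd h1 (CharP.char_ne_one (IsLocalRing.ResidueField A) p')
  · rwa [h1] at hp'

variable {q : ℕ} [NeZero q] (A : ValuationSubring Qb)

theorem jqModC_mem_bar (N : ℕ) :
    jqModC Qb ∈ laurentBaseChange Qb (modularFunctionFieldFull N) := by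
  have h1 : jqModC Qb = coeffEmb Qb jq := (map_jqModC (algebraMap ℚ Qb)).symm
  rw [h1]
  have h2 := jqd_mem_full N (one_dvd N)
  rw [qExpand_one_apply] at h2
  exact coeffEmb_mem_laurentBaseChange Qb h2

theorem qExpand_jqModC_mem_bar (N : ℕ) (hqN : q ∣ N) :
    qExpand Qb q (jqModC Qb) ∈ laurentBaseChange Qb (modularFunctionFieldFull N) := by
  have h1 : jqModC Qb = coeffEmb Qb jq := (map_jqModC (algebraMap ℚ Qb)).symm
  have h2 : qExpand Qb q (jqModC Qb) = coeffEmb Qb (qExpand ℚ q jq) := by
    rw [h1]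
    exact (coeffMap_qExpand (algebraMap ℚ Qb) q jq).symm
  rw [h2]
  exact coeffEmb_mem_laurentBaseChange Qb (jqd_mem_full N hqN)

/-- The integral series `j - j_q ^ q`. -/
def wB (q : ℕ) [NeZero q] (A : ValuationSubring Qb) : LaurentSeries A :=
  jqModC A - (qExpand A q (jqModC A)) ^ q

/-- The integral series `j_q - j ^ q`. -/
def wC (q : ℕ) [NeZero q] (A : ValuationSubring Qb) : LaurentSeries A :=
  qExpand A q (jqModC A) - (jqModC A) ^ q

theorem inc_jqModC : helper8991.inc A (jqModC A) = jqModC Qb := map_jqModC A.subtype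

theorem inc_wB : helper8991.inc A (wB q A) =
    jqModC Qb - (qExpand Qb q (jqModC Qb)) ^ q := by
  rw [wB, map_sub, map_pow, coeffMap_qExpand, inc_jqModC]

theorem inc_wC : helper8991.inc A (wC q A) =
    qExpand Qb q (jqModC Qb) - (jqModC Qb) ^ q := by
  rw [wC, map_sub, map_pow, coeffMap_qExpand, inc_jqModC]

theorem red_jqModC : helper8991.red A (IsLocalRing.residue A) (jqModC A) =
    jqModC (IsLocalRing.ResidueField A) := map_jqModC (IsLocalRing.residue A)

theorem red_wB_ne_zero (hq : q.Prime) :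
    helper8991.red A (IsLocalRing.residue A) (wB q A) ≠ 0 := by
  intro h0
  have h1 : helper8991.red A (IsLocalRing.residue A) (wB q A) =
      jqModC (IsLocalRing.ResidueField A) -
        qExpand (IsLocalRing.ResidueField A) q (jqModC (IsLocalRing.ResidueField A) ^ q) := by
    rw [wB, map_sub, map_pow, coeffMap_qExpand, red_jqModC, map_pow]
  have h2 := congrArg (fun Z : LaurentSeries (IsLocalRing.ResidueField A) => Z.coeff (-1)) h0
  simp only [h1, HahnSeries.coeff_sub, HahnSeries.coeff_zero] at h2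
  have hnd : ¬ ((q : ℤ) ∣ (-1 : ℤ)) := by
    intro hd
    have h3 : (q : ℤ) ∣ 1 := (dvd_neg.mp hd)
    have h4 : q ∣ 1 := Int.natCast_dvd_natCast.mp (by simpa using h3)
    exact hq.one_lt.ne' (Nat.dvd_one.mp h4)
  rw [coeff_jqModC_neg_one, qExpand_coeff_of_not_dvd q _ hnd, sub_zero] at h2
  exact one_ne_zero h2

theorem red_wC_eq_zero (hq : q.Prime) (hA : A.LiesOverPrime q) :
    helper8991.red A (IsLocalRing.residue A) (wC q A) = 0 := by
  have : CharP (IsLocalRing.ResidueField A) q := charP_residueField hq A hA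
  have : ExpChar (IsLocalRing.ResidueField A) q := ExpChar.prime hq
  have h1 : helper8991.red A (IsLocalRing.residue A) (wC q A) =
      qExpand (IsLocalRing.ResidueField A) q (jqModC (IsLocalRing.ResidueField A)) -
        jqModC (IsLocalRing.ResidueField A) ^ q := by
    rw [wC, map_sub, map_pow, coeffMap_qExpand, red_jqModC]
  rw [h1, Fermat.Agent.S37.helper5666.pow_expChar_eq_qExpand (IsLocalRing.ResidueField A) q
    (jqModC (IsLocalRing.ResidueField A))]
  have h2 : coeffMap (frobenius (IsLocalRing.ResidueField A) q)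
      (jqModC (IsLocalRing.ResidueField A)) = jqModC (IsLocalRing.ResidueField A) :=
    map_jqModC (frobenius (IsLocalRing.ResidueField A) q)
  rw [h2, sub_self]

/-- **The witnesses.**  If `q ∣ N` and `W` swaps `j` and `j_q = j(t^q)`, then `b = j - j_q ^ q`
and `c' = j_q - j ^ q` witness that the Gauss valuation at `A ∣ q` and its `W`-twin are distinct:
`|b| = 1`, `|W b| < 1`, `|c'| < 1`, `|W c'| = 1` (Kronecker's congruence `j_q ≡ j ^ q`). -/
theorem exists_witness (hq : q.Prime) (hA : A.LiesOverPrime q) (N : ℕ) (hqN : q ∣ N)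
    (W : modularFunctionFieldBar N ≃ₐ[Qb] modularFunctionFieldBar N)
    (hW : ∀ x y : modularFunctionFieldBar N, (x : LaurentSeries Qb) = jqModC Qb →
      (y : LaurentSeries Qb) = qExpand Qb q (jqModC Qb) → W x = y ∧ W y = x) :
    ∃ b c' : modularFunctionFieldBar N,
      (gaussV A N).valuation b = 1 ∧ (gaussV A N).valuation (W b) < 1 ∧
      (gaussV A N).valuation c' < 1 ∧ (gaussV A N).valuation (W c') = 1 := by
  let x : modularFunctionFieldBar N := ⟨jqModC Qb, jqModC_mem_bar N⟩
  let y : modularFunctionFieldBar N := ⟨qExpand Qb q (jqModC Qb), qExpand_jqModC_mem_bar N hqN⟩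
  obtain ⟨hxy, hyx⟩ := hW x y rfl rfl
  have hWb : W (x - y ^ q) = y - x ^ q := by rw [map_sub, map_pow, hxy, hyx]
  have hWc : W (y - x ^ q) = x - y ^ q := by rw [map_sub, map_pow, hxy, hyx]
  -- `b` and `c'` as integral series
  have hbmem : helper8991.inc A (wB q A) ∈ laurentBaseChange Qb (modularFunctionFieldFull N) := by
    rw [inc_wB]
    exact (x - y ^ q).2
  have hcmem : helper8991.inc A (wC q A) ∈ laurentBaseChange Qb (modularFunctionFieldFull N) := by
    rw [inc_wC]
    exact (y - x ^ q).2
  have hb : x - y ^ q = ⟨helper8991.inc A (wB q A), hbmem⟩ := Subtype.ext (inc_wB A).symm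
  have hc : y - x ^ q = ⟨helper8991.inc A (wC q A), hcmem⟩ := Subtype.ext (inc_wC A).symm
  have hb1 : (gaussV A N).valuation (x - y ^ q) = 1 := by
    rw [hb]
    have hunit : IsUnit (⟨⟨helper8991.inc A (wB q A), hbmem⟩,
        helper8991.inc_mem_gaussF A (IsLocalRing.residue A) N hbmem⟩ : gaussV A N) := by
      rw [helper8991.isUnit_iff_gaussFRed_ne_zero, helper8991.gaussFRed_inc]
      exact red_wB_ne_zero A hq
    exact (ValuationSubring.valuation_eq_one_iff _ _).mp hunit
  have hc1 : (gaussV A N).valuation (y - x ^ q) < 1 := by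
    rw [hc]
    have hmem : (⟨⟨helper8991.inc A (wC q A), hcmem⟩,
        helper8991.inc_mem_gaussF A (IsLocalRing.residue A) N hcmem⟩ : gaussV A N) ∈
        IsLocalRing.maximalIdeal (gaussV A N) := by
      rw [← helper8991.gaussFRed_eq_zero_iff, helper8991.gaussFRed_inc]
      exact red_wC_eq_zero A hq hA
    exact (ValuationSubring.valuation_lt_one_iff _ _).mp hmem
  refine ⟨x - y ^ q, y - x ^ q, hb1, ?_, hc1, ?_⟩
  · rw [hWb]
    exact hc1
  · rw [hWc]
    exact hb1

/-- **S34-UNI-INST, final form**: `q ∣ N`, `W` an automorphism of `ℚ̄(X₀(N))` over `ℚ̄` which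
commutes with the coefficientwise Galois action and swaps `j` and `j(t^q)` (Atkin–Lehner `W_q`),
and (TORFIX) at every inertia element over `q`, give the hypothesis `hUni` of the S34 core. -/
theorem stmt_Uni_of_torFix_of_swap {N : ℕ}
    [HasPrincipalDivisors Qb (modularFunctionFieldBar N)] {p : ℕ} (hp : p ≠ 0) (hq : q.Prime)
    (hqN : q ∣ N) (W : modularFunctionFieldBar N ≃ₐ[Qb] modularFunctionFieldBar N)
    (hWG : ∀ (τ : Qb ≃ₐ[ℚ] Qb) (x : modularFunctionFieldBar N),
      W (arithmeticGalois (modularFunctionFieldFull N) τ • x) =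
        arithmeticGalois (modularFunctionFieldFull N) τ • W x)
    (hW : ∀ x y : modularFunctionFieldBar N, (x : LaurentSeries Qb) = jqModC Qb →
      (y : LaurentSeries Qb) = qExpand Qb q (jqModC Qb) → W x = y ∧ W y = x)
    (hTor : ∀ A : ValuationSubring Qb, A.LiesOverPrime q → ∀ τ ∈ A.inertiaSubgroupIn ℚ,
      ∀ m : ℕ, Stmt_TorFix N (p ^ m) A W τ) :
    Stmt_Uni N p q :=
  stmt_Uni_of_torFix hp hq W hWG (fun A hA => exists_witness A hq hA N hqN W hW) hTor

end Witness

/-! ### Independence of the Gauss ring of the residue map -/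

section Congr

theorem red_eq_zero_iff_forall {L : Type*} [Field L] (A : ValuationSubring L)
    {k : Type*} [Field k] (π : A →+* k) (Y : LaurentSeries A) :
    helper8991.red A π Y = 0 ↔ ∀ n : ℤ, π (Y.coeff n) = 0 := by
  constructor
  · intro h0 n
    have := congrArg (fun Z : LaurentSeries k => Z.coeff n) h0
    simpa [helper8991.red_coeff] using this
  · intro h0
    ext n
    simpa [helper8991.red_coeff] using h0 n

/-- The Gauss ring depends on the residue map `π` only through its kernel. -/
theorem gaussF_congr {L : Type*} [Field L] [Algebra ℚ L] (A : ValuationSubring L)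
    {k k' : Type*} [Field k] [Field k'] (π : A →+* k) (π' : A →+* k')
    (h : ∀ a : A, π a = 0 ↔ π' a = 0) (N : ℕ) :
    helper8991.gaussF A π N = helper8991.gaussF A π' N := by
  have hred : ∀ Y : LaurentSeries A, helper8991.red A π Y ≠ 0 ↔ helper8991.red A π' Y ≠ 0 := by
    intro Y
    rw [Ne, Ne, red_eq_zero_iff_forall A π, red_eq_zero_iff_forall A π']
    exact not_congr (forall_congr' fun n => h _)
  ext f
  rw [helper8991.mem_gaussF_iff, helper8991.mem_gaussF_iff]
  constructor
  · rintro ⟨X, Y, hY, hXY⟩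
    exact ⟨X, Y, (hred Y).mp hY, hXY⟩
  · rintro ⟨X, Y, hY, hXY⟩
    exact ⟨X, Y, (hred Y).mpr hY, hXY⟩

/-- Any residue map with kernel the maximal ideal gives the ring `gaussV A N`. -/
theorem gaussF_eq_gaussV (A : ValuationSubring (AlgebraicClosure ℚ)) {k : Type*} [Field k]
    (π : A →+* k) (hπ : ∀ a : A, π a = 0 ↔ a ∈ IsLocalRing.maximalIdeal A) (N : ℕ) :
    helper8991.gaussF A π N = gaussV A N :=
  gaussF_congr A π (IsLocalRing.residue A)
    (fun a => (hπ a).trans (IsLocalRing.residue_eq_zero_iff a).symm) N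

end Congr

section AtkinLehner

local notation "Qb" => AlgebraicClosure ℚ

open Fermat.Agent.S24.helper24 Fermat.Agent.S35.helper1219

variable {q M : ℕ} [NeZero q] [NeZero M] (h : Nat.Coprime q M)

/-- The landed Atkin–Lehner automorphism `W_q` of `ℚ̄(X₀(q M))` swaps the elements with
`q`-expansions `j` and `j(t^q)`. -/
theorem atkinLehnerBar_swap (x y : modularFunctionFieldBar (q * M))
    (hx : (x : LaurentSeries Qb) = jqModC Qb)
    (hy : (y : LaurentSeries Qb) = qExpand Qb q (jqModC Qb)) :
    atkinLehnerBar q M h x = y ∧ atkinLehnerBar q M h y = x := by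
  have hj : jqModC Qb = coeffEmb Qb jq := (map_jqModC (algebraMap ℚ Qb)).symm
  have hx' : x = jBar (q * M) := Subtype.ext (by rw [hx, coe_jBar, hj])
  have hy' : y = jBarD (q * M) q (Dvd.intro M rfl) := by
    refine Subtype.ext ?_
    rw [hy, hj]
    exact (coeffMap_qExpand (algebraMap ℚ Qb) q jq).symm
  have h1 : atkinLehnerBar q M h (jBar (q * M)) = jBarD (q * M) q (Dvd.intro M rfl) :=
    atkinLehnerBar_jBar q M h
  refine ⟨by rw [hx', hy', h1], ?_⟩
  rw [hx', hy', ← h1, atkinLehnerBar_atkinLehnerBar]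

/-- **(UNI-FF) at level `q * M` from (TORFIX) for the Atkin–Lehner automorphism**: everything
except (TORFIX) is discharged. -/
theorem stmt_UniFF_of_torFix_atkinLehner (hq : q.Prime) {n : ℕ} (hn : n ≠ 0)
    (A : ValuationSubring Qb) (hA : A.LiesOverPrime q) {τ : Qb ≃ₐ[ℚ] Qb}
    (hτ : τ ∈ A.inertiaSubgroupIn ℚ)
    (hTor : Stmt_TorFix (q * M) n A (atkinLehnerBar q M h) τ) : Stmt_UniFF (q * M) n τ := by
  obtain ⟨b, c', hb₁, hb₂, hc₁, hc₂⟩ := exists_witness A hq hA (q * M) (Dvd.intro M rfl)
    (atkinLehnerBar q M h) (atkinLehnerBar_swap h)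
  exact stmt_UniFF_of_torFix hn hq A hA (q * M) hτ (atkinLehnerBar q M h)
    (atkinLehnerBar_arithmeticGalois_smul q M h τ) b c' hb₁ hb₂ hc₁ hc₂ hTor

/-- **(UNI-FF) at a general level `N` with `q ∥ N`** from (TORFIX) for the Atkin–Lehner
automorphism at the literal level `q * M` (`N = q * M`). -/
theorem stmt_UniFF_of_torFix_level {N : ℕ} [NeZero N] (hq : q.Prime) (hqN : q ∣ N)
    (hq2 : ¬ q ^ 2 ∣ N) {n : ℕ} (hn : n ≠ 0)
    (A : ValuationSubring Qb) (hA : A.LiesOverPrime q) {τ : Qb ≃ₐ[ℚ] Qb}
    (hτ : τ ∈ A.inertiaSubgroupIn ℚ)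
    (hTor : ∀ (M' : ℕ) [NeZero M'] (h' : Nat.Coprime q M'), N = q * M' →
      Stmt_TorFix (q * M') n A (atkinLehnerBar q M' h') τ) : Stmt_UniFF N n τ := by
  obtain ⟨M', rfl⟩ := hqN
  have : NeZero M' := ⟨fun h0 => NeZero.ne (q * M') (by rw [h0, mul_zero])⟩
  have hcop : Nat.Coprime q M' := by
    rw [hq.coprime_iff_not_dvd]
    intro hd
    exact hq2 (by rw [pow_two]; exact Nat.mul_dvd_mul_left q hd)
  exact stmt_UniFF_of_torFix_atkinLehner hcop hq hn A hA hτ (hTor M' hcop rfl)

/-- **The last link of the (UNI) chain, (UNI-FF) form**, with the two remaining inputs as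
hypotheses:
* `hTor` : (TORFIX) for the Atkin–Lehner automorphism at the levels `q * M'` divisible by the
  auxiliary prime `r` (the export (E5) of the geometry module);
* `hDesc` : level descent of (UNI-FF) from the levels divisible by `r`.
Conclusion: (UNI-FF) at every level `N` with `q ∥ N`, for every inertia element at `q` and every
modulus `p ^ m` (this is `Stmt_UniFFAll N p q` of the S34 Spec, unfolded). -/
theorem stmt_UniFF_of_torFix_of_descent {p : ℕ} (hp : p ≠ 0) (hq : q.Prime) (r : ℕ)
    (hTor : ∀ (M' : ℕ) [NeZero M'] (h' : Nat.Coprime q M'), r ∣ q * M' →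
      ∀ A : ValuationSubring Qb, A.LiesOverPrime q → ∀ τ ∈ A.inertiaSubgroupIn ℚ, ∀ m : ℕ,
        Stmt_TorFix (q * M') (p ^ m) A (atkinLehnerBar q M' h') τ)
    (hDesc : ∀ (τ : Qb ≃ₐ[ℚ] Qb) (m : ℕ),
      (∀ (N' : ℕ) [NeZero N'], q ∣ N' → ¬ q ^ 2 ∣ N' → r ∣ N' → Stmt_UniFF N' (p ^ m) τ) →
      ∀ (N : ℕ) [NeZero N], q ∣ N → ¬ q ^ 2 ∣ N → Stmt_UniFF N (p ^ m) τ)
    (N : ℕ) [NeZero N] (hqN : q ∣ N) (hq2 : ¬ q ^ 2 ∣ N) :
    ∀ A : ValuationSubring Qb, A.LiesOverPrime q → ∀ τ ∈ A.inertiaSubgroupIn ℚ, ∀ m : ℕ,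
      Stmt_UniFF N (p ^ m) τ := by
  intro A hA τ hτ m
  refine hDesc τ m (fun N' _ hqN' hq2' hr => ?_) N hqN hq2
  exact stmt_UniFF_of_torFix_level hq hqN' hq2' (pow_ne_zero m hp) A hA hτ
    (fun M' _ h' hN' => hTor M' h' (hN' ▸ hr) A hA τ hτ m)

/-- **The last link of the (UNI) chain**: the hypothesis `hUni` of the S34 core at every level
`N` with `q ∥ N`, from (TORFIX) at the auxiliary levels and the level descent. -/
theorem stmt_Uni_of_torFix_of_descent {p : ℕ} (hp : p ≠ 0) (hq : q.Prime) (r : ℕ)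
    (hTor : ∀ (M' : ℕ) [NeZero M'] (h' : Nat.Coprime q M'), r ∣ q * M' →
      ∀ A : ValuationSubring Qb, A.LiesOverPrime q → ∀ τ ∈ A.inertiaSubgroupIn ℚ, ∀ m : ℕ,
        Stmt_TorFix (q * M') (p ^ m) A (atkinLehnerBar q M' h') τ)
    (hDesc : ∀ (τ : Qb ≃ₐ[ℚ] Qb) (m : ℕ),
      (∀ (N' : ℕ) [NeZero N'], q ∣ N' → ¬ q ^ 2 ∣ N' → r ∣ N' → Stmt_UniFF N' (p ^ m) τ) →
      ∀ (N : ℕ) [NeZero N], q ∣ N → ¬ q ^ 2 ∣ N → Stmt_UniFF N (p ^ m) τ)
    (N : ℕ) [NeZero N] [HasPrincipalDivisors Qb (modularFunctionFieldBar N)]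
    (hqN : q ∣ N) (hq2 : ¬ q ^ 2 ∣ N) : Stmt_Uni N p q :=
  stmt_Uni_of_uniFF hp q (stmt_UniFF_of_torFix_of_descent hp hq r hTor hDesc N hqN hq2)

end AtkinLehner

end

end Fermat.Agent.S34.helper584
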