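/-
S34 / S35, integration leaf (E5), modular instance (helper2423).

`Fermat.Agent.S34.helper584.Stmt_TorFix N n A W τ` (the last open input of the (UNI) chain of S34)
at the Gauss valuation ring `gaussV A N` of `ℚ̄(X₀(N))` and its pull-back under `W`:

* `stmt_TorFix_of_gen_of_kc` : from (GEN) per chart and the two-chart Kummer core (KC)
  (`Fermat.Agent.S35.helper2423.torFix_of_gen_of_kc`);
* `gaussVals A N W`, `gaussValL A N` : the two Gauss valuations as a family with ONE value group,
  with the facts consumed by the special-fibre machinery (unit balls, rank one, value group of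
  the constants, `n` a unit);
* `stmt_TorFix_of_nodal` : from the nodal description of the reduced twisted lattices
  (`Fermat.Agent.S35.helper2423.torFix_of_nodal`): the remaining hypotheses are exactly the
  exports of (E1) [a reduction datum `RedDataW` for `gaussVals`, cartesian Riemann-Roch spaces]
  and (E3) [`red (ball ∩ L(D_h + a E1 + b E2)) = glued c (T a b)`].
-/
import Mathlib
import Fermat.Agent.S34.helper584_UniInst
import Fermat.Agent.S35.helper2423_TorFixSF
import Fermat.Agent.S37.helper5162_HeckeInputsModular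

set_option autoImplicit false

namespace Fermat.Agent.S34.helper2423

open AlgebraicCurve ModularCurve
open Fermat.Agent.S29.helper8217
open Fermat.Agent.S34.helper584

local notation "Qb" => AlgebraicClosure ℚ

noncomputable section

/-- An automorphism of the function field as a ring endomorphism. -/
abbrev wHom {N : ℕ} (W : modularFunctionFieldBar N ≃ₐ[Qb] modularFunctionFieldBar N) :
    modularFunctionFieldBar N →+* modularFunctionFieldBar N :=
  ((W : modularFunctionFieldBar N ≃+* modularFunctionFieldBar N) :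
    modularFunctionFieldBar N →+* modularFunctionFieldBar N)

/-- **(TORFIX) at the Gauss ring from (GEN) and (KC).** -/
theorem stmt_TorFix_of_gen_of_kc {N n : ℕ} (hn : 0 < n) (A : ValuationSubring Qb)
    (W : modularFunctionFieldBar N ≃ₐ[Qb] modularFunctionFieldBar N)
    {τ : Qb ≃ₐ[ℚ] Qb} (hτ : τ ∈ A.inertiaSubgroupIn ℚ)
    (hWτ : ∀ x : modularFunctionFieldBar N,
      W (arithmeticGalois (modularFunctionFieldFull N) τ • x) =
        arithmeticGalois (modularFunctionFieldFull N) τ • W x)
    {ι : Type*} (X : ι → Set (Place Qb (modularFunctionFieldBar N)))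
    (hX : ∀ j (v : Place Qb (modularFunctionFieldBar N)), v ∈ X j →
      arithmeticGalois (modularFunctionFieldFull N) τ • v ∈ X j)
    (hGen : ∀ j (h : modularFunctionFieldBar N), IsKummer Qb n h →
      (gaussV A N).valuation (h - 1) < 1 → (gaussV A N).valuation (W h - 1) < 1 →
      ∃ x ∈ Fermat.Agent.S35.helper2423.chartLat Qb (gaussV A N) ((gaussV A N).comap (wHom W))
          (X j) n h ^ n,
        (gaussV A N).valuation (x - 1) < 1 ∧ (gaussV A N).valuation (W x - 1) < 1)
    (hKC : ∀ h : modularFunctionFieldBar N, IsKummer Qb n h →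
      (gaussV A N).valuation (h - 1) < 1 → (gaussV A N).valuation (W h - 1) < 1 →
      (∀ j, ∃ a ∈ Fermat.Agent.S35.helper2423.chartLat Qb (gaussV A N)
          ((gaussV A N).comap (wHom W)) (X j) n h,
        (gaussV A N).valuation (a - 1) < 1 ∧ (gaussV A N).valuation (W a - 1) < 1) →
      ∃ w c : modularFunctionFieldBar N, w ≠ 0 ∧ c ≠ 0 ∧
        (∀ v : Place Qb (modularFunctionFieldBar N), v.ord c = 0) ∧ h = c * w ^ n) :
    Stmt_TorFix N n A W τ := by
  have hW1 : ∀ x : modularFunctionFieldBar N,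
      ((gaussV A N).comap (wHom W)).valuation (x - 1) < 1 ↔
        (gaussV A N).valuation (W x - 1) < 1 := fun x => by
    rw [valuation_comap_lt_one_iff, map_sub, map_one]
    rfl
  have hg₁ := gaussF_valuation_inertia_sub_lt A N hτ
  have hg₂ : ∀ x : modularFunctionFieldBar N, ((gaussV A N).comap (wHom W)).valuation x ≤ 1 →
      ((gaussV A N).comap (wHom W)).valuation
        (arithmeticGalois (modularFunctionFieldFull N) τ • x - x) < 1 := by
    intro x hx
    rw [valuation_comap_le_one_iff] at hx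
    rw [valuation_comap_lt_one_iff, map_sub]
    show (gaussV A N).valuation (W (arithmeticGalois (modularFunctionFieldFull N) τ • x) - W x) < 1
    rw [hWτ]
    exact hg₁ (W x) hx
  intro h hK h1 h2
  exact Fermat.Agent.S35.helper2423.torFix_of_gen_of_kc hn
    (arithmeticGalois (modularFunctionFieldFull N) τ) (gaussV A N) ((gaussV A N).comap (wHom W))
    hg₁ hg₂ X hX
    (fun j h hK h1 h2 => by
      obtain ⟨x, hx, hx1, hx2⟩ := hGen j h hK h1 ((hW1 h).mp h2)
      exact ⟨x, hx, hx1, (hW1 x).mpr hx2⟩)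
    (fun h hK h1 h2 hseed => hKC h hK h1 ((hW1 h).mp h2) fun j => by
      obtain ⟨a, ha, ha1, ha2⟩ := hseed j
      exact ⟨a, ha, ha1, (hW1 a).mp ha2⟩)
    h hK h1 ((hW1 h).mpr h2)

/-! ### The two Gauss valuations as a family with one value group -/

/-- The Gauss valuation at `∞` and its `W`-twin (the Gauss valuation at `0`), both with values in
the value group of `gaussV A N`. -/
def gaussVals (A : ValuationSubring Qb) (N : ℕ)
    (W : modularFunctionFieldBar N ≃ₐ[Qb] modularFunctionFieldBar N) :
    Fin 2 → Valuation (modularFunctionFieldBar N) (gaussV A N).ValueGroup :=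
  ![(gaussV A N).valuation, (gaussV A N).valuation.comap (wHom W)]

/-- The restriction of the Gauss valuation to the constants. -/
def gaussValL (A : ValuationSubring Qb) (N : ℕ) : Valuation Qb (gaussV A N).ValueGroup :=
  (gaussV A N).valuation.comap (algebraMap Qb (modularFunctionFieldBar N))

section Vals

variable (A : ValuationSubring Qb) (N : ℕ)
  (W : modularFunctionFieldBar N ≃ₐ[Qb] modularFunctionFieldBar N)

theorem gaussVals_zero (x : modularFunctionFieldBar N) :
    gaussVals A N W 0 x = (gaussV A N).valuation x := rfl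

theorem gaussVals_one (x : modularFunctionFieldBar N) :
    gaussVals A N W 1 x = (gaussV A N).valuation (W x) := rfl

theorem gaussVals_algebraMap (i : Fin 2) (c : Qb) :
    gaussVals A N W i (algebraMap Qb (modularFunctionFieldBar N) c) = gaussValL A N c := by
  fin_cases i
  · rfl
  · show (gaussV A N).valuation (W (algebraMap Qb (modularFunctionFieldBar N) c)) = _
    rw [W.commutes]
    rfl

theorem gaussVals_ball (x : modularFunctionFieldBar N) :
    (∀ i, gaussVals A N W i x ≤ 1) ↔ x ∈ gaussV A N ∧ x ∈ (gaussV A N).comap (wHom W) := by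
  rw [Fin.forall_fin_two, gaussVals_zero, gaussVals_one, ValuationSubring.valuation_le_one_iff,
    ValuationSubring.valuation_le_one_iff, ValuationSubring.mem_comap]
  rfl

theorem gaussVals_open (x : modularFunctionFieldBar N) :
    (∀ i, gaussVals A N W i x < 1) ↔
      (gaussV A N).valuation x < 1 ∧ ((gaussV A N).comap (wHom W)).valuation x < 1 := by
  rw [Fin.forall_fin_two, gaussVals_zero, gaussVals_one, valuation_comap_lt_one_iff]
  rfl

/-- Rank one, in the shape of the Kummer cores. -/
theorem gaussVals_arch {q : ℕ} (hq : q.Prime) (hA : A.LiesOverPrime q)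
    (ε κ : (gaussV A N).ValueGroup) (hε : ε < 1) (hκ : κ ≠ 0) : ∃ n : ℕ, ε ^ n < κ := by
  obtain ⟨e, rfl⟩ := (gaussV A N).valuation_surjective ε
  obtain ⟨d, rfl⟩ := (gaussV A N).valuation_surjective κ
  have hd : d ≠ 0 := (Valuation.ne_zero_iff _).mp hκ
  obtain ⟨k, hk⟩ := gaussV_arch hq A hA N hε hd
  refine ⟨k, ?_⟩
  rw [map_div₀, map_pow, div_lt_one₀ (zero_lt_iff.mpr hκ)] at hk
  exact hk

/-- The value group of the function field is that of the constants (`e = 1`). -/
theorem gaussVals_VG (i : Fin 2) (f : modularFunctionFieldBar N) (hf : f ≠ 0) :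
    ∃ c : Qb, gaussValL A N c = gaussVals A N W i f := by
  have key : ∀ x : modularFunctionFieldBar N, x ≠ 0 →
      ∃ c : Qb, gaussValL A N c = (gaussV A N).valuation x := by
    intro x hx
    obtain ⟨a, ha, hva⟩ := gaussF_exists_const A (IsLocalRing.residue A) N x hx
    refine ⟨a, ?_⟩
    have haF : (gaussV A N).valuation (algebraMap Qb (modularFunctionFieldBar N) a) ≠ 0 :=
      (Valuation.ne_zero_iff _).mpr ((map_ne_zero _).mpr ha)
    rw [map_div₀] at hva
    exact ((div_eq_one_iff_eq haF).mp hva).symm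
  fin_cases i
  · exact key f hf
  · exact key (W f) ((map_ne_zero W).mpr hf)

/-- A natural number prime to the residue characteristic is a unit for both valuations. -/
theorem gaussVals_natCast {q : ℕ} (hq : q.Prime) (hA : A.LiesOverPrime q) {n : ℕ}
    (hnq : Nat.Coprime n q) (i : Fin 2) :
    gaussVals A N W i (n : modularFunctionFieldBar N) = 1 := by
  have hcast : (n : modularFunctionFieldBar N) =
      algebraMap Qb (modularFunctionFieldBar N) (n : Qb) := (map_natCast _ n).symm
  rw [hcast, gaussVals_algebraMap]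
  show (gaussV A N).valuation (algebraMap Qb (modularFunctionFieldBar N) (n : Qb)) = 1
  have hchar := charP_residueField hq A hA
  have hnA : (n : Qb) ∈ A := natCast_mem A n
  have hunit : IsUnit (⟨(n : Qb), hnA⟩ : A) := by
    by_contra hnu
    have h0 : IsLocalRing.residue A ⟨(n : Qb), hnA⟩ = 0 :=
      (IsLocalRing.residue_eq_zero_iff _).mpr ((IsLocalRing.mem_maximalIdeal _).mpr hnu)
    have h1 : IsLocalRing.residue A ⟨(n : Qb), hnA⟩ = ((n : ℕ) : IsLocalRing.ResidueField A) := by
      rw [← map_natCast (IsLocalRing.residue A) n]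
      rfl
    rw [h1, CharP.cast_eq_zero_iff (IsLocalRing.ResidueField A) q] at h0
    have := Nat.Coprime.eq_one_of_dvd hnq.symm h0
    exact hq.ne_one this
  obtain ⟨u, hu⟩ := hunit
  have hinv : (n : Qb)⁻¹ ∈ A := by
    have h2 : ((u⁻¹ : Aˣ) : A) * ⟨(n : Qb), hnA⟩ = 1 := by rw [← hu]; exact u.inv_mul
    have h3 : (((u⁻¹ : Aˣ) : A) : Qb) * (n : Qb) = 1 := by
      have := congrArg (Subtype.val : A → Qb) h2
      simpa using this
    have h4 : (n : Qb)⁻¹ = (((u⁻¹ : Aˣ) : A) : Qb) := by
      rw [eq_comm, ← mul_eq_one_iff_eq_inv₀]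
      · exact h3
      · intro h0
        rw [h0, mul_zero] at h3
        exact zero_ne_one h3
    rw [h4]
    exact ((u⁻¹ : Aˣ) : A).2
  have h5 := (gaussF_valuation_algebraMap_le_one_iff A N (n : Qb)).mpr hnA
  have h6 := (gaussF_valuation_algebraMap_le_one_iff A N (n : Qb)⁻¹).mpr hinv
  rw [map_inv₀, map_inv₀] at h6
  refine le_antisymm h5 ?_
  by_contra hlt
  rw [not_le] at hlt
  have hn0 : n ≠ 0 := by
    rintro rfl
    rw [Nat.coprime_zero_left] at hnq
    exact hq.ne_one hnq
  have hne : (gaussV A N).valuation (algebraMap Qb (modularFunctionFieldBar N) (n : Qb)) ≠ 0 :=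
    (Valuation.ne_zero_iff _).mpr ((map_ne_zero _).mpr (Nat.cast_ne_zero.mpr hn0))
  have h7 := (inv_le_one₀ (zero_lt_iff.mpr hne)).mp h6
  exact absurd hlt (not_lt.mpr h7)

end Vals

/-! ### (TORFIX) from the nodal description of the reduced twisted lattices -/

/-- **(TORFIX) at the Gauss ring from the exports of (E1) and (E3).**  `E1`, `E2` the polar and
zero divisor of a chart coordinate fixed by the Galois element, `red` a reduction datum for the
two Gauss valuations, `(Vn, ιV, T, p, q)` the nodal Riemann-Roch package of the special fibre;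
`hE3` says that for every `n`-Kummer `h ≡ 1` the spaces `L(D_h + k E1 + k E2)` are cartesian and
the reduction of the unit ball of `L(D_h + a E1 + b E2)` is the glued space `glued p q c (T a b)`
for some `n`-th roots of unity `c i`. -/
theorem stmt_TorFix_of_nodal {N : ℕ} [NeZero N] {q : ℕ} (hq : q.Prime)
    (A : ValuationSubring Qb) (hA : A.LiesOverPrime q) {n : ℕ} (hn : 0 < n)
    (hnq : Nat.Coprime n q)
    (W : modularFunctionFieldBar N ≃ₐ[Qb] modularFunctionFieldBar N)
    {τ : Qb ≃ₐ[ℚ] Qb} (hτ : τ ∈ A.inertiaSubgroupIn ℚ)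
    (hWτ : ∀ x : modularFunctionFieldBar N,
      W (arithmeticGalois (modularFunctionFieldFull N) τ • x) =
        arithmeticGalois (modularFunctionFieldFull N) τ • W x)
    (E1 E2 : Divisor Qb (modularFunctionFieldBar N))
    (hE1 : ∀ w : Place Qb (modularFunctionFieldBar N), 0 ≤ E1 w)
    (hE2 : ∀ w : Place Qb (modularFunctionFieldBar N), 0 ≤ E2 w)
    (hdisj : ∀ w : Place Qb (modularFunctionFieldBar N), E1 w = 0 ∨ E2 w = 0)
    (hgE1 : ∀ w : Place Qb (modularFunctionFieldBar N), 0 < E1 w →
      0 < E1 (arithmeticGalois (modularFunctionFieldFull N) τ • w))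
    (hgE2 : ∀ w : Place Qb (modularFunctionFieldBar N), 0 < E2 w →
      0 < E2 (arithmeticGalois (modularFunctionFieldFull N) τ • w))
    {kk : Type*} [Field kk] {Fk : Type*} [CommRing Fk] [Algebra kk Fk]
    {red : modularFunctionFieldBar N → Fk}
    (hred : Fermat.Agent.S35.helper2459.RedDataW (gaussVals A N W)
      (fun _ => (1 : (gaussV A N).ValueGroup)) (gaussValL A N) kk red red)
    {Vn : Type*} [CommRing Vn] [Algebra kk Vn] {I : Type*} [Fintype I]
    (ιV : Vn →ₐ[kk] Fk) (hιV : Function.Injective ιV)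
    (T : ℕ → ℕ → Submodule kk Vn) (p' q' : I → Vn →ₐ[kk] kk) (e s t n₀ : ℕ)
    (hT : Fermat.Agent.S35.helper603.IsNodalRR T p' q' e s t n₀) (hT1 : (1 : Vn) ∈ T 0 0)
    (hTmul : ∀ a b a' b', ∀ x ∈ T a b, ∀ y ∈ T a' b', x * y ∈ T (a + a') (b + b'))
    (hE3 : ∀ h : modularFunctionFieldBar N, IsKummer Qb n h →
      (gaussV A N).valuation (h - 1) < 1 → (gaussV A N).valuation (W h - 1) < 1 →
      (∀ k, n₀ ≤ k → Fermat.Agent.S35.helper2459.CartesianW (gaussVals A N W)
        (fun _ => (1 : (gaussV A N).ValueGroup)) (gaussValL A N)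
        (riemannRochSpace (kummerDivisor Qb n h + k • E1 + k • E2))) ∧
      ∃ c : I → kk, (∀ i, c i ^ n = 1) ∧ ∀ a b, n₀ ≤ a + b →
        (∀ x ∈ riemannRochSpace (kummerDivisor Qb n h + a • E1 + b • E2),
          (∀ i, gaussVals A N W i x ≤ 1) →
          ∃ y ∈ Fermat.Agent.S35.helper603.glued p' q' c (T a b), red x = ιV y) ∧
        (∀ y ∈ Fermat.Agent.S35.helper603.glued p' q' c (T a b),
          ∃ x ∈ riemannRochSpace (kummerDivisor Qb n h + a • E1 + b • E2),
            (∀ i, gaussVals A N W i x ≤ 1) ∧ red x = ιV y)) :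
    Stmt_TorFix N n A W τ := by
  have hW1 : ∀ x : modularFunctionFieldBar N,
      ((gaussV A N).comap (wHom W)).valuation (x - 1) < 1 ↔
        (gaussV A N).valuation (W x - 1) < 1 := fun x => by
    rw [valuation_comap_lt_one_iff, map_sub, map_one]
    rfl
  have hg₁ := gaussF_valuation_inertia_sub_lt A N hτ
  have hg₂ : ∀ x : modularFunctionFieldBar N, ((gaussV A N).comap (wHom W)).valuation x ≤ 1 →
      ((gaussV A N).comap (wHom W)).valuation
        (arithmeticGalois (modularFunctionFieldFull N) τ • x - x) < 1 := by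
    intro x hx
    rw [valuation_comap_le_one_iff] at hx
    rw [valuation_comap_lt_one_iff, map_sub]
    show (gaussV A N).valuation (W (arithmeticGalois (modularFunctionFieldFull N) τ • x) - W x) < 1
    rw [hWτ]
    exact hg₁ (W x) hx
  intro h hK h1 h2
  exact Fermat.Agent.S35.helper2423.torFix_of_nodal
    (fun v => by rw [Fermat.Agent.S37.helper5162.place_deg_eq_one N v]; exact Nat.one_pos)
    (gaussVals A N W) (gaussValL A N) (gaussVals_arch A N hq hA) hn
    (gaussVals_natCast A N W hq hA hnq)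
    (arithmeticGalois (modularFunctionFieldFull N) τ) (gaussV A N) ((gaussV A N).comap (wHom W))
    hg₁ hg₂ (gaussVals_ball A N W) (gaussVals_open A N W) E1 E2 hE1 hE2 hdisj hgE1 hgE2 hred
    (gaussVals_VG A N W) ιV hιV T p' q' e s t n₀ hT hT1 hTmul
    (fun h hK h1 h2 => hE3 h hK h1 ((hW1 h).mp h2))
    h hK h1 ((hW1 h).mpr h2)

/-! ### The export of the geometry module consumed by S34, as ONE Prop -/

open Fermat.Agent.S35.helper1219 in
/-- **The geometric leaf of S34** (exports (E1) + (E3) of the geometry module shared with S35), at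
the levels `q * M'` divisible by the auxiliary prime `r`, for the modulus `n`: chart divisors
`E1`, `E2` stable under inertia, a reduction datum for the two Gauss valuations, the nodal
Riemann-Roch package of the special fibre, and the description of the reduced twisted lattices of
every `n`-Kummer `h ≡ 1` as glued spaces with `n`-th roots of unity as glueing constants. -/
def Stmt_NodalExport (q : ℕ) [NeZero q] (r n : ℕ) : Prop :=
  ∀ (M' : ℕ) [NeZero M'] (h' : Nat.Coprime q M'), r ∣ q * M' →
    ∀ A : ValuationSubring Qb, A.LiesOverPrime q →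
    ∃ (E1 E2 : Divisor Qb (modularFunctionFieldBar (q * M'))),
      (∀ w : Place Qb (modularFunctionFieldBar (q * M')), 0 ≤ E1 w) ∧
      (∀ w : Place Qb (modularFunctionFieldBar (q * M')), 0 ≤ E2 w) ∧
      (∀ w : Place Qb (modularFunctionFieldBar (q * M')), E1 w = 0 ∨ E2 w = 0) ∧
      (∀ τ ∈ A.inertiaSubgroupIn ℚ, ∀ w : Place Qb (modularFunctionFieldBar (q * M')),
        0 < E1 w → 0 < E1 (arithmeticGalois (modularFunctionFieldFull (q * M')) τ • w)) ∧
      (∀ τ ∈ A.inertiaSubgroupIn ℚ, ∀ w : Place Qb (modularFunctionFieldBar (q * M')),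
        0 < E2 w → 0 < E2 (arithmeticGalois (modularFunctionFieldFull (q * M')) τ • w)) ∧
      ∃ (kk : Type) (_ : Field kk) (Fk : Type) (_ : CommRing Fk) (_ : Algebra kk Fk)
        (red : modularFunctionFieldBar (q * M') → Fk),
        Fermat.Agent.S35.helper2459.RedDataW (gaussVals A (q * M') (atkinLehnerBar q M' h'))
          (fun _ => (1 : (gaussV A (q * M')).ValueGroup)) (gaussValL A (q * M')) kk red red ∧
        ∃ (Vn : Type) (_ : CommRing Vn) (_ : Algebra kk Vn) (I : Type) (_ : Fintype I)
          (ιV : Vn →ₐ[kk] Fk) (T : ℕ → ℕ → Submodule kk Vn) (p' q' : I → Vn →ₐ[kk] kk)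
          (e s t n₀ : ℕ),
          Function.Injective ιV ∧ Fermat.Agent.S35.helper603.IsNodalRR T p' q' e s t n₀ ∧
          (1 : Vn) ∈ T 0 0 ∧
          (∀ a b a' b', ∀ x ∈ T a b, ∀ y ∈ T a' b', x * y ∈ T (a + a') (b + b')) ∧
          ∀ h : modularFunctionFieldBar (q * M'), IsKummer Qb n h →
            (gaussV A (q * M')).valuation (h - 1) < 1 →
            (gaussV A (q * M')).valuation (atkinLehnerBar q M' h' h - 1) < 1 →
            (∀ k, n₀ ≤ k → Fermat.Agent.S35.helper2459.CartesianW
              (gaussVals A (q * M') (atkinLehnerBar q M' h'))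
              (fun _ => (1 : (gaussV A (q * M')).ValueGroup)) (gaussValL A (q * M'))
              (riemannRochSpace (kummerDivisor Qb n h + k • E1 + k • E2))) ∧
            ∃ c : I → kk, (∀ i, c i ^ n = 1) ∧ ∀ a b, n₀ ≤ a + b →
              (∀ x ∈ riemannRochSpace (kummerDivisor Qb n h + a • E1 + b • E2),
                (∀ i, gaussVals A (q * M') (atkinLehnerBar q M' h') i x ≤ 1) →
                ∃ y ∈ Fermat.Agent.S35.helper603.glued p' q' c (T a b), red x = ιV y) ∧
              (∀ y ∈ Fermat.Agent.S35.helper603.glued p' q' c (T a b),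
                ∃ x ∈ riemannRochSpace (kummerDivisor Qb n h + a • E1 + b • E2),
                  (∀ i, gaussVals A (q * M') (atkinLehnerBar q M' h') i x ≤ 1) ∧ red x = ιV y)

open Fermat.Agent.S35.helper1219 in
/-- **(TORFIX) at the auxiliary levels from the geometric leaf**: the hypothesis `hTor` of
`Fermat.Agent.S34.helper584.stmt_Uni_of_torFix_of_descent`, verbatim. -/
theorem torFix_of_nodalExport {p q : ℕ} [NeZero q] (hp : p.Prime) (hq : q.Prime) (hpq : p ≠ q)
    (r : ℕ) (hGeo : ∀ m : ℕ, Stmt_NodalExport q r (p ^ m)) :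
    ∀ (M' : ℕ) [NeZero M'] (h' : Nat.Coprime q M'), r ∣ q * M' →
      ∀ A : ValuationSubring Qb, A.LiesOverPrime q → ∀ τ ∈ A.inertiaSubgroupIn ℚ, ∀ m : ℕ,
        Stmt_TorFix (q * M') (p ^ m) A (atkinLehnerBar q M' h') τ := by
  intro M' _ h' hr A hA τ hτ m
  have : NeZero (q * M') := ⟨mul_ne_zero hq.ne_zero (NeZero.ne M')⟩
  obtain ⟨E1, E2, hE1, hE2, hdisj, hgE1, hgE2, kk, _, Fk, _, _, red, hred, Vn, _, _, I, _, ιV, T,
    p', q', e, s, t, n₀, hιV, hT, hT1, hTmul, hE3⟩ := hGeo m M' h' hr A hA
  have hnq : Nat.Coprime (p ^ m) q :=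
    Nat.Coprime.pow_left m ((Nat.coprime_primes hp hq).mpr hpq)
  exact stmt_TorFix_of_nodal hq A hA (pow_pos hp.pos m) hnq (atkinLehnerBar q M' h') hτ
    (atkinLehnerBar_arithmeticGalois_smul q M' h' τ) E1 E2 hE1 hE2 hdisj (hgE1 τ hτ) (hgE2 τ hτ)
    hred ιV hιV T p' q' e s t n₀ hT hT1 hTmul hE3

/-- **(UNI) from the geometric leaf and the level descent**: the hypothesis `hUni` of the S34
core at every level `N` with `q ∥ N`. -/
theorem stmt_Uni_of_nodalExport {p q : ℕ} [NeZero q] (hp : p.Prime) (hq : q.Prime) (hpq : p ≠ q)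
    (r : ℕ) (hGeo : ∀ m : ℕ, Stmt_NodalExport q r (p ^ m))
    (hDesc : ∀ (τ : Qb ≃ₐ[ℚ] Qb) (m : ℕ),
      (∀ (N' : ℕ) [NeZero N'], q ∣ N' → ¬ q ^ 2 ∣ N' → r ∣ N' → Stmt_UniFF N' (p ^ m) τ) →
      ∀ (N : ℕ) [NeZero N], q ∣ N → ¬ q ^ 2 ∣ N → Stmt_UniFF N (p ^ m) τ)
    (N : ℕ) [NeZero N] (hqN : q ∣ N) (hq2 : ¬ q ^ 2 ∣ N) : Stmt_Uni N p q :=
  stmt_Uni_of_torFix_of_descent hp.ne_zero hq r (torFix_of_nodalExport hp hq hpq r hGeo) hDesc N
    hqN hq2

end

end Fermat.Agent.S34.helper2423
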