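import Fermat.Agent.S34.helper1336_Core
import Fermat.Agent.S31.helper74_GenCheb
import Fermat.Agent.S31.helper6356_LatticeHom
import Fermat.Agent.S31.helper2756_K5JZero
import Fermat.Agent.S29.helper8527_FiniteLevel
import Fermat.Agent.S37.helper8426_HeckeInputs
import Fermat.Agent.S31.helper5307_Spec
import Fermat.Agent.S34.helper584_UniBridge

/-!
# S34 on `JZero N` (helper1336): the frozen conclusion from the concrete machine facts

`isUnipotentOnInertiaAt_of_machine` : the frozen conclusion of S34 (`H.ρ.IsUnipotentOnInertiaAt q`)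
for `J = JZero N` with `T_ℓ = heckeOperatorBar N ℓ`, from exactly THREE open inputs

* `hFQ`  : `s² - T_ℓ s + ℓ = 0` on the `p`-power torsion of `JZero N` for Frobenius lifts `s` at
           `ℓ ∤ N p` (shape of `S29.helper405.eig_of_operatorwise`; the S31 input (FQ));
* `hUni` : `(τ - 1)² = 0` on the `p`-power torsion of `JZero N` for `τ` in inertia at `q` (UNI);
* `hK5`  : for every `m` a multiplier relation with `MultSpecW N (p ^ m)` (the S31 input (K5),
           weak form: (TH2), (TH4), (TH5) at modulus `p ^ m`).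

Everything else is discharged from landed files: generator-Chebotarev (`S31.helper74`), pointwise
finite level (`S29.helper8527`), the faithful lattice action (K6, `S31.helper6356`), the Kummer
relation with its finite test set (`S31.helper2756`), the Hecke inputs (`S37.helper8426`).

Forms with the named Props of the S31 glue (`S31.helper5307_Spec`) and of the S34 bridge
(`S34.helper584_UniBridge`), so that S34 and S31 consume the SAME two machine proofs:

* `isUnipotentOnInertiaAt_of_k5`      : `Stmt_Frob N p → Stmt_K5 N p → Stmt_Uni N p q → …`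
* `isUnipotentOnInertiaAt_of_mult`    : `Stmt_Frob N p → Stmt_Mult N p → Stmt_Uni N p q → …`
* `isUnipotentOnInertiaAt_of_coreHom` : `S37.helper8353.Stmt_CoreHom N p → Stmt_Mult N p →
                                         Stmt_Uni N p q → …`
-/

set_option autoImplicit false

namespace Fermat.Agent.S34.helper1336

open Polynomial CuspForm ModularCurve AlgebraicCurve CongruenceSubgroup
open Fermat.Agent.S31.helper2756 Fermat.Agent.S31.helper6356

local notation "Qb" => AlgebraicClosure ℚ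
local notation "GQ" => (AlgebraicClosure ℚ ≃ₐ[ℚ] AlgebraicClosure ℚ)

/-- **(K5) on `JZero N`, finite-test-set consumer form for the lattice action `heckeLatticeHom`.**
From a weak multiplier specification at modulus `n ≠ 0`: a finite set `F` of `n`-torsion points
such that an integer polynomial in `T_ℓ` (`ℓ ∤ N`, `ℓ ∉ S`) killing `F` maps the lattice into
`n` times the lattice. -/
theorem exists_testSet_JZero {N : ℕ} [NeZero N] (S : Set ℕ) {n : ℕ} (hn : n ≠ 0)
    [HasPrincipalDivisors Qb (modularFunctionFieldBar N)]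
    {Mult : modularFunctionFieldBar N → (Additive (Gamma0 N) →+ ℤ) → Prop}
    (hM : MultSpecW N n Mult) :
    ∃ F : Finset (JZero N), (∀ y ∈ F, n • y = 0) ∧
      ∀ (ℓ : ℕ) (hℓ : ℓ.Prime) (hℓN : ¬ ℓ ∣ N) (hℓS : ℓ ∉ S) (Q : ℤ[X]),
        (∀ y ∈ F, aeval (heckeOperatorBar N ⟨ℓ, hℓ⟩) Q y = 0) →
          ∀ v : Lam N, ∃ w : Lam N,
            aeval (heckeLatticeHom N S (heckeAlgebra.T hℓ hℓN hℓS)) Q v = (n : ℤ) • w := by
  obtain ⟨F, hFtors, hF⟩ := exists_finset_test_JZero hn hM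
  refine ⟨F, hFtors, ?_⟩
  intro ℓ hℓ hℓN hℓS Q hkill v
  have : NeZero ℓ := ⟨hℓ.ne_zero⟩
  have hI : HeckeInputsAlong Qb N ℓ := Fermat.Agent.S37.helper8426.heckeInputsAlong N ℓ
  have hc := relCompat_hecke hn hM ℓ hℓ hℓN hI (heckeLatticeHom N S (heckeAlgebra.T hℓ hℓN hℓS))
    (fun ψ => coe_heckeLatticeHom_T N S hℓ hℓN hℓS ψ)
  obtain ⟨w, hw⟩ := hF _ _ ((kummerRel_JZero hn hM).relCompat_aeval hc Q) hkill v
  exact ⟨w, by rw [hw, natCast_zsmul]⟩

/-- **(K5), from the map form to the finite-test-set form.**  If `ι : Λ → J` has image in the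
`n`-torsion and kernel inside `n Λ`, and `Λ` is finitely generated, there is a finite set `F` of
`n`-torsion points such that every pair of operators `(x, X)` intertwined by `ι` with `X = 0` on
`F` satisfies `x Λ ⊆ n Λ`. -/
theorem exists_testSet_of_map {J Λ : Type*} [AddCommGroup J] [AddCommGroup Λ]
    [Module.Finite ℤ Λ] (n : ℕ) (ι : Λ →+ J) (hι : ∀ v, n • ι v = 0)
    (hker : ∀ v, ι v = 0 → ∃ w : Λ, v = n • w) :
    ∃ F : Finset J, (∀ y ∈ F, n • y = 0) ∧
      ∀ (x : Module.End ℤ Λ) (X : Module.End ℤ J), (∀ v, ι (x v) = X (ι v)) →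
        (∀ y ∈ F, X y = 0) → ∀ v : Λ, ∃ w : Λ, x v = (n : ℤ) • w := by
  classical
  obtain ⟨s, hs⟩ := (Module.Finite.fg_top : (⊤ : Submodule ℤ Λ).FG)
  refine ⟨s.image ι, ?_, ?_⟩
  · intro y hy
    obtain ⟨g, -, rfl⟩ := Finset.mem_image.mp hy
    exact hι g
  · intro x X hxX hX v
    have hkill : ∀ v : Λ, X (ι v) = 0 := by
      intro v
      have hv : v ∈ Submodule.span ℤ (s : Set Λ) := by rw [hs]; exact Submodule.mem_top
      refine Submodule.span_induction (p := fun v _ => X (ι v) = 0) ?_ ?_ ?_ ?_ hv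
      · intro g hg
        exact hX _ (Finset.mem_image.mpr ⟨g, hg, rfl⟩)
      · rw [map_zero, map_zero]
      · intro a b _ _ ha hb
        rw [map_add, map_add, ha, hb, add_zero]
      · intro c a _ ha
        rw [map_zsmul, map_zsmul, ha, smul_zero]
    obtain ⟨w, hw⟩ := hker (x v) (by rw [hxX, hkill])
    exact ⟨w, by rw [hw, natCast_zsmul]⟩

section Machine

variable {p : ℕ} {N : ℕ} [NeZero N] {S : Finset ℕ}
  {𝒪 : Type} [CommRing 𝒪] [IsDomain 𝒪] [IsDiscreteValuationRing 𝒪]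
  [IsAdicComplete (IsLocalRing.maximalIdeal 𝒪) 𝒪]
  {θ : CuspForm.heckeAlgebra N 2 (↑S : Set ℕ) →+* IsLocalRing.ResidueField 𝒪}
  {T : Type} [CommRing T] [IsLocalRing T] [IsNoetherianRing T]
  [IsAdicComplete (IsLocalRing.maximalIdeal T) T] [Algebra 𝒪 T] [IsLocalHom (algebraMap 𝒪 T)]
  [Module.Finite 𝒪 T] [Module.Free 𝒪 T]

/-- **S34 from the concrete machine facts on `JZero N`**: (FQ), (UNI) and (K5) in its weak
multiplier form; everything else is on main. -/
theorem isUnipotentOnInertiaAt_of_machine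
    (hp : p.Prime) (hp𝒪 : (p : 𝒪) ∈ IsLocalRing.maximalIdeal 𝒪) (hpS : p ∈ S)
    (H : CuspForm.HeckeGaloisRepDatum N (↑S : Set ℕ) 𝒪 θ T)
    (q : ℕ) (hq : q.Prime) (hqp : q ≠ p)
    (hFQ : ∀ ℓ : ℕ, (hℓ : ℓ.Prime) → ¬ ℓ ∣ N * p →
      ∀ A : ValuationSubring Qb, A.LiesOverPrime ℓ →
        ∀ σ : GQ, A.IsFrobeniusAt σ ℓ → ∀ x : JZero N, (∃ k : ℕ, p ^ k • x = 0) →
          σ • σ • x - heckeOperatorBar N ⟨ℓ, hℓ⟩ (σ • x) + ℓ • x = 0)
    (hUni : ∀ P : ValuationSubring Qb, P.LiesOverPrime q → ∀ τ ∈ P.inertiaSubgroupIn ℚ,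
      ∀ x : JZero N, (∃ n : ℕ, p ^ n • x = 0) → τ • τ • x - (2 : ℤ) • (τ • x) + x = 0)
    (hK5 : ∀ m : ℕ, ∃ Mult : modularFunctionFieldBar N → (Additive (Gamma0 N) →+ ℤ) → Prop,
      MultSpecW N (p ^ m) Mult) :
    H.ρ.IsUnipotentOnInertiaAt q := by
  refine isUnipotentOnInertiaAt_of_operatorwise Fermat.Agent.S31.helper74.genCheb_8024
    hp hp𝒪 hpS H q hq hqp (heckeOperatorBar N)
    (Fermat.Agent.S29.helper8527.exists_finiteLevel_point N) hFQ hUni
    (heckeLatticeHom N (↑S : Set ℕ)) (heckeLatticeHom_injective N (↑S : Set ℕ)) ?_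
  intro m
  obtain ⟨Mult, hM⟩ := hK5 m
  obtain ⟨F, hFtors, hF⟩ := exists_testSet_JZero (↑S : Set ℕ) (pow_pos hp.pos m).ne' hM
  exact ⟨F, hFtors, fun ℓ hℓ hℓN hℓS Q hkill v => by
    obtain ⟨w, hw⟩ := hF ℓ hℓ hℓN hℓS Q hkill v
    exact ⟨w, hw⟩⟩

/-- **S34 from (FQ), (K5) in the map form of the S31 glue, and (UNI).** -/
theorem isUnipotentOnInertiaAt_of_k5
    (hFQ : Fermat.Agent.S31.helper5307.Stmt_Frob N p)
    (hK5 : Fermat.Agent.S31.helper5307.Stmt_K5 N p)
    (hp : p.Prime) (hp𝒪 : (p : 𝒪) ∈ IsLocalRing.maximalIdeal 𝒪) (hpS : p ∈ S)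
    (H : CuspForm.HeckeGaloisRepDatum N (↑S : Set ℕ) 𝒪 θ T)
    (q : ℕ) (hq : q.Prime) (hqp : q ≠ p)
    (hUni : Fermat.Agent.S34.helper584.Stmt_Uni N p q) :
    H.ρ.IsUnipotentOnInertiaAt q := by
  refine isUnipotentOnInertiaAt_of_operatorwise Fermat.Agent.S31.helper74.genCheb_8024
    hp hp𝒪 hpS H q hq hqp (heckeOperatorBar N)
    (Fermat.Agent.S29.helper8527.exists_finiteLevel_point N) hFQ hUni
    (heckeLatticeHom N (↑S : Set ℕ)) (heckeLatticeHom_injective N (↑S : Set ℕ)) ?_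
  intro m
  obtain ⟨ι, h1, h2, h3⟩ := hK5 m
  obtain ⟨F, hFtors, hF⟩ := exists_testSet_of_map (p ^ m) ι h1 h2
  refine ⟨F, hFtors, fun ℓ hℓ hℓN hℓS Q hkill v => ?_⟩
  refine hF _ _ (fun v => ?_) hkill v
  exact Fermat.Agent.S31.helper5402.aeval_intertwine ι _ _
    (fun w => h3 ℓ hℓ hℓN w _ (coe_heckeLatticeHom_T N (↑S : Set ℕ) hℓ hℓN hℓS w)) Q v

/-- **S34 from (FQ), the analytic Kummer dictionary at `p ^ m` (strong form) and (UNI).** -/
theorem isUnipotentOnInertiaAt_of_mult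
    (hFQ : Fermat.Agent.S31.helper5307.Stmt_Frob N p)
    (hMult : Fermat.Agent.S31.helper5307.Stmt_Mult N p)
    (hp : p.Prime) (hp𝒪 : (p : 𝒪) ∈ IsLocalRing.maximalIdeal 𝒪) (hpS : p ∈ S)
    (H : CuspForm.HeckeGaloisRepDatum N (↑S : Set ℕ) 𝒪 θ T)
    (q : ℕ) (hq : q.Prime) (hqp : q ≠ p)
    (hUni : Fermat.Agent.S34.helper584.Stmt_Uni N p q) :
    H.ρ.IsUnipotentOnInertiaAt q :=
  isUnipotentOnInertiaAt_of_k5 hFQ
    (Fermat.Agent.S31.helper5307.stmt_K5_of_mult hp.ne_zero hMult) hp hp𝒪 hpS H q hq hqp hUni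

/-- **S34 from the S37 back-end, the analytic Kummer dictionary at `p ^ m` and (UNI)**: the
S34 twin of `Fermat.Agent.S31.helper5307.result_of_coreHom`. -/
theorem isUnipotentOnInertiaAt_of_coreHom
    (hCore : Fermat.Agent.S37.helper8353.Stmt_CoreHom N p)
    (hMult : Fermat.Agent.S31.helper5307.Stmt_Mult N p)
    (hp : p.Prime) (hp𝒪 : (p : 𝒪) ∈ IsLocalRing.maximalIdeal 𝒪) (hpS : p ∈ S)
    (H : CuspForm.HeckeGaloisRepDatum N (↑S : Set ℕ) 𝒪 θ T)
    (q : ℕ) (hq : q.Prime) (hqp : q ≠ p)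
    (hUni : Fermat.Agent.S34.helper584.Stmt_Uni N p q) :
    H.ρ.IsUnipotentOnInertiaAt q :=
  isUnipotentOnInertiaAt_of_mult (Fermat.Agent.S31.helper5307.stmt_Frob_of_coreHom hCore) hMult
    hp hp𝒪 hpS H q hq hqp hUni

end Machine

end Fermat.Agent.S34.helper1336
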