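/-
S34-SPEC (helper8267, captain S34): the frozen statement S34 from its leaves.

Frozen S34: for a Hecke Galois representation datum `H` at level `N` (weight 2, residue
characteristic `p`) and a prime `q ≠ p` with `q ∣ N`, `¬ q ^ 2 ∣ N`:
`H.ρ.IsUnipotentOnInertiaAt q`.

CHAIN (everything not listed as a leaf is discharged from landed modules):

  S34  ⟸  `helper1336.isUnipotentOnInertiaAt_of_machine`   (TOP + MID, on main)
       ⟸  (FQ)    `Stmt_FQ N p`       : Eichler–Shimura `σ² - T_ℓ σ + ℓ = 0` on `J₀(N)[p^∞]`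
                                         for Frobenius lifts at `ℓ ∤ N p`  (= S31's `Stmt_Frob`;
                                         from the S37 back-end `Stmt_CoreHom N p`)
       ⟸  (MULTW) `Stmt_MultW N p`    : weak analytic Kummer dictionary at every modulus `p ^ m`
                                         (`S31.helper2756.MultSpecW`; (TH2), (TH4), (TH5))
       ⟸  (UNI)   `helper584.Stmt_Uni N p q`
            ⟸ `helper584.stmt_Uni_of_uniFF`
            ⟸ (UNI-FF) `Stmt_UniFFAll N p q` : for every inertia element `τ` at `q` and every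
                                         `m`, `helper584.Stmt_UniFF N (p ^ m) τ`
                                         (geometry at `q ∥ N`; shared with S35).

The leaves (FQ), (MULTW) are shared with S31 (identical shapes), (UNI-FF) is the S34-specific
geometric leaf.  `result_of_leaves` has the binder list of the frozen statement verbatim.
-/
import Fermat.Agent.S34.helper1336_Machine
import Fermat.Agent.S34.helper584_UniBridge
import Fermat.Agent.S31.helper5307_Spec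

set_option autoImplicit false

namespace Fermat.Agent.S34.helper8267

open CuspForm ModularCurve AlgebraicCurve CongruenceSubgroup IsLocalRing

local notation "Qb" => AlgebraicClosure ℚ
local notation "GQ" => (AlgebraicClosure ℚ ≃ₐ[ℚ] AlgebraicClosure ℚ)

/-- **(FQ)** the Eichler–Shimura relation on the `p`-power torsion of `JZero N` at Frobenius lifts
at primes `ℓ ∤ N p`: verbatim the S31 leaf `Fermat.Agent.S31.helper5307.Stmt_Frob`. -/
abbrev Stmt_FQ (N p : ℕ) [NeZero N] : Prop := Fermat.Agent.S31.helper5307.Stmt_Frob N p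

/-- **(MULTW)** the weak analytic Kummer dictionary at every modulus `p ^ m`
(`Fermat.Agent.S31.helper2756.MultSpecW`: (TH2), (TH4), (TH5); no (TH3)). -/
def Stmt_MultW (N p : ℕ) [NeZero N] : Prop :=
  ∀ m : ℕ, ∃ Mult : modularFunctionFieldBar N → (Additive (Gamma0 N) →+ ℤ) → Prop,
    Fermat.Agent.S31.helper2756.MultSpecW N (p ^ m) Mult

/-- **(UNI-FF)** at `q`: for every inertia element `τ` at `q` and every `m`, the Kummer-element
form of `(τ - 1) ^ 2 = 0` on the `p ^ m`-torsion of `J₀(N)` (`helper584.Stmt_UniFF`). -/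
def Stmt_UniFFAll (N p q : ℕ) : Prop :=
  ∀ P : ValuationSubring Qb, P.LiesOverPrime q →
    ∀ τ ∈ P.inertiaSubgroupIn ℚ, ∀ m : ℕ, Fermat.Agent.S34.helper584.Stmt_UniFF N (p ^ m) τ

/-- (UNI-FF) ⟹ (UNI). -/
theorem stmt_Uni_of_uniFFAll {N p q : ℕ} [NeZero N] (hp : p ≠ 0) (h : Stmt_UniFFAll N p q) :
    Fermat.Agent.S34.helper584.Stmt_Uni N p q :=
  Fermat.Agent.S34.helper584.stmt_Uni_of_uniFF hp q h

/-- The S37 back-end ⟹ (FQ). -/
theorem stmt_FQ_of_coreHom {N p : ℕ} [NeZero N]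
    (h : Fermat.Agent.S37.helper8353.Stmt_CoreHom N p) : Stmt_FQ N p :=
  Fermat.Agent.S31.helper5307.stmt_Frob_of_coreHom h

/-- **S34 from (FQ), (MULTW), (UNI)**: the frozen statement with (UNI) in the operator shape. -/
theorem result_of_uni
    {𝒪 : Type} [CommRing 𝒪] [IsDomain 𝒪] [IsDiscreteValuationRing 𝒪]
    [IsAdicComplete (maximalIdeal 𝒪) 𝒪] [Finite (ResidueField 𝒪)] [CharZero 𝒪]
    {p : ℕ} (hp : p.Prime) (hp𝒪 : (p : 𝒪) ∈ maximalIdeal 𝒪)
    {N : ℕ} [NeZero N] {S : Finset ℕ} (hpS : p ∈ S) (_hNS : ∀ q : ℕ, q.Prime → q ∣ N → q ∈ S)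
    {θ : CuspForm.heckeAlgebra N 2 (↑S : Set ℕ) →+* ResidueField 𝒪}
    {T : Type} [CommRing T] [IsLocalRing T] [IsNoetherianRing T]
    [IsAdicComplete (maximalIdeal T) T] [Algebra 𝒪 T] [IsLocalHom (algebraMap 𝒪 T)]
    [Module.Finite 𝒪 T] [Module.Free 𝒪 T]
    (H : CuspForm.HeckeGaloisRepDatum N (↑S : Set ℕ) 𝒪 θ T)
    (q : ℕ) (hq : q.Prime) (hqp : q ≠ p) (_hqN : q ∣ N) (_hq2 : ¬ q ^ 2 ∣ N)
    (hFQ : Stmt_FQ N p) (hMult : Stmt_MultW N p)
    (hUni : Fermat.Agent.S34.helper584.Stmt_Uni N p q) :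
    H.ρ.IsUnipotentOnInertiaAt q :=
  Fermat.Agent.S34.helper1336.isUnipotentOnInertiaAt_of_machine hp hp𝒪 hpS H q hq hqp
    hFQ hUni hMult

/-- **S34 from its leaves (FQ), (MULTW), (UNI-FF).**  The binder list up to `_hq2` is the frozen
statement's, verbatim; the three leaf hypotheses follow. -/
theorem result_of_leaves
    {𝒪 : Type} [CommRing 𝒪] [IsDomain 𝒪] [IsDiscreteValuationRing 𝒪]
    [IsAdicComplete (maximalIdeal 𝒪) 𝒪] [Finite (ResidueField 𝒪)] [CharZero 𝒪]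
    {p : ℕ} (hp : p.Prime) (hp𝒪 : (p : 𝒪) ∈ maximalIdeal 𝒪)
    {N : ℕ} [NeZero N] {S : Finset ℕ} (hpS : p ∈ S) (hNS : ∀ q : ℕ, q.Prime → q ∣ N → q ∈ S)
    {θ : CuspForm.heckeAlgebra N 2 (↑S : Set ℕ) →+* ResidueField 𝒪}
    {T : Type} [CommRing T] [IsLocalRing T] [IsNoetherianRing T]
    [IsAdicComplete (maximalIdeal T) T] [Algebra 𝒪 T] [IsLocalHom (algebraMap 𝒪 T)]
    [Module.Finite 𝒪 T] [Module.Free 𝒪 T]
    (H : CuspForm.HeckeGaloisRepDatum N (↑S : Set ℕ) 𝒪 θ T)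
    (q : ℕ) (hq : q.Prime) (hqp : q ≠ p) (hqN : q ∣ N) (hq2 : ¬ q ^ 2 ∣ N)
    (hFQ : Stmt_FQ N p) (hMult : Stmt_MultW N p) (hUniFF : Stmt_UniFFAll N p q) :
    H.ρ.IsUnipotentOnInertiaAt q :=
  result_of_uni hp hp𝒪 hpS hNS H q hq hqp hqN hq2 hFQ hMult
    (stmt_Uni_of_uniFFAll hp.ne_zero hUniFF)

/-- **S34 from the S37 back-end, (MULTW), (UNI-FF).** -/
theorem result_of_coreHom
    {𝒪 : Type} [CommRing 𝒪] [IsDomain 𝒪] [IsDiscreteValuationRing 𝒪]
    [IsAdicComplete (maximalIdeal 𝒪) 𝒪] [Finite (ResidueField 𝒪)] [CharZero 𝒪]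
    {p : ℕ} (hp : p.Prime) (hp𝒪 : (p : 𝒪) ∈ maximalIdeal 𝒪)
    {N : ℕ} [NeZero N] {S : Finset ℕ} (hpS : p ∈ S) (hNS : ∀ q : ℕ, q.Prime → q ∣ N → q ∈ S)
    {θ : CuspForm.heckeAlgebra N 2 (↑S : Set ℕ) →+* ResidueField 𝒪}
    {T : Type} [CommRing T] [IsLocalRing T] [IsNoetherianRing T]
    [IsAdicComplete (maximalIdeal T) T] [Algebra 𝒪 T] [IsLocalHom (algebraMap 𝒪 T)]
    [Module.Finite 𝒪 T] [Module.Free 𝒪 T]
    (H : CuspForm.HeckeGaloisRepDatum N (↑S : Set ℕ) 𝒪 θ T)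
    (q : ℕ) (hq : q.Prime) (hqp : q ≠ p) (hqN : q ∣ N) (hq2 : ¬ q ^ 2 ∣ N)
    (hCore : Fermat.Agent.S37.helper8353.Stmt_CoreHom N p) (hMult : Stmt_MultW N p)
    (hUniFF : Stmt_UniFFAll N p q) :
    H.ρ.IsUnipotentOnInertiaAt q :=
  result_of_leaves hp hp𝒪 hpS hNS H q hq hqp hqN hq2 (stmt_FQ_of_coreHom hCore) hMult hUniFF

end Fermat.Agent.S34.helper8267
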