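/-
S34-CHAIN (helper8267, captain S34): the S34-specific leaf `(UNI)` from the geometry export.

Everything between the geometry module shared with S35 and the frozen statement S34 is wired
here against landed files, so that the two remaining S34-specific producers have an exact
target:

* `Stmt_TorFixAt q M p h`  (geometry export, E5 of the S35 module; owner helper2423):
  at the level `q * M` (`q ∤ M`), for every place `A` over `q`, every `τ` in its inertia group
  and every `m`: `helper584.Stmt_TorFix (q * M) (p ^ m) A (atkinLehnerBar q M h) τ`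
  (inertia fixes the class of every `p ^ m`-Kummer element which is `≡ 1` for the Gauss
  valuation and for its Atkin–Lehner twin).
* `Stmt_UniDescent`  (level descent; owner helper1261, backup helper734):
  (UNI-FF) at the auxiliary level `q * lcm(M, r)` gives (UNI-FF) at the level `q * M`,
  `r = auxPrime p q ∈ {2, 3}`, `r ≠ q`, `[F_{q lcm(M, r)} : F_{q M}] ∈ {1, r + 1}` prime to `p`.

`stmt_UniFFAll_of_torFixAt` : (TORFIX) at the level `q * M` gives (UNI-FF) at the level `q * M`
(all hypotheses of `helper584.stmt_UniFF_of_torFix` discharged with `W = atkinLehnerBar q M h`).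
`stmt_Uni_of_geom` : the closed S34-specific statement `(UNI)` for every `N` with `q ∥ N`.
`result_of_geom` : the frozen statement S34 from the machine leaves and the two Props above.
-/
import Fermat.Agent.S34.helper8267_Spec
import Fermat.Agent.S34.helper584_UniInst
import Fermat.Agent.S35.helper1219_GaussWitness

set_option autoImplicit false

namespace Fermat.Agent.S34.helper8267

open CuspForm ModularCurve AlgebraicCurve CongruenceSubgroup IsLocalRing
open Fermat.Agent.S24.helper24 Fermat.Agent.S35.helper1219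

local notation "Qb" => AlgebraicClosure ℚ
local notation "GQ" => (AlgebraicClosure ℚ ≃ₐ[ℚ] AlgebraicClosure ℚ)

/-- The auxiliary prime `r ∈ {2, 3}` of the level descent: `r ≠ q` and `r + 1` is prime to `p`
(for `p ≠ q`). -/
def auxPrime (p q : ℕ) : ℕ := if q = 2 ∨ p = 3 then 3 else 2

theorem auxPrime_prime (p q : ℕ) : (auxPrime p q).Prime := by
  unfold auxPrime
  split_ifs
  · exact Nat.prime_three
  · exact Nat.prime_two

theorem auxPrime_eq (p q : ℕ) : auxPrime p q = 2 ∨ auxPrime p q = 3 := by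
  unfold auxPrime
  split_ifs
  · exact Or.inr rfl
  · exact Or.inl rfl

/-- `r ≠ q` (for `q ≠ p`). -/
theorem auxPrime_ne {p q : ℕ} (hqp : q ≠ p) : auxPrime p q ≠ q := by
  unfold auxPrime
  split_ifs with h
  · rcases h with h | h
    · omega
    · intro h3
      exact hqp (by omega)
  · intro h2
    exact h (Or.inl h2.symm)

/-- `r + 1` is prime to `p` (for `p` prime, `q ≠ p`). -/
theorem auxPrime_succ_coprime {p q : ℕ} (hp : p.Prime) (hqp : q ≠ p) :
    Nat.Coprime (auxPrime p q + 1) p := by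
  unfold auxPrime
  split_ifs with h
  · -- `r = 3`, `r + 1 = 4`: need `p ≠ 2`
    have hp2 : p ≠ 2 := by
      rcases h with h | h
      · exact fun h2 => hqp (by omega)
      · omega
    have h4 : (3 + 1 : ℕ) = 2 ^ 2 := by norm_num
    rw [h4]
    exact Nat.Coprime.pow_left 2
      ((Nat.coprime_primes Nat.prime_two hp).mpr fun h2 => hp2 h2.symm)
  · -- `r = 2`, `r + 1 = 3`: need `p ≠ 3`
    have hp3 : p ≠ 3 := fun h3 => h (Or.inr h3)
    exact (Nat.coprime_primes Nat.prime_three hp).mpr fun h3 => hp3 h3.symm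

/-- **(TORFIX) at the level `q * M`** (`q ∤ M`), for the Gauss valuation ring and its twin under
the Atkin–Lehner automorphism `W_q = atkinLehnerBar q M h`: the export (E5) of the geometry
module shared with S35, for all places over `q`, all inertia elements and all moduli `p ^ m`. -/
def Stmt_TorFixAt (q M p : ℕ) [NeZero q] [NeZero M] (h : Nat.Coprime q M) : Prop :=
  ∀ A : ValuationSubring Qb, A.LiesOverPrime q → ∀ τ ∈ A.inertiaSubgroupIn ℚ, ∀ m : ℕ,
    Fermat.Agent.S34.helper584.Stmt_TorFix (q * M) (p ^ m) A (atkinLehnerBar q M h) τ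

/-- (TORFIX) at the level `q * M` gives (UNI-FF) at the level `q * M`. -/
theorem stmt_UniFFAll_of_torFixAt {q M p : ℕ} [NeZero q] [NeZero M] (h : Nat.Coprime q M)
    (hq : q.Prime) (hp : p ≠ 0) (hTor : Stmt_TorFixAt q M p h) :
    Stmt_UniFFAll (q * M) p q := by
  intro A hA τ hτ m
  haveI : Fact q.Prime := ⟨hq⟩
  have hW : ∀ x y : modularFunctionFieldBar (q * M), (x : LaurentSeries Qb) = jqModC Qb →
      (y : LaurentSeries Qb) = qExpand Qb q (jqModC Qb) →
        atkinLehnerBar q M h x = y ∧ atkinLehnerBar q M h y = x := by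
    intro x y hx hy
    have hx' : x = jBar (q * M) := by
      refine Subtype.ext ?_
      rw [hx, coe_jBar_eq_inc A (q * M), Fermat.Agent.S34.helper584.inc_jqModC]
    have hy' : y = jBarD (q * M) q (Dvd.intro M rfl) := by
      refine Subtype.ext ?_
      rw [hy, coe_jBarD_eq_inc A (q * M) q (Dvd.intro M rfl),
        Fermat.Agent.S18.helper8991.inc_jqNModC]
      rfl
    rw [hx', hy']
    exact ⟨atkinLehnerBar_jBar q M h, atkinLehnerBar_jBarD_self q M h⟩
  obtain ⟨b, c', hb₁, hb₂, hc₁, hc₂⟩ :=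
    Fermat.Agent.S34.helper584.exists_witness A hq hA (q * M) (Dvd.intro M rfl)
      (atkinLehnerBar q M h) hW
  exact Fermat.Agent.S34.helper584.stmt_UniFF_of_torFix (pow_ne_zero m hp) hq A hA (q * M) hτ
    (atkinLehnerBar q M h) (atkinLehnerBar_arithmeticGalois_smul q M h τ) b c' hb₁ hb₂ hc₁ hc₂
    (hTor A hA τ hτ m)

/-- **The geometry export consumed by S34** (owner of the producer: E5 of the S35 geometry
module): (TORFIX) at every level `q * M` with `q ∤ M` which is divisible by an auxiliary prime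
`r ∈ {2, 3}`, `r ≠ q` (the levels at which the special-fibre package of S18 is available on the
Hauptmodul line `t_r`), for every prime `p ≠ q`. -/
def Stmt_TorFixGeom : Prop :=
  ∀ (q M p r : ℕ) [NeZero q] [NeZero M] (h : Nat.Coprime q M), q.Prime → p.Prime → q ≠ p →
    (r = 2 ∨ r = 3) → r ≠ q → r ∣ M → Stmt_TorFixAt q M p h

/-- **Level descent of (UNI-FF)** (owner helper1261, backup helper734): from the auxiliary level
`q * lcm(M, r)`, `r = auxPrime p q`, to the level `q * M`. -/
def Stmt_UniDescent : Prop :=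
  ∀ (q M p : ℕ), q.Prime → p.Prime → q ≠ p → Nat.Coprime q M → M ≠ 0 →
    Stmt_UniFFAll (q * Nat.lcm M (auxPrime p q)) p q → Stmt_UniFFAll (q * M) p q

/-- **(UNI) for every level `N` with `q ∥ N`**, from the geometry export and the level descent:
the closed S34-specific statement. -/
theorem stmt_Uni_of_geom (hG : Stmt_TorFixGeom) (hD : Stmt_UniDescent)
    (N p q : ℕ) [NeZero N] (hp : p.Prime) (hq : q.Prime) (hqp : q ≠ p) (hqN : q ∣ N)
    (hq2 : ¬ q ^ 2 ∣ N) : Fermat.Agent.S34.helper584.Stmt_Uni N p q := by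
  obtain ⟨M, rfl⟩ := hqN
  have hM0 : M ≠ 0 := by
    rintro rfl
    exact NeZero.ne (q * 0) (mul_zero q)
  have hcop : Nat.Coprime q M := by
    rw [Nat.Prime.coprime_iff_not_dvd hq]
    rintro ⟨c, rfl⟩
    exact hq2 ⟨c, by ring⟩
  set r := auxPrime p q with hr
  have hr0 : r ≠ 0 := (auxPrime_prime p q).ne_zero
  have hL0 : Nat.lcm M r ≠ 0 := Nat.lcm_ne_zero hM0 hr0
  haveI : NeZero q := ⟨hq.ne_zero⟩
  haveI : NeZero (Nat.lcm M r) := ⟨hL0⟩
  have hrq : r ≠ q := auxPrime_ne hqp
  have hcopr : Nat.Coprime q r :=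
    (Nat.coprime_primes hq (auxPrime_prime p q)).mpr fun h => hrq h.symm
  have hcopL : Nat.Coprime q (Nat.lcm M r) :=
    Nat.Coprime.coprime_dvd_right (Nat.lcm_dvd_mul M r) (Nat.Coprime.mul_right hcop hcopr)
  have hTor : Stmt_TorFixAt q (Nat.lcm M r) p hcopL :=
    hG q (Nat.lcm M r) p r hcopL hq hp hqp (auxPrime_eq p q) hrq (Nat.dvd_lcm_right M r)
  have hAux : Stmt_UniFFAll (q * Nat.lcm M r) p q :=
    stmt_UniFFAll_of_torFixAt hcopL hq hp.ne_zero hTor
  exact stmt_Uni_of_uniFFAll hp.ne_zero (hD q M p hq hp hqp hcop hM0 hAux)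

/-- **S34 from the S37 back-end, the weak Kummer dictionary, the geometry export (TORFIX) and
the level descent.** -/
theorem result_of_geom
    {𝒪 : Type} [CommRing 𝒪] [IsDomain 𝒪] [IsDiscreteValuationRing 𝒪]
    [IsAdicComplete (maximalIdeal 𝒪) 𝒪] [Finite (ResidueField 𝒪)] [CharZero 𝒪]
    {p : ℕ} (hp : p.Prime) (hp𝒪 : (p : 𝒪) ∈ maximalIdeal 𝒪)
    {N : ℕ} [NeZero N] {S : Finset ℕ} (hpS : p ∈ S) (hNS : ∀ q : ℕ, q.Prime → q ∣ N → q ∈ S)
    {θ : CuspForm.heckeAlgebra N 2 (↑S : Set ℕ) →+* ResidueField 𝒪}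
    {T : Type} [CommRing T] [IsLocalRing T] [IsNoetherianRing T]
    [IsAdicComplete (maximalIdeal T) T] [Algebra 𝒪 T] [IsLocalHom (algebraMap 𝒪 T)]
    [Module.Finite 𝒪 T] [Module.Free 𝒪 T]
    (H : CuspForm.HeckeGaloisRepDatum N (↑S : Set ℕ) 𝒪 θ T)
    (q : ℕ) (hq : q.Prime) (hqp : q ≠ p) (hqN : q ∣ N) (hq2 : ¬ q ^ 2 ∣ N)
    (hCore : Fermat.Agent.S37.helper8353.Stmt_CoreHom N p) (hMult : Stmt_MultW N p)
    (hG : Stmt_TorFixGeom) (hD : Stmt_UniDescent) :
    H.ρ.IsUnipotentOnInertiaAt q :=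
  result_of_uni hp hp𝒪 hpS hNS H q hq hqp hqN hq2 (stmt_FQ_of_coreHom hCore) hMult
    (stmt_Uni_of_geom hG hD N p q hp hq hqp hqN hq2)

end Fermat.Agent.S34.helper8267
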