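/-
S34, integration leaf (E5), last link (helper2423).

`stmt_TorFixGeom_of_nodalAt` : the captain's closed Prop
`Fermat.Agent.S34.helper8267.Stmt_TorFixGeom` (one of the two inputs of
`helper8267.result_of_torFix`, the frozen statement S34) from the level-wise geometric leaf
`Stmt_NodalAt q M h A n` = exports (E1) + (E3) of the geometry module shared with S35 at the
level `q * M`:

* chart divisors `E1`, `E2` (polar / zero divisor of the chart coordinate), effective, disjoint,
  stable under the inertia group of `A`;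
* a reduction datum `RedDataW` for the two Gauss valuations (`gaussVals`);
* the nodal Riemann-Roch package `(Vn, ιV, T, p, q)` of the special fibre (`helper603.IsNodalRR`);
* for every `n`-Kummer `h ≡ 1` at both Gauss valuations: cartesian Riemann-Roch spaces and
  `red (ball ∩ L(D_h + a E1 + b E2)) = ιV (glued p q c (T a b))` with `c i ^ n = 1`.
-/
import Mathlib
import Fermat.Agent.S34.helper2423_TorFixInst
import Fermat.Agent.S34.helper8267_Chain

set_option autoImplicit false

namespace Fermat.Agent.S34.helper2423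

open AlgebraicCurve ModularCurve
open Fermat.Agent.S29.helper8217
open Fermat.Agent.S34.helper584
open Fermat.Agent.S35.helper1219

local notation "Qb" => AlgebraicClosure ℚ

noncomputable section

/-- **The geometric leaf of S34 at ONE level `q * M` and ONE place `A` over `q`**, for the
modulus `n` (exports (E1) + (E3) of the geometry module shared with S35). -/
def Stmt_NodalAt (q M : ℕ) [NeZero q] [NeZero M] (h' : Nat.Coprime q M)
    (A : ValuationSubring Qb) (n : ℕ) : Prop :=
  ∃ (E1 E2 : Divisor Qb (modularFunctionFieldBar (q * M))),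
    (∀ w : Place Qb (modularFunctionFieldBar (q * M)), 0 ≤ E1 w) ∧
    (∀ w : Place Qb (modularFunctionFieldBar (q * M)), 0 ≤ E2 w) ∧
    (∀ w : Place Qb (modularFunctionFieldBar (q * M)), E1 w = 0 ∨ E2 w = 0) ∧
    (∀ τ ∈ A.inertiaSubgroupIn ℚ, ∀ w : Place Qb (modularFunctionFieldBar (q * M)),
      0 < E1 w → 0 < E1 (arithmeticGalois (modularFunctionFieldFull (q * M)) τ • w)) ∧
    (∀ τ ∈ A.inertiaSubgroupIn ℚ, ∀ w : Place Qb (modularFunctionFieldBar (q * M)),
      0 < E2 w → 0 < E2 (arithmeticGalois (modularFunctionFieldFull (q * M)) τ • w)) ∧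
    ∃ (kk : Type) (_ : Field kk) (Fk : Type) (_ : CommRing Fk) (_ : Algebra kk Fk)
      (red : modularFunctionFieldBar (q * M) → Fk),
      Fermat.Agent.S35.helper2459.RedDataW (gaussVals A (q * M) (atkinLehnerBar q M h'))
        (fun _ => (1 : (gaussV A (q * M)).ValueGroup)) (gaussValL A (q * M)) kk red red ∧
      ∃ (Vn : Type) (_ : CommRing Vn) (_ : Algebra kk Vn) (I : Type) (_ : Fintype I)
        (ιV : Vn →ₐ[kk] Fk) (T : ℕ → ℕ → Submodule kk Vn) (p' q' : I → Vn →ₐ[kk] kk)
        (e s t n₀ : ℕ),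
        Function.Injective ιV ∧ Fermat.Agent.S35.helper603.IsNodalRR T p' q' e s t n₀ ∧
        (1 : Vn) ∈ T 0 0 ∧
        (∀ a b a' b', ∀ x ∈ T a b, ∀ y ∈ T a' b', x * y ∈ T (a + a') (b + b')) ∧
        ∀ h : modularFunctionFieldBar (q * M), IsKummer Qb n h →
          (gaussV A (q * M)).valuation (h - 1) < 1 →
          (gaussV A (q * M)).valuation (atkinLehnerBar q M h' h - 1) < 1 →
          (∀ k, n₀ ≤ k → Fermat.Agent.S35.helper2459.CartesianW
            (gaussVals A (q * M) (atkinLehnerBar q M h'))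
            (fun _ => (1 : (gaussV A (q * M)).ValueGroup)) (gaussValL A (q * M))
            (riemannRochSpace (kummerDivisor Qb n h + k • E1 + k • E2))) ∧
          ∃ c : I → kk, (∀ i, c i ^ n = 1) ∧ ∀ a b, n₀ ≤ a + b →
            (∀ x ∈ riemannRochSpace (kummerDivisor Qb n h + a • E1 + b • E2),
              (∀ i, gaussVals A (q * M) (atkinLehnerBar q M h') i x ≤ 1) →
              ∃ y ∈ Fermat.Agent.S35.helper603.glued p' q' c (T a b), red x = ιV y) ∧
            (∀ y ∈ Fermat.Agent.S35.helper603.glued p' q' c (T a b),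
              ∃ x ∈ riemannRochSpace (kummerDivisor Qb n h + a • E1 + b • E2),
                (∀ i, gaussVals A (q * M) (atkinLehnerBar q M h') i x ≤ 1) ∧ red x = ιV y)

/-- **(TORFIX) at the level `q * M` from the level-wise geometric leaf.** -/
theorem stmt_TorFix_of_nodalAt {q M : ℕ} [NeZero q] [NeZero M] (h' : Nat.Coprime q M)
    (hq : q.Prime) (A : ValuationSubring Qb) (hA : A.LiesOverPrime q) {n : ℕ} (hn : 0 < n)
    (hnq : Nat.Coprime n q) (hGeo : Stmt_NodalAt q M h' A n)
    {τ : Qb ≃ₐ[ℚ] Qb} (hτ : τ ∈ A.inertiaSubgroupIn ℚ) :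
    Stmt_TorFix (q * M) n A (atkinLehnerBar q M h') τ := by
  have : NeZero (q * M) := ⟨mul_ne_zero hq.ne_zero (NeZero.ne M)⟩
  obtain ⟨E1, E2, hE1, hE2, hdisj, hgE1, hgE2, kk, _, Fk, _, _, red, hred, Vn, _, _, I, _, ιV, T,
    p', q', e, s, t, n₀, hιV, hT, hT1, hTmul, hE3⟩ := hGeo
  exact stmt_TorFix_of_nodal hq A hA hn hnq (atkinLehnerBar q M h') hτ
    (atkinLehnerBar_arithmeticGalois_smul q M h' τ) E1 E2 hE1 hE2 hdisj (hgE1 τ hτ) (hgE2 τ hτ)
    hred ιV hιV T p' q' e s t n₀ hT hT1 hTmul hE3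

/-- The level-wise leaf at all auxiliary levels gives the export `Stmt_NodalExport`. -/
theorem stmt_NodalExport_of_nodalAt {q : ℕ} [NeZero q] (r n : ℕ)
    (hGeo : ∀ (M : ℕ) [NeZero M] (h' : Nat.Coprime q M), r ∣ q * M →
      ∀ A : ValuationSubring Qb, A.LiesOverPrime q → Stmt_NodalAt q M h' A n) :
    Stmt_NodalExport q r n :=
  fun M _ h' hr A hA => hGeo M h' hr A hA

/-- **The captain's geometry export `Stmt_TorFixGeom` from the level-wise geometric leaf** at
the levels `q * M` with `r ∣ M`, `r ∈ {2, 3}`, `r ≠ q`, for the moduli `p ^ m`, `p ≠ q`. -/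
theorem stmt_TorFixGeom_of_nodalAt
    (hGeo : ∀ (q M p r : ℕ) [NeZero q] [NeZero M] (h' : Nat.Coprime q M), q.Prime → p.Prime →
      q ≠ p → (r = 2 ∨ r = 3) → r ≠ q → r ∣ M →
      ∀ A : ValuationSubring Qb, A.LiesOverPrime q → ∀ m : ℕ, Stmt_NodalAt q M h' A (p ^ m)) :
    Fermat.Agent.S34.helper8267.Stmt_TorFixGeom := by
  intro q M p r _ _ h' hq hp hqp hr hrq hrM A hA τ hτ m
  have hnq : Nat.Coprime (p ^ m) q :=
    Nat.Coprime.pow_left m ((Nat.coprime_primes hp hq).mpr (Ne.symm hqp))
  exact stmt_TorFix_of_nodalAt h' hq A hA (pow_pos hp.pos m) hnq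
    (hGeo q M p r h' hq hp hqp hr hrq hrM A hA m) hτ

end

end Fermat.Agent.S34.helper2423
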