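/-
S34 / S35, integration leaf (E5): the MODULAR INSTANCE of the geometric leaf (helper2423).

`Stmt_NodalAt q M h' A n` (the level-wise geometric leaf of S34, see `helper2423_TorFixGeom`) at
the level `q * M` from the function-field theorem (E3)
`Fermat.Agent.S35.helper603.twisted_lattice_of_components`, with every hypothesis which is on
main discharged at the concrete objects:

* generic fibre `F = ℚ̄(X₀(q M))`: principal divisors, places of degree one, Riemann bound
  (`S37.helper5162`, `S37.helper6267`);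
* the pair of Gauss valuations, its reduction datum and the cartesian property of every
  Riemann-Roch space (`helper882.gpVal`, `gpRedData`, `gp_cartesianW`);
* special fibre: both components are `F_k(M) = modularFunctionFieldFullC k M`, `k` the residue
  field of `A` (`helper1928.gpRed_mem_range`, `fibreIncl`), with principal divisors, places of
  degree one and Riemann bound (`S18.helper4307`, `S37.helper265`).

What is left as hypotheses is exactly the chart / node package: the chart function `x` with its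
reduction `(x₁, x₂)`, the divisors, the nodes `P i`, `Q i`, and the three statements `hcont`,
`hK1`, `hK2` (reduction containment with node conditions, Kronecker conductor in the two
charts).
-/
import Mathlib
import Fermat.Agent.S34.helper2423_TorFixGeom
import Fermat.Agent.S35.helper603_TwistedFF
import Fermat.Agent.S35.helper882_GaussPairCart
import Fermat.Agent.S35.helper1928_ResField
import Fermat.Agent.S37.helper265_FkPlaces
import Fermat.Agent.S37.helper6267_RiemannModular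
import Fermat.Agent.S29.helper36_FunctionFieldL

set_option autoImplicit false

namespace Fermat.Agent.S34.helper2423

open AlgebraicCurve ModularCurve
open Fermat.Agent.S29.helper8217
open Fermat.Agent.S34.helper584
open Fermat.Agent.S35.helper1219
open Fermat.Agent.S35.helper603 (valueAt nodeRing evalAt pairRR glued nodeInclAlg)
open Fermat.Agent.S35.helper882 (gpVal gpBase gpRed gpRing)
open Fermat.Agent.S35.helper1928 (fibreIncl)

local notation "Qb" => AlgebraicClosure ℚ

noncomputable section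

/-- Constants of `A` reduce to constants (hypothesis `hconst` of (E3)). -/
theorem gpRed_const (A : ValuationSubring Qb) (N : ℕ)
    (W : modularFunctionFieldBar N ≃ₐ[Qb] modularFunctionFieldBar N) (c : Qb)
    (hc : gpBase A N c ≤ 1) :
    ∃ κ : IsLocalRing.ResidueField A,
      gpRed A N W (algebraMap Qb (modularFunctionFieldBar N) c) =
        algebraMap (IsLocalRing.ResidueField A)
          (LaurentSeries (IsLocalRing.ResidueField A) ×
            LaurentSeries (IsLocalRing.ResidueField A)) κ := by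
  have hcA : c ∈ A := (Fermat.Agent.S35.helper882.gpBase_le_one_iff A N c).mp hc
  refine ⟨IsLocalRing.residue A ⟨c, hcA⟩, ?_⟩
  refine Prod.ext ?_ ?_
  · exact Fermat.Agent.S35.helper882.gpRho_algebraMap A N hcA
  · show Fermat.Agent.S35.helper882.gpRho A N (W (algebraMap Qb (modularFunctionFieldBar N) c)) = _
    rw [AlgEquiv.commutes]
    exact Fermat.Agent.S35.helper882.gpRho_algebraMap A N hcA

/-- **The geometric leaf of S34 at the level `q * M` from the chart / node package.**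
All hypotheses of `helper603.twisted_lattice_of_components` which do not involve the chart
function or the nodes are discharged. -/
theorem stmt_NodalAt_of_components {q M : ℕ} [NeZero q] [NeZero M] (h' : Nat.Coprime q M)
    (hq : q.Prime) (A : ValuationSubring Qb) (hA : A.LiesOverPrime q)
    {I : Type} [Fintype I]
    (hdegk : ∀ w : Place (IsLocalRing.ResidueField A)
      ↥(modularFunctionFieldFullC (IsLocalRing.ResidueField A) M), w.deg = 1)
    (P Q : I → Place (IsLocalRing.ResidueField A)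
      ↥(modularFunctionFieldFullC (IsLocalRing.ResidueField A) M))
    (hP : Function.Injective P) (hQ : Function.Injective Q)
    (Yinf₁ Y0₁ Yinf₂ Y0₂ : Divisor (IsLocalRing.ResidueField A)
      ↥(modularFunctionFieldFullC (IsLocalRing.ResidueField A) M))
    (hYinf₁ : 0 ≤ Yinf₁) (hY0₁ : 0 ≤ Y0₁) (hYinf₂ : 0 ≤ Yinf₂) (hY0₂ : 0 ≤ Y0₂)
    (hdisj₁ : ∀ w, Yinf₁ w = 0 ∨ Y0₁ w = 0) (hdisj₂ : ∀ w, Yinf₂ w = 0 ∨ Y0₂ w = 0)
    (d₁ d₂ : ℕ) (hd₁ : 0 < d₁) (hd₂ : 0 < d₂)
    (hdY₁ : Divisor.degree Yinf₁ = d₁) (hdY0₁ : Divisor.degree Y0₁ = d₁)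
    (hdY₂ : Divisor.degree Yinf₂ = d₂) (hdY0₂ : Divisor.degree Y0₂ = d₂)
    (hPY : ∀ i, Yinf₁ (P i) = 0 ∧ Y0₁ (P i) = 0) (hQY : ∀ i, Yinf₂ (Q i) = 0 ∧ Y0₂ (Q i) = 0)
    (E1 E2 : Divisor Qb (modularFunctionFieldBar (q * M))) (hE1 : 0 ≤ E1) (hE2 : 0 ≤ E2)
    (hdE1 : 0 < Divisor.degree E1)
    (hdisj : ∀ w : Place Qb (modularFunctionFieldBar (q * M)), E1 w = 0 ∨ E2 w = 0)
    (hgE1 : ∀ τ ∈ A.inertiaSubgroupIn ℚ, ∀ w : Place Qb (modularFunctionFieldBar (q * M)),
      0 < E1 w → 0 < E1 (arithmeticGalois (modularFunctionFieldFull (q * M)) τ • w))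
    (hgE2 : ∀ τ ∈ A.inertiaSubgroupIn ℚ, ∀ w : Place Qb (modularFunctionFieldBar (q * M)),
      0 < E2 w → 0 < E2 (arithmeticGalois (modularFunctionFieldFull (q * M)) τ • w))
    (x : modularFunctionFieldBar (q * M)) (hx0 : x ≠ 0)
    (hxord : ∀ w : Place Qb (modularFunctionFieldBar (q * M)), w.ord x = E2 w - E1 w)
    (hxv : ∀ i, gpVal A (q * M) (atkinLehnerBar q M h') i x = 1)
    (x₁ x₂ : ↥(modularFunctionFieldFullC (IsLocalRing.ResidueField A) M))
    (hredx : gpRed A (q * M) (atkinLehnerBar q M h') x =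
      fibreIncl (IsLocalRing.ResidueField A) M (x₁, x₂))
    (hx₁ : ∀ w, w.ord x₁ = Y0₁ w - Yinf₁ w) (hx₂ : ∀ w, w.ord x₂ = Y0₂ w - Yinf₂ w)
    (hcont : ∀ a b : ℕ, ∀ f ∈ riemannRochSpace (a • E1 + b • E2),
      (∀ i, gpVal A (q * M) (atkinLehnerBar q M h') i f ≤ 1) →
      ∃ y₁ ∈ riemannRochSpace (a • Yinf₁ + b • Y0₁),
        ∃ y₂ ∈ riemannRochSpace (a • Yinf₂ + b • Y0₂),
          gpRed A (q * M) (atkinLehnerBar q M h') f =
            fibreIncl (IsLocalRing.ResidueField A) M (y₁, y₂) ∧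
          ∀ i, valueAt (Q i) (hdegk (Q i)) y₂ = valueAt (P i) (hdegk (P i)) y₁)
    (hK1 : ∀ a : ℕ, ∀ y₁ ∈ riemannRochSpace (a • Yinf₁), ∀ y₂ ∈ riemannRochSpace (a • Yinf₂),
      (∀ i, valueAt (Q i) (hdegk (Q i)) y₂ = valueAt (P i) (hdegk (P i)) y₁) →
      ∃ a' : ℕ, ∃ f ∈ riemannRochSpace (a' • E1),
        (∀ i, gpVal A (q * M) (atkinLehnerBar q M h') i f ≤ 1) ∧
          gpRed A (q * M) (atkinLehnerBar q M h') f =
            fibreIncl (IsLocalRing.ResidueField A) M (y₁, y₂))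
    (hK2 : ∀ b : ℕ, ∀ y₁ ∈ riemannRochSpace (b • Y0₁), ∀ y₂ ∈ riemannRochSpace (b • Y0₂),
      (∀ i, valueAt (Q i) (hdegk (Q i)) y₂ = valueAt (P i) (hdegk (P i)) y₁) →
      ∃ b' : ℕ, ∃ f ∈ riemannRochSpace (b' • E2),
        (∀ i, gpVal A (q * M) (atkinLehnerBar q M h') i f ≤ 1) ∧
          gpRed A (q * M) (atkinLehnerBar q M h') f =
            fibreIncl (IsLocalRing.ResidueField A) M (y₁, y₂))
    (n : ℕ) (hn : n ≠ 0) : Stmt_NodalAt q M h' A n := by
  classical
  haveI : Fact q.Prime := ⟨hq⟩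
  have hqM : ¬ q ∣ M := (Nat.Prime.coprime_iff_not_dvd hq).mp h'
  haveI : NeZero (q * M) := ⟨mul_ne_zero hq.ne_zero (NeZero.ne M)⟩
  haveI := Fermat.Agent.S37.helper5162.hasPrincipalDivisors_FN (q * M)
  haveI := Fermat.Agent.Lib.helper6879.isAlgClosed_residueField A
  have hNk := Fermat.Agent.S18.helper4307.natCast_ne_zero_residue M hq hqM A hA
  haveI := Fermat.Agent.S18.helper4307.hasPrincipalDivisors_fullC (IsLocalRing.ResidueField A) M hNk
  obtain ⟨P₁⟩ := Fermat.Agent.S37.helper265.nonempty_place_fullC (IsLocalRing.ResidueField A) M hNk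
  have hRBk := Fermat.Agent.S37.helper265.hasRiemannBound_fullC (IsLocalRing.ResidueField A) M hNk
  let P₀ : Place Qb (modularFunctionFieldBar (q * M)) := Fermat.Agent.S29.helper36.qPlaceL Qb (q * M)
  have hcart : ∀ D : Divisor Qb (modularFunctionFieldBar (q * M)),
      Fermat.Agent.S35.helper2459.CartesianW (gpVal A (q * M) (atkinLehnerBar q M h'))
        (fun _ => (1 : (gpRing A (q * M)).ValueGroup)) (gpBase A (q * M))
        (riemannRochSpace D) := by
    intro D
    haveI : FiniteDimensional Qb (riemannRochSpace D) :=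
      Fermat.Agent.S18.helper981.finite_riemannRochSpace
        (Fermat.Agent.S37.helper5162.place_deg_eq_one (q * M)) P₀ D
    exact Fermat.Agent.S35.helper882.gp_cartesianW q M hqM A hA (riemannRochSpace D)
  obtain ⟨n₀, hT, -, -, hE3⟩ :=
    Fermat.Agent.S35.helper603.twisted_lattice_of_components
      (Fermat.Agent.S37.helper5162.place_deg_eq_one (q * M))
      (Fermat.Agent.S37.helper6267.hasRiemannBound_FN (q * M))
      P₀
      (gpVal A (q * M) (atkinLehnerBar q M h')) (gpBase A (q * M))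
      (Fermat.Agent.S35.helper882.gpRedData A (q * M) (atkinLehnerBar q M h'))
      (gpRed_const A (q * M) (atkinLehnerBar q M h')) hcart
      (fibreIncl (IsLocalRing.ResidueField A) M)
      (Fermat.Agent.S35.helper1928.fibreIncl_injective (IsLocalRing.ResidueField A) M)
      (fun f _ => by
        obtain ⟨y, hy⟩ := Fermat.Agent.S35.helper1928.gpRed_mem_range q M hqM A hA
          (atkinLehnerBar q M h') f
        exact ⟨y, hy.symm⟩)
      hdegk hdegk hRBk hRBk P₁ P₁ P Q hP hQ Yinf₁ Y0₁ Yinf₂ Y0₂ hYinf₁ hY0₁ hYinf₂ hY0₂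
      hdisj₁ hdisj₂ d₁ d₂ hd₁ hd₂ hdY₁ hdY0₁ hdY₂ hdY0₂ hPY hQY E1 E2 hE1 hE2 hdE1 x hx0 hxord
      hxv x₁ x₂ hredx hx₁ hx₂ hcont hK1 hK2
  refine ⟨E1, E2, fun w => by simpa using Finsupp.le_def.mp hE1 w,
    fun w => by simpa using Finsupp.le_def.mp hE2 w, hdisj, hgE1, hgE2,
    IsLocalRing.ResidueField A, inferInstance,
    LaurentSeries (IsLocalRing.ResidueField A) × LaurentSeries (IsLocalRing.ResidueField A),
    inferInstance, inferInstance, gpRed A (q * M) (atkinLehnerBar q M h'),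
    Fermat.Agent.S35.helper882.gpRedData A (q * M) (atkinLehnerBar q M h'),
    nodeRing P × nodeRing Q, inferInstance, inferInstance, I, inferInstance,
    (fibreIncl (IsLocalRing.ResidueField A) M).comp (nodeInclAlg P Q),
    fun a b => pairRR P Q (a • Yinf₁ + b • Y0₁) (a • Yinf₂ + b • Y0₂),
    fun i => (evalAt P (fun i => hdegk (P i)) i).comp
      (AlgHom.fst (IsLocalRing.ResidueField A) (nodeRing P) (nodeRing Q)),
    fun i => (evalAt Q (fun i => hdegk (Q i)) i).comp
      (AlgHom.snd (IsLocalRing.ResidueField A) (nodeRing P) (nodeRing Q)),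
    d₁ + d₂, _, 2, n₀,
    (Fermat.Agent.S35.helper1928.fibreIncl_injective (IsLocalRing.ResidueField A) M).comp
      (Fermat.Agent.S35.helper603.nodeInclAlg_injective P Q),
    hT, Fermat.Agent.S35.helper603.one_mem_pairRR_zero P Q Yinf₁ Y0₁ Yinf₂ Y0₂,
    fun a b a' b' y hy z hz =>
      Fermat.Agent.S35.helper603.mul_mem_pairRR P Q Yinf₁ Y0₁ Yinf₂ Y0₂ a b a' b' y hy z hz, ?_⟩
  intro h hK h1 h2
  refine ⟨fun k _ => hcart _, ?_⟩
  refine hE3 n hn (kummerDivisor Qb n h) (degree_kummerDivisor hK) h hK.ne_zero (fun w => ?_)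
    (fun i => ?_)
  · rw [kummerDivisor_apply]
    exact le_of_eq (hK.mul_ediv_cancel w)
  · fin_cases i
    · exact h1
    · show (gaussV A (q * M)).valuation (atkinLehnerBar q M h' (h - 1)) < 1
      rw [map_sub, map_one]
      exact h2

/-! ### The chart / node package as ONE Prop -/

/-- **The chart / node package at the level `q * M`** (`q ∤ M`, `A` over `q`,
`k = ResidueField A`, both components of the special fibre `= F_k(M)`): a chart function `x` of
the generic fibre, fixed by the inertia group of `A`, a unit for both Gauss valuations, with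
reduction `(x₁, x₂)`; nodes `P i`, `Q i` off the zeros and poles of `x₁`, `x₂`; and, for the pole
and zero divisors `E1`, `E2` of `x` and `Yinf_j`, `Y0_j` of `x_j`:

* `hRR`: the unit ball of `L(a E1 + b E2)` reduces into `L(a Yinf₁ + b Y0₁) × L(a Yinf₂ + b Y0₂)`;
* `hnode`: the reductions of the unit ball of `L(a E1)` satisfy the node conditions;
* `hK1`, `hK2`: every pair of `L(a Yinf₁) × L(a Yinf₂)` (resp. `L(b Y0₁) × L(b Y0₂)`) satisfying
  the node conditions is the reduction of a unit-ball element of some `L(a' E1)`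
  (resp. `L(b' E2)`).

The divisors are quantified universally through their pointwise characterisation
(`helper6292.IsPoleDivisor` / `IsZeroDivisor` verbatim), so any construction of them can be
used. -/
def Stmt_ChartNodes (q M : ℕ) [NeZero q] [NeZero M] (h' : Nat.Coprime q M)
    (A : ValuationSubring Qb) : Prop :=
  ∀ hdegk : (∀ w : Place (IsLocalRing.ResidueField A)
      ↥(modularFunctionFieldFullC (IsLocalRing.ResidueField A) M), w.deg = 1),
  ∃ (x : modularFunctionFieldBar (q * M))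
    (x₁ x₂ : ↥(modularFunctionFieldFullC (IsLocalRing.ResidueField A) M))
    (I : Type) (_ : Fintype I)
    (P Q : I → Place (IsLocalRing.ResidueField A)
      ↥(modularFunctionFieldFullC (IsLocalRing.ResidueField A) M)),
    Transcendental Qb x ∧
    FiniteDimensional (IntermediateField.adjoin Qb {x}) (modularFunctionFieldBar (q * M)) ∧
    (∀ τ ∈ A.inertiaSubgroupIn ℚ,
      arithmeticGalois (modularFunctionFieldFull (q * M)) τ • x = x) ∧
    (∀ i, gpVal A (q * M) (atkinLehnerBar q M h') i x = 1) ∧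
    Transcendental (IsLocalRing.ResidueField A) x₁ ∧
    FiniteDimensional (IntermediateField.adjoin (IsLocalRing.ResidueField A) {x₁})
      ↥(modularFunctionFieldFullC (IsLocalRing.ResidueField A) M) ∧
    Transcendental (IsLocalRing.ResidueField A) x₂ ∧
    FiniteDimensional (IntermediateField.adjoin (IsLocalRing.ResidueField A) {x₂})
      ↥(modularFunctionFieldFullC (IsLocalRing.ResidueField A) M) ∧
    gpRed A (q * M) (atkinLehnerBar q M h') x =
      fibreIncl (IsLocalRing.ResidueField A) M (x₁, x₂) ∧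
    Function.Injective P ∧ Function.Injective Q ∧
    (∀ i, (P i).ord x₁ = 0) ∧ (∀ i, (Q i).ord x₂ = 0) ∧
    ∀ (E1 E2 : Divisor Qb (modularFunctionFieldBar (q * M)))
      (Yinf₁ Y0₁ Yinf₂ Y0₂ : Divisor (IsLocalRing.ResidueField A)
        ↥(modularFunctionFieldFullC (IsLocalRing.ResidueField A) M)),
      (∀ w, E1 w = max 0 (-(w.ord x))) → (∀ w, E2 w = max 0 (w.ord x)) →
      (∀ w, Yinf₁ w = max 0 (-(w.ord x₁))) → (∀ w, Y0₁ w = max 0 (w.ord x₁)) →
      (∀ w, Yinf₂ w = max 0 (-(w.ord x₂))) → (∀ w, Y0₂ w = max 0 (w.ord x₂)) →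
      (∀ a b : ℕ, ∀ f ∈ riemannRochSpace (a • E1 + b • E2),
        (∀ i, gpVal A (q * M) (atkinLehnerBar q M h') i f ≤ 1) →
        ∃ y₁ ∈ riemannRochSpace (a • Yinf₁ + b • Y0₁),
          ∃ y₂ ∈ riemannRochSpace (a • Yinf₂ + b • Y0₂),
            gpRed A (q * M) (atkinLehnerBar q M h') f =
              fibreIncl (IsLocalRing.ResidueField A) M (y₁, y₂)) ∧
      (∀ a : ℕ, ∀ f ∈ riemannRochSpace (a • E1),
        (∀ i, gpVal A (q * M) (atkinLehnerBar q M h') i f ≤ 1) →
        ∀ y₁ ∈ riemannRochSpace (a • Yinf₁), ∀ y₂ ∈ riemannRochSpace (a • Yinf₂),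
          gpRed A (q * M) (atkinLehnerBar q M h') f =
            fibreIncl (IsLocalRing.ResidueField A) M (y₁, y₂) →
          ∀ i, valueAt (Q i) (hdegk (Q i)) y₂ = valueAt (P i) (hdegk (P i)) y₁) ∧
      (∀ a : ℕ, ∀ y₁ ∈ riemannRochSpace (a • Yinf₁), ∀ y₂ ∈ riemannRochSpace (a • Yinf₂),
        (∀ i, valueAt (Q i) (hdegk (Q i)) y₂ = valueAt (P i) (hdegk (P i)) y₁) →
        ∃ a' : ℕ, ∃ f ∈ riemannRochSpace (a' • E1),
          (∀ i, gpVal A (q * M) (atkinLehnerBar q M h') i f ≤ 1) ∧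
            gpRed A (q * M) (atkinLehnerBar q M h') f =
              fibreIncl (IsLocalRing.ResidueField A) M (y₁, y₂)) ∧
      (∀ b : ℕ, ∀ y₁ ∈ riemannRochSpace (b • Y0₁), ∀ y₂ ∈ riemannRochSpace (b • Y0₂),
        (∀ i, valueAt (Q i) (hdegk (Q i)) y₂ = valueAt (P i) (hdegk (P i)) y₁) →
        ∃ b' : ℕ, ∃ f ∈ riemannRochSpace (b' • E2),
          (∀ i, gpVal A (q * M) (atkinLehnerBar q M h') i f ≤ 1) ∧
            gpRed A (q * M) (atkinLehnerBar q M h') f =
              fibreIncl (IsLocalRing.ResidueField A) M (y₁, y₂))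

/-- **The geometric leaf of S34 at the level `q * M` from the chart / node package**, for every
modulus `n ≠ 0`. -/
theorem stmt_NodalAt_of_chartNodes {q M : ℕ} [NeZero q] [NeZero M] (h' : Nat.Coprime q M)
    (hq : q.Prime) (A : ValuationSubring Qb) (hA : A.LiesOverPrime q)
    (hC : Stmt_ChartNodes q M h' A) (n : ℕ) (hn : n ≠ 0) : Stmt_NodalAt q M h' A n := by
  classical
  have hqM : ¬ q ∣ M := (Nat.Prime.coprime_iff_not_dvd hq).mp h'
  haveI : NeZero (q * M) := ⟨mul_ne_zero hq.ne_zero (NeZero.ne M)⟩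
  haveI := Fermat.Agent.Lib.helper6879.isAlgClosed_residueField A
  have hNk := Fermat.Agent.S18.helper4307.natCast_ne_zero_residue M hq hqM A hA
  have hdegk := Fermat.Agent.S18.helper4307.place_deg_eq_one_fullC (IsLocalRing.ResidueField A) M hNk
  obtain ⟨x, x₁, x₂, I, _, P, Q, hxtr, hxfin, hxgal, hxv, hx₁tr, hx₁fin, hx₂tr, hx₂fin, hredx,
    hP, hQ, hPx, hQx, hpack⟩ := hC hdegk
  obtain ⟨E2, E1, hE2f, hE1f, hE2nn, hE1nn, hdisj, hxord, -, hdegE1⟩ :=
    Fermat.Agent.S18.helper4307.exists_zero_pole_divisors x hxtr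
  obtain ⟨Y0₁, Yinf₁, hY0₁f, hYinf₁f, hY0₁nn, hYinf₁nn, hdisj₁, hx₁ord, hdY0₁, hdYinf₁⟩ :=
    Fermat.Agent.S18.helper4307.exists_zero_pole_divisors x₁ hx₁tr
  obtain ⟨Y0₂, Yinf₂, hY0₂f, hYinf₂f, hY0₂nn, hYinf₂nn, hdisj₂, hx₂ord, hdY0₂, hdYinf₂⟩ :=
    Fermat.Agent.S18.helper4307.exists_zero_pole_divisors x₂ hx₂tr
  obtain ⟨hRR, hnode, hK1, hK2⟩ := hpack E1 E2 Yinf₁ Y0₁ Yinf₂ Y0₂ hE1f hE2f hYinf₁f hY0₁f
    hYinf₂f hY0₂f
  have hx0 : x ≠ 0 := fun h0 => hxtr (h0 ▸ isAlgebraic_zero)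
  have hx₁0 : x₁ ≠ 0 := fun h0 => hx₁tr (h0 ▸ isAlgebraic_zero)
  have hx₂0 : x₂ ≠ 0 := fun h0 => hx₂tr (h0 ▸ isAlgebraic_zero)
  have hPY : ∀ i, Yinf₁ (P i) = 0 ∧ Y0₁ (P i) = 0 := fun i => by
    rw [hYinf₁f, hY0₁f, hPx i]; simp
  have hQY : ∀ i, Yinf₂ (Q i) = 0 ∧ Y0₂ (Q i) = 0 := fun i => by
    rw [hYinf₂f, hY0₂f, hQx i]; simp
  have hstab : ∀ τ ∈ A.inertiaSubgroupIn ℚ, ∀ w : Place Qb (modularFunctionFieldBar (q * M)),
      (arithmeticGalois (modularFunctionFieldFull (q * M)) τ • w).ord x = w.ord x := by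
    intro τ hτ w
    have h := SemilinearAut.ord_smul (arithmeticGalois (modularFunctionFieldFull (q * M)) τ) w x
    rwa [hxgal τ hτ] at h
  have hcont := Fermat.Agent.S35.helper603.hcont_of_chart
    (gpVal A (q * M) (atkinLehnerBar q M h')) (gpBase A (q * M))
    (Fermat.Agent.S35.helper882.gpRedData A (q * M) (atkinLehnerBar q M h'))
    (fibreIncl (IsLocalRing.ResidueField A) M) P Q (fun i => hdegk (P i)) (fun i => hdegk (Q i))
    Yinf₁ Y0₁ Yinf₂ Y0₂ hY0₁nn hY0₂nn hPY hQY E1 E2 hE2nn x hx0 hxord hxv x₁ x₂ hx₁0 hx₂0 hredx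
    hx₁ord hx₂ord hRR hnode
  have hd₁ : 0 < Module.finrank (IntermediateField.adjoin (IsLocalRing.ResidueField A) {x₁})
      ↥(modularFunctionFieldFullC (IsLocalRing.ResidueField A) M) := Module.finrank_pos
  have hd₂ : 0 < Module.finrank (IntermediateField.adjoin (IsLocalRing.ResidueField A) {x₂})
      ↥(modularFunctionFieldFullC (IsLocalRing.ResidueField A) M) := Module.finrank_pos
  have hdE1 : 0 < Divisor.degree E1 := by
    rw [hdegE1]
    exact_mod_cast (Module.finrank_pos :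
      0 < Module.finrank (IntermediateField.adjoin Qb {x}) (modularFunctionFieldBar (q * M)))
  exact stmt_NodalAt_of_components h' hq A hA hdegk P Q hP hQ Yinf₁ Y0₁ Yinf₂ Y0₂ hYinf₁nn hY0₁nn
    hYinf₂nn hY0₂nn hdisj₁ hdisj₂ _ _ hd₁ hd₂ hdYinf₁ hdY0₁ hdYinf₂ hdY0₂ hPY hQY E1 E2 hE1nn hE2nn
    hdE1 hdisj
    (fun τ hτ w hw => by rw [hE1f, hstab τ hτ w, ← hE1f]; exact hw)
    (fun τ hτ w hw => by rw [hE2f, hstab τ hτ w, ← hE2f]; exact hw)
    x hx0 hxord hxv x₁ x₂ hredx hx₁ord hx₂ord hcont hK1 hK2 n hn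

/-- **The S34 captain's geometry export `Stmt_TorFixGeom` from the chart / node package** at the
levels `q * M` with `r ∣ M`, `r ∈ {2, 3}`, `r ≠ q`. -/
theorem stmt_TorFixGeom_of_chartNodes
    (hC : ∀ (q M r : ℕ) [NeZero q] [NeZero M] (h' : Nat.Coprime q M), q.Prime →
      (r = 2 ∨ r = 3) → r ≠ q → r ∣ M →
      ∀ A : ValuationSubring Qb, A.LiesOverPrime q → Stmt_ChartNodes q M h' A) :
    Fermat.Agent.S34.helper8267.Stmt_TorFixGeom :=
  stmt_TorFixGeom_of_nodalAt fun q M p r _ _ h' hq hp _ hr hrq hrM A hA m =>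
    stmt_NodalAt_of_chartNodes h' hq A hA (hC q M r h' hq hr hrq hrM A hA) (p ^ m)
      (pow_ne_zero m hp.ne_zero)

end

end Fermat.Agent.S34.helper2423
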