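/-
S34, the LAST composition (helper8267, captain's copy): the chart / node package
`Fermat.Agent.S34.helper2423.Stmt_ChartNodes q M h' A` at every auxiliary level `q * M`
(`q ∤ M`, `r ∣ M`, `r ∈ {2, 3}`, `r ≠ q`, `A` over `q`), from the three landed suppliers

* `Fermat.Agent.S35.helper3729.chart_front_t2 / _t3` (the nine chart facts),
* `Fermat.Agent.S35.helper2736.kron_nodes_t2 / _t3` (nodes, node conditions, conductor),
* `Fermat.Agent.S35.helper3028.hRR_t2L_lit / _t3L_lit` (Riemann-Roch containment),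

and hence the geometry export `Stmt_TorFixGeom` of the S34 chain.
-/
import Mathlib
import Fermat.Agent.S34.helper8267_Chain
import Fermat.Agent.S34.helper2423_NodalInst
import Fermat.Agent.S35.helper3729_ChartFront
import Fermat.Agent.S35.helper3028_HContGp
import Fermat.Agent.S35.helper2736_KronW

set_option autoImplicit false

namespace Fermat.Agent.S34.helper8267

open AlgebraicCurve ModularCurve
open Fermat.Agent.S35.helper1219
open Fermat.Agent.S18.helper6381 (t2L t3L t2F t3F)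

local notation "Qb" => AlgebraicClosure ℚ

/-- Pole / zero divisors given pointwise by the `max`-formulas: nonnegativity, disjointness and
the divisor of the function. -/
theorem maxDiv_facts {K F : Type*} [Field K] [Field F] [Algebra K F] (x : F)
    (E1 E2 : Divisor K F) (hE1 : ∀ w, E1 w = max 0 (-(w.ord x)))
    (hE2 : ∀ w, E2 w = max 0 (w.ord x)) :
    0 ≤ E1 ∧ 0 ≤ E2 ∧ (∀ w : Place K F, E1 w = 0 ∨ E2 w = 0) ∧
      ∀ w : Place K F, w.ord x = E2 w - E1 w := by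
  refine ⟨Finsupp.le_def.mpr fun w => ?_, Finsupp.le_def.mpr fun w => ?_, fun w => ?_,
    fun w => ?_⟩
  · rw [hE1]; exact le_max_left _ _
  · rw [hE2]; exact le_max_left _ _
  · rw [hE1, hE2]
    rcases le_total 0 (w.ord x) with h | h
    · left; exact max_eq_left (by omega)
    · right; exact max_eq_left h
  · rw [hE1, hE2]
    rcases le_total 0 (w.ord x) with h | h
    · rw [max_eq_left (by omega : -(w.ord x) ≤ 0), max_eq_right h]; ring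
    · rw [max_eq_right (by omega : 0 ≤ -(w.ord x)), max_eq_left h]; ring

/-- **The chart / node package on the `t_2`-chart.** -/
theorem stmt_ChartNodes_t2 (q M : ℕ) [NeZero q] [NeZero M] (h' : Nat.Coprime q M)
    (hq : q.Prime) (hq2 : q ≠ 2) (h2 : 2 ∣ M) (A : ValuationSubring Qb)
    (hA : A.LiesOverPrime q) : Fermat.Agent.S34.helper2423.Stmt_ChartNodes q M h' A := by
  intro hdegk
  have hNk := Fermat.Agent.S35.helper3729.chartFront_hNk q M hq h' A hA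
  obtain ⟨hxtr, hxfin, hxgal, hxv, hx₁tr, hx₁fin, hx₂tr, hx₂fin, hredx, -⟩ :=
    Fermat.Agent.S35.helper3729.chart_front_t2 q M h' hq A hA h2 hNk
  obtain ⟨I, iI, P, Q, hP, hQ, hPx, hQx, -, hpack⟩ :=
    Fermat.Agent.S35.helper2736.kron_nodes_t2 A q M h' hq hq2 hA h2 hNk hdegk
  refine ⟨t2L Qb (q * M) (h2.mul_left q), t2F (IsLocalRing.ResidueField A) M h2 hNk,
    t2F (IsLocalRing.ResidueField A) M h2 hNk ^ q, I, iI, P, Q, hxtr, hxfin,
    fun τ _ => hxgal τ, hxv, hx₁tr, hx₁fin, hx₂tr, hx₂fin, hredx, hP, hQ, hPx, hQx, ?_⟩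
  intro E1 E2 Yinf₁ Y0₁ Yinf₂ Y0₂ hE1 hE2 hYinf₁ hY0₁ hYinf₂ hY0₂
  obtain ⟨hnode, hK1, hK2⟩ := hpack E1 E2 Yinf₁ Y0₁ Yinf₂ Y0₂ hE1 hE2 hYinf₁ hY0₁ hYinf₂ hY0₂
  obtain ⟨hE1nn, hE2nn, hdisj, hxord⟩ := maxDiv_facts _ E1 E2 hE1 hE2
  obtain ⟨hYinf₁nn, hY0₁nn, -, hx₁ord⟩ := maxDiv_facts _ Yinf₁ Y0₁ hYinf₁ hY0₁
  obtain ⟨hYinf₂nn, hY0₂nn, -, hx₂ord⟩ := maxDiv_facts _ Yinf₂ Y0₂ hYinf₂ hY0₂
  exact ⟨Fermat.Agent.S35.helper3028.hRR_t2L_lit q M h' A hq hA h2 E1 E2 hE1nn hE2nn hdisj hxord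
    (t2F (IsLocalRing.ResidueField A) M h2 hNk) rfl Yinf₁ Y0₁ Yinf₂ Y0₂ hYinf₁nn hY0₁nn
    hYinf₂nn hY0₂nn hx₁ord hx₂ord, hnode, hK1, hK2⟩

/-- **The chart / node package on the `t_3`-chart.** -/
theorem stmt_ChartNodes_t3 (q M : ℕ) [NeZero q] [NeZero M] (h' : Nat.Coprime q M)
    (hq : q.Prime) (hq3 : q ≠ 3) (h3 : 3 ∣ M) (A : ValuationSubring Qb)
    (hA : A.LiesOverPrime q) : Fermat.Agent.S34.helper2423.Stmt_ChartNodes q M h' A := by
  intro hdegk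
  have hNk := Fermat.Agent.S35.helper3729.chartFront_hNk q M hq h' A hA
  obtain ⟨hxtr, hxfin, hxgal, hxv, hx₁tr, hx₁fin, hx₂tr, hx₂fin, hredx, -⟩ :=
    Fermat.Agent.S35.helper3729.chart_front_t3 q M h' hq A hA h3 hNk
  obtain ⟨I, iI, P, Q, hP, hQ, hPx, hQx, -, hpack⟩ :=
    Fermat.Agent.S35.helper2736.kron_nodes_t3 A q M h' hq hq3 hA h3 hNk hdegk
  refine ⟨t3L Qb (q * M) (h3.mul_left q), t3F (IsLocalRing.ResidueField A) M h3 hNk,
    t3F (IsLocalRing.ResidueField A) M h3 hNk ^ q, I, iI, P, Q, hxtr, hxfin,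
    fun τ _ => hxgal τ, hxv, hx₁tr, hx₁fin, hx₂tr, hx₂fin, hredx, hP, hQ, hPx, hQx, ?_⟩
  intro E1 E2 Yinf₁ Y0₁ Yinf₂ Y0₂ hE1 hE2 hYinf₁ hY0₁ hYinf₂ hY0₂
  obtain ⟨hnode, hK1, hK2⟩ := hpack E1 E2 Yinf₁ Y0₁ Yinf₂ Y0₂ hE1 hE2 hYinf₁ hY0₁ hYinf₂ hY0₂
  obtain ⟨hE1nn, hE2nn, hdisj, hxord⟩ := maxDiv_facts _ E1 E2 hE1 hE2
  obtain ⟨hYinf₁nn, hY0₁nn, -, hx₁ord⟩ := maxDiv_facts _ Yinf₁ Y0₁ hYinf₁ hY0₁
  obtain ⟨hYinf₂nn, hY0₂nn, -, hx₂ord⟩ := maxDiv_facts _ Yinf₂ Y0₂ hYinf₂ hY0₂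
  exact ⟨Fermat.Agent.S35.helper3028.hRR_t3L_lit q M h' A hq hA h3 E1 E2 hE1nn hE2nn hdisj hxord
    (t3F (IsLocalRing.ResidueField A) M h3 hNk) rfl Yinf₁ Y0₁ Yinf₂ Y0₂ hYinf₁nn hY0₁nn
    hYinf₂nn hY0₂nn hx₁ord hx₂ord, hnode, hK1, hK2⟩

/-- **The chart / node package at every auxiliary level** (`hC` of
`helper2423.stmt_TorFixGeom_of_chartNodes`). -/
theorem stmt_ChartNodes_all (q M r : ℕ) [NeZero q] [NeZero M] (h' : Nat.Coprime q M)
    (hq : q.Prime) (hr : r = 2 ∨ r = 3) (hrq : r ≠ q) (hrM : r ∣ M)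
    (A : ValuationSubring Qb) (hA : A.LiesOverPrime q) :
    Fermat.Agent.S34.helper2423.Stmt_ChartNodes q M h' A := by
  rcases hr with rfl | rfl
  · exact stmt_ChartNodes_t2 q M h' hq (fun h => hrq h.symm) hrM A hA
  · exact stmt_ChartNodes_t3 q M h' hq (fun h => hrq h.symm) hrM A hA

/-- **The geometry export of the S34 chain, unconditionally.** -/
theorem stmt_TorFixGeom_all : Stmt_TorFixGeom :=
  Fermat.Agent.S34.helper2423.stmt_TorFixGeom_of_chartNodes stmt_ChartNodes_all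

end Fermat.Agent.S34.helper8267
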