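/-
S34-FINAL (helper8267, captain S34): the frozen statement S34 from THREE closed Props.

* `Fermat.Agent.S29.helper405.Stmt_KF0All`  (the export of the S18 project: Kummer form with
  `c = 1` at every level `N` and every prime `ℓ ∤ N`) — gives (FQ) on `JZero N` by the landed
  `Fermat.Agent.S29.helper405.stmt_ESMod_of_kf0` (no S37 back-end needed);
* `Stmt_TorFixGeom`  (geometry export (TORFIX) at the levels `q * M`, `r ∣ M`, `r ∈ {2, 3}`,
  `r ≠ q`; E5 of the geometry module shared with S35);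
* `Stmt_UniDescent`  (level descent of (UNI-FF) from `q * lcm(M, r)` to `q * M`).

The weak Kummer dictionary (MULTW) is unconditional on main
(`Fermat.Agent.S31.helper2756.exists_multSpecW_all`).

`result_of_kf0` has the frozen binder list verbatim, followed by the three Props.
-/
import Fermat.Agent.S34.helper8267_Chain
import Fermat.Agent.S29.helper405_ESFinal
import Fermat.Agent.S31.helper2756_MultMer
import Fermat.Agent.S18.helper789_LineInst

set_option autoImplicit false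

namespace Fermat.Agent.S34.helper8267

open CuspForm ModularCurve AlgebraicCurve CongruenceSubgroup IsLocalRing

/-- (MULTW) is unconditional: the weak analytic Kummer dictionary at every modulus `p ^ m`. -/
theorem stmt_MultW_all (N p : ℕ) [NeZero N] (hp : p ≠ 0) : Stmt_MultW N p :=
  fun m => Fermat.Agent.S31.helper2756.exists_multSpecW_all N (pow_ne_zero m hp)

/-- (FQ) from the S18 export (KF0) alone. -/
theorem stmt_FQ_of_kf0 (hKF : Fermat.Agent.S29.helper405.Stmt_KF0All) (N p : ℕ) [NeZero N] :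
    Stmt_FQ N p := by
  intro ℓ hℓ hℓNp A hA σ hσ x hx
  obtain ⟨k, hk⟩ := hx
  have hℓN : ¬ ℓ ∣ N := fun h => hℓNp (Dvd.dvd.mul_right h p)
  have hℓp : ¬ ℓ ∣ p := fun h => hℓNp (Dvd.dvd.mul_left h N)
  have hℓpk : ¬ ℓ ∣ p ^ k := fun h => hℓp (hℓ.dvd_of_dvd_pow h)
  exact Fermat.Agent.S29.helper405.stmt_ESMod_of_kf0 hKF N (p ^ k) ℓ hℓ hℓN hℓpk A hA σ hσ x hk

/-- **S34 from the S18 export (KF0), the geometry export (TORFIX) and the level descent.** -/
theorem result_of_kf0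
    {𝒪 : Type} [CommRing 𝒪] [IsDomain 𝒪] [IsDiscreteValuationRing 𝒪]
    [IsAdicComplete (maximalIdeal 𝒪) 𝒪] [Finite (ResidueField 𝒪)] [CharZero 𝒪]
    {p : ℕ} (hp : p.Prime) (hp𝒪 : (p : 𝒪) ∈ maximalIdeal 𝒪)
    {N : ℕ} [NeZero N] {S : Finset ℕ} (hpS : p ∈ S) (hNS : ∀ q : ℕ, q.Prime → q ∣ N → q ∈ S)
    {θ : CuspForm.heckeAlgebra N 2 (↑S : Set ℕ) →+* ResidueField 𝒪}
    {T : Type} [CommRing T] [IsLocalRing T] [IsNoetherianRing T]
    [IsAdicComplete (maximalIdeal T) T] [Algebra 𝒪 T] [IsLocalHom (algebraMap 𝒪 T)]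
    [Module.Finite 𝒪 T] [Module.Free 𝒪 T]
    (H : CuspForm.HeckeGaloisRepDatum N (↑S : Set ℕ) 𝒪 θ T)
    (q : ℕ) (hq : q.Prime) (hqp : q ≠ p) (hqN : q ∣ N) (hq2 : ¬ q ^ 2 ∣ N)
    (hKF : Fermat.Agent.S29.helper405.Stmt_KF0All)
    (hG : Stmt_TorFixGeom) (hD : Stmt_UniDescent) :
    H.ρ.IsUnipotentOnInertiaAt q :=
  result_of_uni hp hp𝒪 hpS hNS H q hq hqp hqN hq2 (stmt_FQ_of_kf0 hKF N p)
    (stmt_MultW_all N p hp.ne_zero) (stmt_Uni_of_geom hG hD N p q hp hq hqp hqN hq2)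

/-- **(KF0) at every level and every good prime** — the S18 export, now a theorem on main
(track A: `helper789.stmt_KFr_two`, `stmt_KFr_three` and the level descent `kf0_of_kfr`). -/
theorem stmt_KF0All : Fermat.Agent.S29.helper405.Stmt_KF0All := fun N _ ℓ hℓ hℓN =>
  Fermat.Agent.S18.helper2118.kf0_of_kfr Fermat.Agent.S18.helper789.stmt_KFr_two
    Fermat.Agent.S18.helper789.stmt_KFr_three N ℓ hℓ hℓN

/-- **S34 from the geometry export (TORFIX) and the level descent alone.**  The binder list up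
to `hq2` is the frozen statement's, verbatim. -/
theorem result_of_torFix
    {𝒪 : Type} [CommRing 𝒪] [IsDomain 𝒪] [IsDiscreteValuationRing 𝒪]
    [IsAdicComplete (maximalIdeal 𝒪) 𝒪] [Finite (ResidueField 𝒪)] [CharZero 𝒪]
    {p : ℕ} (hp : p.Prime) (hp𝒪 : (p : 𝒪) ∈ maximalIdeal 𝒪)
    {N : ℕ} [NeZero N] {S : Finset ℕ} (hpS : p ∈ S) (hNS : ∀ q : ℕ, q.Prime → q ∣ N → q ∈ S)
    {θ : CuspForm.heckeAlgebra N 2 (↑S : Set ℕ) →+* ResidueField 𝒪}
    {T : Type} [CommRing T] [IsLocalRing T] [IsNoetherianRing T]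
    [IsAdicComplete (maximalIdeal T) T] [Algebra 𝒪 T] [IsLocalHom (algebraMap 𝒪 T)]
    [Module.Finite 𝒪 T] [Module.Free 𝒪 T]
    (H : CuspForm.HeckeGaloisRepDatum N (↑S : Set ℕ) 𝒪 θ T)
    (q : ℕ) (hq : q.Prime) (hqp : q ≠ p) (hqN : q ∣ N) (hq2 : ¬ q ^ 2 ∣ N)
    (hG : Stmt_TorFixGeom) (hD : Stmt_UniDescent) :
    H.ρ.IsUnipotentOnInertiaAt q :=
  result_of_kf0 hp hp𝒪 hpS hNS H q hq hqp hqN hq2 stmt_KF0All hG hD

end Fermat.Agent.S34.helper8267
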