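import Fermat.Agent.S31.helper8024_Core
import Fermat.Agent.S31.helper5402_RecGen
import Fermat.Prelude.Def_GaloisRep_LocalConditions

/-!
# S34 core (helper1336): the geometry-free part of the route of findings #2781 / #2775

The frozen statement S34 (`H.ρ.IsUnipotentOnInertiaAt q` for `q ∥ N`, `q ≠ p`) is reduced to
generator-Chebotarev and ONE new machine fact `(UNI)`:

* `Stmt_UnipRec N S p q` : for every `n` there is a finite level `K` such that whenever a power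
  `s ^ a` of a Frobenius lift at a good prime `ℓ ∉ S` agrees on `K` with an inertia element at
  `q`, the Hecke element `D_a(T_ℓ, ℓ) - 2` is divisible by `p ^ n` and `ℓ ^ a ≡ 1 mod p ^ n`.
* `isUnipotentOnInertiaAt_of_rec` (TOP) : generator-Chebotarev + `Stmt_UnipRec` give the frozen
  conclusion (`tr ρ(τ) = 2`, `det ρ(τ) = 1` modulo every power of the maximal ideal).
* `stmt_UnipRec_of_facts` (MID) : `Stmt_UnipRec` from the abstract machine facts used for S31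
  (`FrobeniusQuadratic`, a finite level trivialising the `p ^ m`-torsion, a faithful Hecke lattice
  `Λ` with equivariant maps `Λ → J[p ^ m]` of kernel `p ^ m Λ`) and
  `(UNI)` : `τ • τ • x - 2 • (τ • x) + x = 0` for `τ` in inertia at `q` and `x` of `p`-power
  torsion (`(τ - 1) ^ 2 = 0` on the Kummer modules).

* `stmt_UnipRec_of_operatorwise` (MID, operator-wise) : the same for an abelian group `J` with
  `G_ℚ`-action and operators `T_ℓ` (no Hecke-module structure, no commutation, pointwise finite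
  level + normal closure, finite-test-set form of (K5)); `isUnipotentOnInertiaAt_of_operatorwise`
  is the corresponding assembly.

Everything is hypothesis-passing; the S31 files `helper8024_Core` (generator-Chebotarev shape,
Dickson traces) and `helper5402_RecGen` (saturation index, cyclotomic action, Dickson identity on
a module) are imported, not copied.
-/

set_option autoImplicit false

namespace Fermat.Agent.S34.helper1336

open scoped TensorProduct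
open Polynomial

local notation "Qb" => AlgebraicClosure ℚ
local notation "GQ" => (AlgebraicClosure ℚ ≃ₐ[ℚ] AlgebraicClosure ℚ)

/-! ## Linear algebra over a local ring -/

section Algebra

variable {T : Type*} [CommRing T] {V : Type*} [AddCommGroup V] [Module T V]

/-- An endomorphism with image in `I • ⊤` dies after base change to `T ⧸ I`. -/
theorem baseChange_eq_zero_of_forall_mem_smul {I : Ideal T} (f : Module.End T V)
    (hf : ∀ v, f v ∈ I • (⊤ : Submodule T V)) : f.baseChange (T ⧸ I) = 0 := by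
  refine LinearMap.ext fun w => ?_
  induction w using TensorProduct.induction_on with
  | zero => simp
  | tmul c v =>
    rw [LinearMap.baseChange_tmul, LinearMap.zero_apply]
    refine Submodule.smul_induction_on (p := fun x => c ⊗ₜ[T] x = (0 : (T ⧸ I) ⊗[T] V))
      (hf v) ?_ ?_
    · intro r hr w _
      rw [TensorProduct.tmul_smul, TensorProduct.smul_tmul', Algebra.smul_def,
        Ideal.Quotient.algebraMap_eq, Ideal.Quotient.eq_zero_iff_mem.mpr hr, zero_mul,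
        TensorProduct.zero_tmul]
    · intro x y hx hy
      rw [TensorProduct.tmul_add, hx, hy, add_zero]
  | add x y hx hy => rw [map_add, hx, hy, map_add]

variable [Module.Free T V] [Module.Finite T V]

/-- The determinant of an endomorphism congruent to the identity modulo `I` is congruent to `1`
modulo `I`. -/
theorem det_sub_one_mem_of_forall_mem_smul {I : Ideal T} (f : Module.End T V)
    (hf : ∀ v, f v - v ∈ I • (⊤ : Submodule T V)) : LinearMap.det f - 1 ∈ I := by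
  have h0 : (f - 1).baseChange (T ⧸ I) = 0 :=
    baseChange_eq_zero_of_forall_mem_smul (f - 1) fun v => by
      rw [LinearMap.sub_apply, Module.End.one_apply]
      exact hf v
  have h1 : f.baseChange (T ⧸ I) = 1 := by
    have h2 : f = (f - 1) + 1 := by abel
    rw [h2, LinearMap.baseChange_add, h0, zero_add, LinearMap.baseChange_one]
  have h3 := LinearMap.det_baseChange (A := T ⧸ I) f
  rw [h1, map_one, Ideal.Quotient.algebraMap_eq] at h3
  rw [← Ideal.Quotient.eq_zero_iff_mem, map_sub, map_one, ← h3, sub_self]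

/-- The determinant of an endomorphism of a free rank 2 module with characteristic polynomial
`X ^ 2 - t X + d` is `d`. -/
theorem det_eq_of_charpoly (hV : Module.finrank T V = 2) (f : Module.End T V) (t d : T)
    (hf : f.charpoly = X ^ 2 - C t * X + C d) : LinearMap.det f = d := by
  rw [LinearMap.det_eq_sign_charpoly_coeff, hV, hf]
  simp [coeff_C]

variable [Nontrivial T]

/-- In rank 2 the characteristic polynomial is `X ^ 2 - tr X + det`. -/
theorem charpoly_eq_of_finrank_two (hV : Module.finrank T V = 2) (f : Module.End T V) :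
    f.charpoly = X ^ 2 - C (LinearMap.trace T V f) * X + C (LinearMap.det f) := by
  classical
  let b : Module.Basis (Fin 2) T V := Module.finBasisOfFinrankEq T V hV
  rw [← LinearMap.charpoly_toMatrix f b, Matrix.charpoly_fin_two,
    ← LinearMap.trace_eq_matrix_trace T b f, LinearMap.det_toMatrix b f]

end Algebra

/-! ## Adic continuity of the determinant -/

section Adic

variable {T : Type} [CommRing T] [IsLocalRing T]

/-- If `g` and `h` agree on a field through which `ρ mod 𝔪 ^ n` factors, their determinants are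
congruent modulo `𝔪 ^ n`. -/
theorem det_sub_det_mem (ρ : GaloisRepAdic T) (n : ℕ)
    (L : IntermediateField ℚ Qb)
    (hL : ∀ σ : GQ, (∀ x ∈ L, σ x = x) →
      ∀ v : ρ.V, ρ.ρ σ v - v ∈ (IsLocalRing.maximalIdeal T ^ n) • (⊤ : Submodule T ρ.V))
    (g h : GQ) (hgh : ∀ x ∈ L, g x = h x) :
    LinearMap.det (ρ.ρ g) - LinearMap.det (ρ.ρ h) ∈ IsLocalRing.maximalIdeal T ^ n := by
  have hu : ∀ x ∈ L, (h⁻¹ * g) x = x := by
    intro x hx
    rw [AlgEquiv.mul_apply, hgh x hx, AlgEquiv.aut_inv, AlgEquiv.symm_apply_apply]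
  have hg : g = h * (h⁻¹ * g) := by group
  have h1 := det_sub_one_mem_of_forall_mem_smul (ρ.ρ (h⁻¹ * g)) (hL _ hu)
  have h2 : LinearMap.det (ρ.ρ g) - LinearMap.det (ρ.ρ h) =
      LinearMap.det (ρ.ρ h) * (LinearMap.det (ρ.ρ (h⁻¹ * g)) - 1) := by
    conv_lhs => rw [hg, map_mul, map_mul]
    ring
  rw [h2]
  exact Ideal.mul_mem_left _ _ h1

end Adic

/-! ## TOP: the frozen conclusion from generator-Chebotarev and `Stmt_UnipRec` -/

section Top

open CuspForm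

/-- **Unipotent reciprocity at `q` modulo powers of `p`.**  For every `n` there is a finite level
`K` such that, whenever a power `s ^ a` of a Frobenius lift at a good prime `ℓ ∉ S` agrees on `K`
with an inertia element `τ` at `q`, the Hecke element `D_a(T_ℓ, ℓ) - 2` is divisible by `p ^ n`
and `ℓ ^ a ≡ 1 mod p ^ n`.  It mentions no Galois representation of the datum. -/
def Stmt_UnipRec (N : ℕ) [NeZero N] (S : Set ℕ) (p q : ℕ) : Prop :=
  ∀ n : ℕ, ∃ K : IntermediateField ℚ Qb, FiniteDimensional ℚ K ∧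
    ∀ P : ValuationSubring Qb, P.LiesOverPrime q → ∀ τ ∈ P.inertiaSubgroupIn ℚ,
    ∀ (ℓ : ℕ) (hℓ : ℓ.Prime) (hℓN : ¬ ℓ ∣ N) (hℓS : ℓ ∉ S) (A : ValuationSubring Qb) (s : GQ),
      A.LiesOverPrime ℓ → A.IsFrobeniusAt s ℓ →
      ∀ a : ℕ, (∀ x ∈ K, (s ^ a) x = τ x) →
      (∃ y : heckeAlgebra N 2 S,
        (dickson 1 ((ℓ : ℕ) : heckeAlgebra N 2 S) a).eval (heckeAlgebra.T hℓ hℓN hℓS) - 2
          = (p : heckeAlgebra N 2 S) ^ n * y) ∧
      (∃ k : ℤ, (ℓ : ℤ) ^ a - 1 = (p : ℤ) ^ n * k)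

variable {p : ℕ} {N : ℕ} [NeZero N] {S : Finset ℕ}
  {𝒪 : Type} [CommRing 𝒪] [IsDomain 𝒪] [IsDiscreteValuationRing 𝒪]
  [IsAdicComplete (IsLocalRing.maximalIdeal 𝒪) 𝒪]
  {θ : CuspForm.heckeAlgebra N 2 (↑S : Set ℕ) →+* IsLocalRing.ResidueField 𝒪}
  {T : Type} [CommRing T] [IsLocalRing T] [IsNoetherianRing T]
  [IsAdicComplete (IsLocalRing.maximalIdeal T) T] [Algebra 𝒪 T] [IsLocalHom (algebraMap 𝒪 T)]
  [Module.Finite 𝒪 T] [Module.Free 𝒪 T]

/-- The determinant of `ρ (s ^ a)` for a Frobenius lift `s` at a good prime `ℓ ∉ S`. -/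
theorem det_frob_pow (H : CuspForm.HeckeGaloisRepDatum N (↑S : Set ℕ) 𝒪 θ T)
    {ℓ : ℕ} (hℓ : ℓ.Prime) (hℓN : ¬ ℓ ∣ N) (hℓS : ℓ ∉ (↑S : Set ℕ))
    (A : ValuationSubring Qb) (hA : A.LiesOverPrime ℓ) (s : GQ) (hs : A.IsFrobeniusAt s ℓ)
    (a : ℕ) : LinearMap.det (H.ρ.ρ (s ^ a)) = (ℓ : T) ^ a := by
  rw [map_pow, map_pow,
    det_eq_of_charpoly H.ρ.finrank_eq _ _ _ (H.charpoly_frob ℓ hℓ hℓN hℓS A hA s hs)]

/-- **S34 from generator-Chebotarev and unipotent reciprocity.** -/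
theorem isUnipotentOnInertiaAt_of_rec (hCheb : Fermat.Agent.S31.helper8024.GenCheb)
    (hp𝒪 : (p : 𝒪) ∈ IsLocalRing.maximalIdeal 𝒪)
    (H : CuspForm.HeckeGaloisRepDatum N (↑S : Set ℕ) 𝒪 θ T) (q : ℕ)
    (hR : Stmt_UnipRec N (↑S : Set ℕ) p q) :
    H.ρ.IsUnipotentOnInertiaAt q := by
  intro P hP τ hτ
  have hpT : (p : T) ∈ IsLocalRing.maximalIdeal T :=
    Fermat.Agent.S31.helper8024.natCast_mem_maximalIdeal hp𝒪
  have hkrull : ⨅ i : ℕ, IsLocalRing.maximalIdeal T ^ i = ⊥ :=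
    Ideal.iInf_pow_eq_bot_of_isLocalRing _ (Ideal.IsMaximal.ne_top inferInstance)
  have key : ∀ n : ℕ,
      LinearMap.trace T H.ρ.V (H.ρ.ρ τ) - 2 ∈ IsLocalRing.maximalIdeal T ^ n ∧
      LinearMap.det (H.ρ.ρ τ) - 1 ∈ IsLocalRing.maximalIdeal T ^ n := by
    intro n
    obtain ⟨L₁, hL₁fin, hL₁⟩ := H.ρ.isAdicContinuous n
    obtain ⟨K, hKfin, hK⟩ := hR n
    have hLfin : FiniteDimensional ℚ (L₁ ⊔ K : IntermediateField ℚ Qb) :=
      IntermediateField.finiteDimensional_sup L₁ K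
    have hN0 : N ≠ 0 := NeZero.ne N
    obtain ⟨ℓ, A, s, a, hℓ, hℓS', hA, hs, hsg⟩ := hCheb _ hLfin (S ∪ N.primeFactors) τ
    rw [Finset.mem_union, not_or] at hℓS'
    have hℓS : ℓ ∉ (↑S : Set ℕ) := fun h => hℓS'.1 (Finset.mem_coe.mp h)
    have hℓN : ¬ ℓ ∣ N := fun h => hℓS'.2 (Nat.mem_primeFactors.mpr ⟨hℓ, h, hN0⟩)
    have hle₁ : L₁ ≤ L₁ ⊔ K := le_sup_left
    have hle₂ : K ≤ L₁ ⊔ K := le_sup_right
    obtain ⟨⟨y, hy⟩, ⟨k, hk⟩⟩ := hK P hP τ hτ ℓ hℓ hℓN hℓS A s hA hs a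
      (fun x hx => hsg x (hle₂ hx))
    have hpn : ((p : T)) ^ n ∈ IsLocalRing.maximalIdeal T ^ n := Ideal.pow_mem_pow hpT n
    constructor
    · have t1 := Fermat.Agent.S31.helper8024.trace_sub_trace_mem H.ρ n L₁ hL₁ τ (s ^ a)
        fun x hx => (hsg x (hle₁ hx)).symm
      rw [Fermat.Agent.S31.helper8024.trace_frob_pow H hℓ hℓN hℓS A hA s hs a] at t1
      have h3 := congrArg H.π hy
      rw [map_sub, map_mul, map_pow, map_natCast, map_ofNat] at h3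
      have t2 : H.π (Fermat.Agent.S31.helper8024.heckeDickson hℓ hℓN hℓS a) - 2 ∈
          IsLocalRing.maximalIdeal T ^ n := by
        rw [Fermat.Agent.S31.helper8024.heckeDickson, h3]
        exact Ideal.mul_mem_right _ _ hpn
      have := Ideal.add_mem _ t1 t2
      convert this using 1
      ring
    · have d1 := det_sub_det_mem H.ρ n L₁ hL₁ τ (s ^ a) fun x hx => (hsg x (hle₁ hx)).symm
      rw [det_frob_pow H hℓ hℓN hℓS A hA s hs a] at d1
      have d2 : (ℓ : T) ^ a - 1 ∈ IsLocalRing.maximalIdeal T ^ n := by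
        have h4 := congrArg (Int.cast : ℤ → T) hk
        push_cast at h4
        rw [h4]
        exact Ideal.mul_mem_right _ _ hpn
      have := Ideal.add_mem _ d1 d2
      convert this using 1
      ring
  have htr : LinearMap.trace T H.ρ.V (H.ρ.ρ τ) = 2 := by
    have hmem : LinearMap.trace T H.ρ.V (H.ρ.ρ τ) - 2 ∈
        (⨅ i : ℕ, IsLocalRing.maximalIdeal T ^ i) := by
      rw [Ideal.mem_iInf]
      exact fun n => (key n).1
    rw [hkrull, Ideal.mem_bot] at hmem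
    exact sub_eq_zero.mp hmem
  have hdet : LinearMap.det (H.ρ.ρ τ) = 1 := by
    have hmem : LinearMap.det (H.ρ.ρ τ) - 1 ∈ (⨅ i : ℕ, IsLocalRing.maximalIdeal T ^ i) := by
      rw [Ideal.mem_iInf]
      exact fun n => (key n).2
    rw [hkrull, Ideal.mem_bot] at hmem
    exact sub_eq_zero.mp hmem
  rw [charpoly_eq_of_finrank_two H.ρ.finrank_eq, htr, hdet]
  simp only [map_ofNat, map_one]
  ring

end Top

/-! ## MID: `Stmt_UnipRec` from the abstract machine facts and `(UNI)` -/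

section Mid

open CuspForm ModularCurve Fermat.Agent.S31.helper5402

/-- **Unipotent reciprocity from the machine facts.**  `J` is any `HeckeAlg`-module with
`G_ℚ`-action (in the application: `JZero N`), `Λ` a lattice with a faithful action of the anemic
Hecke algebra (in the application: integral parabolic homs).  The hypotheses are those of
`Fermat.Agent.S31.helper5402.stmt_Rec_of_facts`, with `UnramifiedOutside` replaced by
`hUni` : `(τ - 1) ^ 2 = 0` on the `p`-power torsion of `J` for `τ` in inertia at `q`. -/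
theorem stmt_UnipRec_of_facts {N : ℕ} [NeZero N] {S : Set ℕ} {p q : ℕ}
    (hp : p.Prime) (hq : q.Prime) (hpS : p ∈ S) (hqp : q ≠ p)
    {J : Type*} [AddCommGroup J] [Module HeckeAlg J] [DistribMulAction GQ J]
    [SMulCommClass GQ HeckeAlg J]
    (hFrob : FrobeniusQuadratic (K := ℚ) (L := Qb) N p J)
    (hUni : ∀ P : ValuationSubring Qb, P.LiesOverPrime q → ∀ τ ∈ P.inertiaSubgroupIn ℚ,
      ∀ x : J, (∃ n : ℕ, p ^ n • x = 0) → τ • τ • x - (2 : ℤ) • (τ • x) + x = 0)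
    (hK1 : ∀ m : ℕ, ∃ L : IntermediateField ℚ Qb, FiniteDimensional ℚ L ∧
      ∀ σ : GQ, (∀ x ∈ L, σ x = x) → ∀ x : J, p ^ m • x = 0 → σ • x = x)
    {Λ : Type*} [AddCommGroup Λ] [Module.Finite ℤ Λ] [Module.Free ℤ Λ]
    (t : Nat.Primes → Module.End ℤ Λ)
    (Φ : heckeAlgebra N 2 S →+* Module.End ℤ Λ) (hΦ : Function.Injective Φ)
    (hΦT : ∀ (ℓ : ℕ) (hℓ : ℓ.Prime) (hℓN : ¬ ℓ ∣ N) (hℓS : ℓ ∉ S),
      Φ (heckeAlgebra.T hℓ hℓN hℓS) = t (⟨ℓ, hℓ⟩ : Nat.Primes))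
    (hK5 : ∀ m : ℕ, ∃ ι : Λ →+ J, (∀ v, p ^ m • ι v = 0) ∧
      (∀ ℓ : Nat.Primes, ¬ (ℓ : ℕ) ∣ N → (ℓ : ℕ) ∉ S → ∀ v, ι (t ℓ v) = heckeGen ℓ • ι v) ∧
      (∀ v, ι v = 0 → ∃ w, v = ((p ^ m : ℕ) : ℤ) • w)) :
    Stmt_UnipRec N S p q := by
  classical
  intro n
  obtain ⟨c₀, hc₀pos, hsat⟩ := exists_saturation_index Φ hΦ
  obtain ⟨c, c₁, hc₁, hc₀eq⟩ := Nat.exists_eq_pow_mul_and_not_dvd hc₀pos.ne' p hp.ne_one
  set m := n + c with hm
  obtain ⟨L, hLfin, hL⟩ := hK1 m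
  obtain ⟨ι, hιtors, hιt, hιker⟩ := hK5 m
  have : NeZero ((p : ℕ) : Qb) := ⟨Nat.cast_ne_zero.mpr hp.ne_zero⟩
  obtain ⟨ζ, hζ⟩ := HasEnoughRootsOfUnity.exists_primitiveRoot Qb (p ^ m)
  have hpm0 : 0 < p ^ m := pow_pos hp.pos m
  have := hLfin
  have : FiniteDimensional ℚ (IntermediateField.adjoin ℚ ({ζ} : Set Qb)) :=
    IntermediateField.adjoin.finiteDimensional ((hζ.isIntegral hpm0).tower_top (R := ℤ))
  refine ⟨L ⊔ IntermediateField.adjoin ℚ ({ζ} : Set Qb),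
    IntermediateField.finiteDimensional_sup _ _, ?_⟩
  intro P hP τ hτ ℓ hℓ hℓN hℓS A s hA hs a hsa
  have hζK : ζ ∈ L ⊔ IntermediateField.adjoin ℚ ({ζ} : Set Qb) :=
    (le_sup_right : _ ≤ L ⊔ IntermediateField.adjoin ℚ ({ζ} : Set Qb))
      (IntermediateField.mem_adjoin_simple_self ℚ ζ)
  have hLK : ∀ x ∈ L, x ∈ L ⊔ IntermediateField.adjoin ℚ ({ζ} : Set Qb) := fun x hx =>
    (le_sup_left : L ≤ L ⊔ IntermediateField.adjoin ℚ ({ζ} : Set Qb)) hx
  have hℓp : ℓ ≠ p := fun h => hℓS (h ▸ hpS)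
  have hζpow : ζ ^ (p ^ m) = 1 := hζ.pow_eq_one
  have hcopℓ : Nat.Coprime ℓ (p ^ m) :=
    Nat.Coprime.pow_right m ((Nat.coprime_primes hℓ hp).mpr hℓp)
  have hcopq : Nat.Coprime q (p ^ m) :=
    Nat.Coprime.pow_right m ((Nat.coprime_primes hq hp).mpr hqp)
  -- cyclotomic congruence `ℓ ^ a ≡ 1 mod p ^ m`
  have e1 : (s ^ a) ζ = ζ ^ (ℓ ^ a) := frob_pow_apply_of_pow_eq_one hA hs hcopℓ hζpow a
  have e3 : τ ζ = ζ := inertia_apply_of_pow_eq_one hP hτ hcopq hζpow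
  have e4 : ζ ^ (ℓ ^ a) = ζ ^ 1 := by
    rw [← e1, hsa ζ hζK, e3, pow_one]
  have hmod : ℓ ^ a ≡ 1 [MOD p ^ m] := modEq_of_pow_eq_pow hζ hpm0 e4
  obtain ⟨k, hk⟩ : ∃ k : ℤ, (ℓ : ℤ) ^ a - 1 = ((p ^ m : ℕ) : ℤ) * k := by
    have h := (Nat.modEq_iff_dvd.mp hmod.symm)
    obtain ⟨k, hk⟩ := h
    exact ⟨k, by push_cast at hk ⊢; linarith⟩
  -- the `p ^ m`-torsion subgroup of `J`
  let U : AddSubgroup J :=
    { carrier := {x | p ^ m • x = 0}
      add_mem' := fun {x y} (hx : p ^ m • x = 0) (hy : p ^ m • y = 0) =>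
        show p ^ m • (x + y) = 0 by rw [smul_add, hx, hy, add_zero]
      zero_mem' := smul_zero _
      neg_mem' := fun {x} (hx : p ^ m • x = 0) =>
        show p ^ m • (-x) = 0 by rw [smul_neg, hx, neg_zero] }
  have hUmem : ∀ x : J, x ∈ U ↔ p ^ m • x = 0 := fun x => Iff.rfl
  have hUstab : ∀ (σ : GQ) (x : J), x ∈ U → σ • x ∈ U := by
    intro σ x hx
    rw [hUmem] at hx ⊢
    rw [smul_comm, hx, smul_zero]
  have hℓNp : ¬ ℓ ∣ N * p := fun h => (hℓ.dvd_mul.mp h).elim hℓN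
    (fun h' => hℓp ((Nat.prime_dvd_prime_iff_eq hℓ hp).mp h'))
  -- `s ^ a` acts as `τ` on `U`
  have hfixL : ∀ σ : GQ, (∀ x ∈ L ⊔ IntermediateField.adjoin ℚ ({ζ} : Set Qb), σ x = x) →
      ∀ x ∈ U, σ • x = x := fun σ hσ x hx => hL σ (fun y hy => hσ y (hLK y hy)) x hx
  have hsaU : ∀ x ∈ U, s ^ a • x = τ • x := by
    intro x hx
    have h1 : (τ⁻¹ * s ^ a) • x = x := by
      refine hfixL _ (fun y hy => ?_) x hx
      rw [AlgEquiv.mul_apply, hsa y hy, ← AlgEquiv.mul_apply, inv_mul_cancel, AlgEquiv.one_apply]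
    rw [mul_smul, inv_smul_eq_iff] at h1
    exact h1
  have hsaU' : ∀ x ∈ U, s⁻¹ ^ a • x = τ⁻¹ • x := by
    intro x hx
    have h1 := hsaU (τ⁻¹ • x) (hUstab _ x hx)
    rw [smul_inv_smul] at h1
    rw [inv_pow, inv_smul_eq_iff, h1]
  -- `(UNI)` in the form `τ x + τ⁻¹ x = 2 x`
  have huni : ∀ x ∈ U, τ • x + τ⁻¹ • x = (2 : ℤ) • x := by
    intro x hx
    have h1 := hUni P hP τ hτ (τ⁻¹ • x) ⟨m, hUstab _ x hx⟩
    rw [smul_inv_smul] at h1
    have h2 : τ • x + τ⁻¹ • x - (2 : ℤ) • x = 0 := by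
      rw [← h1]; abel
    exact sub_eq_zero.mp h2
  -- Dickson identity on `U`
  have hD : ∀ x ∈ U,
      Polynomial.aeval (heckeEndInt J (⟨ℓ, hℓ⟩ : Nat.Primes))
        (Polynomial.dickson 1 ((ℓ : ℕ) : ℤ) a) x = (2 : ℤ) • x := by
    intro x hx
    rw [dickson_apply s (heckeEndInt J (⟨ℓ, hℓ⟩ : Nat.Primes)) ((ℓ : ℕ) : ℤ) U
      (fun y hy => hUstab s y hy) (fun y hy => hUstab s⁻¹ y hy) ?_ a x hx, hsaU x hx,
      hsaU' x hx]
    · have hx' : τ⁻¹ • x ∈ U := hUstab _ x hx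
      have h0 : (((ℓ : ℕ) : ℤ) ^ a - 1) • τ⁻¹ • x = 0 := by
        rw [hk, mul_comm, mul_smul, natCast_zsmul, (hUmem _).mp hx', smul_zero]
      rw [sub_smul, one_smul, sub_eq_zero] at h0
      rw [h0]
      exact huni x hx
    · intro y hy
      have := hFrob ℓ hℓ hℓNp A hA s hs y ⟨m, hy⟩
      show s • s • y - heckeGen (⟨ℓ, hℓ⟩ : Nat.Primes) • (s • y) + ((ℓ : ℕ) : ℤ) • y = 0
      rw [natCast_zsmul]
      exact this
  -- transfer to the lattice
  set X : heckeAlgebra N 2 S :=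
    (Polynomial.dickson 1 ((ℓ : ℕ) : heckeAlgebra N 2 S) a).eval (heckeAlgebra.T hℓ hℓN hℓS) - 2
    with hX
  have hΦX : Φ X = Polynomial.aeval (t (⟨ℓ, hℓ⟩ : Nat.Primes))
      (Polynomial.dickson 1 ((ℓ : ℕ) : ℤ) a) - 2 := by
    rw [hX, map_sub, map_dickson_eval, hΦT, map_ofNat]
  have hlat : ∀ v : Λ, ∃ w : Λ, Φ X v = ((p ^ m : ℕ) : ℤ) • w := by
    intro v
    apply hιker
    have h2 : ((2 : Module.End ℤ Λ)) v = (2 : ℤ) • v := by
      rw [show (2 : Module.End ℤ Λ) = 1 + 1 by norm_num, LinearMap.add_apply,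
        Module.End.one_apply, two_smul]
    rw [hΦX, LinearMap.sub_apply, map_sub,
      aeval_intertwine ι (t (⟨ℓ, hℓ⟩ : Nat.Primes)) (heckeEndInt J (⟨ℓ, hℓ⟩ : Nat.Primes))
        (fun v => hιt (⟨ℓ, hℓ⟩ : Nat.Primes) hℓN hℓS v),
      hD (ι v) (hιtors v), h2, map_zsmul, sub_self]
  obtain ⟨y, hy⟩ := hsat X ((p ^ m : ℕ) : ℤ) hlat
  constructor
  · -- remove the `p`-part of the saturation index
    have hy2 : (c₁ : ℤ) • X = ((p ^ n : ℕ) : ℤ) • y := by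
      have h3 : ((p ^ c : ℕ) : ℤ) • ((c₁ : ℤ) • X) =
          ((p ^ c : ℕ) : ℤ) • (((p ^ n : ℕ) : ℤ) • y) := by
        rw [smul_smul, smul_smul]
        have e5 : ((p ^ c : ℕ) : ℤ) * (c₁ : ℤ) = (c₀ : ℤ) := by rw [hc₀eq]; push_cast; ring
        have e6 : ((p ^ c : ℕ) : ℤ) * ((p ^ n : ℕ) : ℤ) = ((p ^ m : ℕ) : ℤ) := by
          rw [hm]; push_cast; ring
        rw [e5, e6, hy]
      have hpc : ((p ^ c : ℕ) : ℤ) ≠ 0 := by exact_mod_cast (pow_pos hp.pos c).ne'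
      exact zsmul_right_injective hpc h3
    -- Bezout
    have hcop : IsCoprime (c₁ : ℤ) ((p ^ n : ℕ) : ℤ) := by
      rw [Int.isCoprime_iff_gcd_eq_one, Int.gcd_natCast_natCast]
      exact Nat.Coprime.pow_right n ((Nat.Prime.coprime_iff_not_dvd hp).mpr hc₁).symm
    obtain ⟨u, v, huv⟩ := hcop
    refine ⟨u • y + v • X, ?_⟩
    have h7 : X = ((p ^ n : ℕ) : ℤ) • (u • y + v • X) := by
      calc X = (u * (c₁ : ℤ) + v * ((p ^ n : ℕ) : ℤ)) • X := by rw [huv, one_smul]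
        _ = u • ((c₁ : ℤ) • X) + ((p ^ n : ℕ) : ℤ) • (v • X) := by
            rw [add_smul, mul_smul, mul_comm v, mul_smul]
        _ = ((p ^ n : ℕ) : ℤ) • (u • y + v • X) := by
            rw [hy2, smul_add, smul_comm u]
    rw [zsmul_eq_mul] at h7
    push_cast at h7
    exact h7
  · refine ⟨(p : ℤ) ^ c * k, ?_⟩
    rw [hk, hm]
    push_cast
    ring

end Mid

/-! ## MID, operator-wise form: no Hecke-module structure, pointwise finite level, finite test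
set form of (K5) -/

section MidOp

open CuspForm ModularCurve Fermat.Agent.S31.helper5402

/-- A finite set of points with pointwise finite levels has a common finite NORMAL level. -/
theorem exists_normal_level {J : Type*} [AddCommGroup J] [DistribMulAction GQ J]
    (hFL : ∀ x : J, ∃ L : IntermediateField ℚ Qb, FiniteDimensional ℚ L ∧
      ∀ σ : GQ, (∀ y ∈ L, σ y = y) → σ • x = x)
    (F : Finset J) (L₀ : IntermediateField ℚ Qb) (hL₀ : FiniteDimensional ℚ L₀) :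
    ∃ K : IntermediateField ℚ Qb, FiniteDimensional ℚ K ∧ L₀ ≤ K ∧
      (∀ σ : GQ, ∀ y ∈ K, σ y ∈ K) ∧
      ∀ σ : GQ, (∀ y ∈ K, σ y = y) → ∀ x ∈ F, σ • x = x := by
  classical
  have key : ∃ L : IntermediateField ℚ Qb, FiniteDimensional ℚ L ∧ L₀ ≤ L ∧
      ∀ σ : GQ, (∀ y ∈ L, σ y = y) → ∀ x ∈ F, σ • x = x := by
    induction F using Finset.induction_on with
    | empty => exact ⟨L₀, hL₀, le_rfl, fun _ _ x hx => absurd hx (Finset.notMem_empty x)⟩
    | insert a F _ ih =>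
      obtain ⟨L, hL, hL₀L, hLF⟩ := ih
      obtain ⟨L', hL', ha⟩ := hFL a
      refine ⟨L ⊔ L', IntermediateField.finiteDimensional_sup L L', hL₀L.trans le_sup_left, ?_⟩
      intro σ hσ x hx
      rcases Finset.mem_insert.mp hx with rfl | hx
      · exact ha σ fun y hy => hσ y ((le_sup_right : L' ≤ L ⊔ L') hy)
      · exact hLF σ (fun y hy => hσ y ((le_sup_left : L ≤ L ⊔ L') hy)) x hx
  obtain ⟨L, hL, hL₀L, hLF⟩ := key
  have : Algebra.IsAlgebraic ℚ Qb := AlgebraicClosure.isAlgebraic ℚ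
  have : IsAlgClosure ℚ Qb := ⟨inferInstance, inferInstance⟩
  have hQb : Normal ℚ Qb := IsAlgClosure.normal ℚ Qb
  have hle : L ≤ IntermediateField.normalClosure ℚ L Qb := L.le_normalClosure
  have hnorm : Normal ℚ (IntermediateField.normalClosure ℚ L Qb) :=
    normalClosure.normal ℚ L Qb
  refine ⟨IntermediateField.normalClosure ℚ L Qb,
    normalClosure.is_finiteDimensional ℚ L Qb, hL₀L.trans hle, ?_, ?_⟩
  · intro σ y hy
    have h := (IntermediateField.normal_iff_forall_map_le'.mp hnorm) σ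
    exact h ⟨y, hy, rfl⟩
  · intro σ hσ x hx
    exact hLF σ (fun y hy => hσ y (hle hy)) x hx

/-- **Unipotent reciprocity, operator-wise form.**  `J` is any abelian group with a `G_ℚ`-action
and operators `TJ ℓ` (in the application: `JZero N` with `heckeOperatorBar N`); no module
structure over the abstract Hecke ring, no commutation of the operators among themselves or with
Galois, no uniform level and no finiteness of torsion are assumed.  Inputs: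

* `hFL` : every point has a finite level (shape of `S29.helper405.eig_of_operatorwise`);
* `hFQ` : `s² - T_ℓ s + ℓ = 0` on `p`-power torsion for Frobenius lifts at `ℓ ∤ N p` (same shape);
* `hUni` : `(τ - 1)² = 0` on `p`-power torsion for `τ` in inertia at `q`;
* `Φ` : a faithful action of the anemic Hecke algebra on a lattice `Λ`;
* `hK5` : for every `m` a FINITE test set `F ⊆ J[p ^ m]` such that an integer polynomial in `T_ℓ`
  killing `F` maps `Λ` into `p ^ m Λ` (consumer form of (K5), strong or weak). -/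
theorem stmt_UnipRec_of_operatorwise {N : ℕ} [NeZero N] {S : Set ℕ} {p q : ℕ}
    (hp : p.Prime) (hq : q.Prime) (hpS : p ∈ S) (hqp : q ≠ p)
    {J : Type*} [AddCommGroup J] [DistribMulAction GQ J]
    (TJ : Nat.Primes → Module.End ℤ J)
    (hFL : ∀ x : J, ∃ L : IntermediateField ℚ Qb, FiniteDimensional ℚ L ∧
      ∀ σ : GQ, (∀ y ∈ L, σ y = y) → σ • x = x)
    (hFQ : ∀ ℓ : ℕ, (hℓ : ℓ.Prime) → ¬ ℓ ∣ N * p →
      ∀ A : ValuationSubring Qb, A.LiesOverPrime ℓ →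
        ∀ σ : GQ, A.IsFrobeniusAt σ ℓ → ∀ x : J, (∃ k : ℕ, p ^ k • x = 0) →
          σ • σ • x - TJ ⟨ℓ, hℓ⟩ (σ • x) + ℓ • x = 0)
    (hUni : ∀ P : ValuationSubring Qb, P.LiesOverPrime q → ∀ τ ∈ P.inertiaSubgroupIn ℚ,
      ∀ x : J, (∃ n : ℕ, p ^ n • x = 0) → τ • τ • x - (2 : ℤ) • (τ • x) + x = 0)
    {Λ : Type*} [AddCommGroup Λ] [Module.Finite ℤ Λ] [Module.Free ℤ Λ]
    (Φ : heckeAlgebra N 2 S →+* Module.End ℤ Λ) (hΦ : Function.Injective Φ)
    (hK5 : ∀ m : ℕ, ∃ F : Finset J, (∀ y ∈ F, p ^ m • y = 0) ∧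
      ∀ (ℓ : ℕ) (hℓ : ℓ.Prime) (hℓN : ¬ ℓ ∣ N) (hℓS : ℓ ∉ S) (Q : ℤ[X]),
        (∀ y ∈ F, aeval (TJ ⟨ℓ, hℓ⟩) Q y = 0) →
          ∀ v : Λ, ∃ w : Λ,
            aeval (Φ (heckeAlgebra.T hℓ hℓN hℓS)) Q v = ((p ^ m : ℕ) : ℤ) • w) :
    Stmt_UnipRec N S p q := by
  classical
  intro n
  obtain ⟨c₀, hc₀pos, hsat⟩ := exists_saturation_index Φ hΦ
  obtain ⟨c, c₁, hc₁, hc₀eq⟩ := Nat.exists_eq_pow_mul_and_not_dvd hc₀pos.ne' p hp.ne_one
  set m := n + c with hm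
  obtain ⟨F, hFtors, hFtest⟩ := hK5 m
  have : NeZero ((p : ℕ) : Qb) := ⟨Nat.cast_ne_zero.mpr hp.ne_zero⟩
  obtain ⟨ζ, hζ⟩ := HasEnoughRootsOfUnity.exists_primitiveRoot Qb (p ^ m)
  have hpm0 : 0 < p ^ m := pow_pos hp.pos m
  have hζfin : FiniteDimensional ℚ (IntermediateField.adjoin ℚ ({ζ} : Set Qb)) :=
    IntermediateField.adjoin.finiteDimensional ((hζ.isIntegral hpm0).tower_top (R := ℤ))
  obtain ⟨K, hKfin, hζK', hKstab, hKF⟩ := exists_normal_level hFL F _ hζfin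
  refine ⟨K, hKfin, ?_⟩
  intro P hP τ hτ ℓ hℓ hℓN hℓS A s hA hs a hsa
  have hζK : ζ ∈ K := hζK' (IntermediateField.mem_adjoin_simple_self ℚ ζ)
  have hℓp : ℓ ≠ p := fun h => hℓS (h ▸ hpS)
  have hζpow : ζ ^ (p ^ m) = 1 := hζ.pow_eq_one
  have hcopℓ : Nat.Coprime ℓ (p ^ m) :=
    Nat.Coprime.pow_right m ((Nat.coprime_primes hℓ hp).mpr hℓp)
  have hcopq : Nat.Coprime q (p ^ m) :=
    Nat.Coprime.pow_right m ((Nat.coprime_primes hq hp).mpr hqp)
  -- cyclotomic congruence `ℓ ^ a ≡ 1 mod p ^ m`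
  have e1 : (s ^ a) ζ = ζ ^ (ℓ ^ a) := frob_pow_apply_of_pow_eq_one hA hs hcopℓ hζpow a
  have e3 : τ ζ = ζ := inertia_apply_of_pow_eq_one hP hτ hcopq hζpow
  have e4 : ζ ^ (ℓ ^ a) = ζ ^ 1 := by
    rw [← e1, hsa ζ hζK, e3, pow_one]
  have hmod : ℓ ^ a ≡ 1 [MOD p ^ m] := modEq_of_pow_eq_pow hζ hpm0 e4
  obtain ⟨k, hk⟩ : ∃ k : ℤ, (ℓ : ℤ) ^ a - 1 = ((p ^ m : ℕ) : ℤ) * k := by
    have h := (Nat.modEq_iff_dvd.mp hmod.symm)
    obtain ⟨k, hk⟩ := h
    exact ⟨k, by push_cast at hk ⊢; linarith⟩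
  -- the `p ^ m`-torsion subgroup of `J`
  let U : AddSubgroup J :=
    { carrier := {x | p ^ m • x = 0}
      add_mem' := fun {x y} (hx : p ^ m • x = 0) (hy : p ^ m • y = 0) =>
        show p ^ m • (x + y) = 0 by rw [smul_add, hx, hy, add_zero]
      zero_mem' := smul_zero _
      neg_mem' := fun {x} (hx : p ^ m • x = 0) =>
        show p ^ m • (-x) = 0 by rw [smul_neg, hx, neg_zero] }
  have hUmem : ∀ x : J, x ∈ U ↔ p ^ m • x = 0 := fun x => Iff.rfl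
  have hUstab : ∀ (σ : GQ) (x : J), x ∈ U → σ • x ∈ U := by
    intro σ x hx
    rw [hUmem] at hx ⊢
    rw [smul_comm, hx, smul_zero]
  have hℓNp : ¬ ℓ ∣ N * p := fun h => (hℓ.dvd_mul.mp h).elim hℓN
    (fun h' => hℓp ((Nat.prime_dvd_prime_iff_eq hℓ hp).mp h'))
  -- `s ^ a` acts as `τ` on the test set, and `s⁻¹ ^ a` as `τ⁻¹` (the level `K` is normal)
  have hsaF : ∀ y ∈ F, s ^ a • y = τ • y := by
    intro y hy
    have h1 : (τ⁻¹ * s ^ a) • y = y := by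
      refine hKF _ (fun z hz => ?_) y hy
      rw [AlgEquiv.mul_apply, hsa z hz, ← AlgEquiv.mul_apply, inv_mul_cancel, AlgEquiv.one_apply]
    rw [mul_smul, inv_smul_eq_iff] at h1
    exact h1
  have hsaF' : ∀ y ∈ F, s⁻¹ ^ a • y = τ⁻¹ • y := by
    intro y hy
    have h1 : (s ^ a * τ⁻¹) • y = y := by
      refine hKF _ (fun z hz => ?_) y hy
      rw [AlgEquiv.mul_apply, hsa _ (hKstab τ⁻¹ z hz), ← AlgEquiv.mul_apply, mul_inv_cancel,
        AlgEquiv.one_apply]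
    rw [mul_smul] at h1
    rw [inv_pow, inv_smul_eq_iff, h1]
  -- `(UNI)` in the form `τ x + τ⁻¹ x = 2 x`
  have huni : ∀ x ∈ U, τ • x + τ⁻¹ • x = (2 : ℤ) • x := by
    intro x hx
    have h1 := hUni P hP τ hτ (τ⁻¹ • x) ⟨m, hUstab _ x hx⟩
    rw [smul_inv_smul] at h1
    have h2 : τ • x + τ⁻¹ • x - (2 : ℤ) • x = 0 := by
      rw [← h1]; abel
    exact sub_eq_zero.mp h2
  -- Dickson identity on the test set
  have hD : ∀ y ∈ F,
      Polynomial.aeval (TJ (⟨ℓ, hℓ⟩ : Nat.Primes))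
        (Polynomial.dickson 1 ((ℓ : ℕ) : ℤ) a) y = (2 : ℤ) • y := by
    intro y hy
    have hyU : y ∈ U := hFtors y hy
    rw [dickson_apply s (TJ (⟨ℓ, hℓ⟩ : Nat.Primes)) ((ℓ : ℕ) : ℤ) U
      (fun z hz => hUstab s z hz) (fun z hz => hUstab s⁻¹ z hz) ?_ a y hyU, hsaF y hy,
      hsaF' y hy]
    · have hy' : τ⁻¹ • y ∈ U := hUstab _ y hyU
      have h0 : (((ℓ : ℕ) : ℤ) ^ a - 1) • τ⁻¹ • y = 0 := by
        rw [hk, mul_comm, mul_smul, natCast_zsmul, (hUmem _).mp hy', smul_zero]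
      rw [sub_smul, one_smul, sub_eq_zero] at h0
      rw [h0]
      exact huni y hyU
    · intro z hz
      have := hFQ ℓ hℓ hℓNp A hA s hs z ⟨m, hz⟩
      rw [natCast_zsmul]
      exact this
  -- transfer to the lattice
  set X : heckeAlgebra N 2 S :=
    (Polynomial.dickson 1 ((ℓ : ℕ) : heckeAlgebra N 2 S) a).eval (heckeAlgebra.T hℓ hℓN hℓS) - 2
    with hX
  have hΦX : Φ X = Polynomial.aeval (Φ (heckeAlgebra.T hℓ hℓN hℓS))
      (Polynomial.dickson 1 ((ℓ : ℕ) : ℤ) a - 2) := by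
    rw [hX, map_sub, map_dickson_eval, map_ofNat, map_sub, map_ofNat]
  have hkill : ∀ y ∈ F, Polynomial.aeval (TJ (⟨ℓ, hℓ⟩ : Nat.Primes))
      (Polynomial.dickson 1 ((ℓ : ℕ) : ℤ) a - 2) y = 0 := by
    intro y hy
    have h2 : ((2 : Module.End ℤ J)) y = (2 : ℤ) • y := by
      rw [show (2 : Module.End ℤ J) = 1 + 1 by norm_num, LinearMap.add_apply,
        Module.End.one_apply, two_smul]
    rw [map_sub, map_ofNat, LinearMap.sub_apply, hD y hy, h2, sub_self]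
  have hlat : ∀ v : Λ, ∃ w : Λ, Φ X v = ((p ^ m : ℕ) : ℤ) • w := by
    intro v
    rw [hΦX]
    exact hFtest ℓ hℓ hℓN hℓS _ hkill v
  obtain ⟨y, hy⟩ := hsat X ((p ^ m : ℕ) : ℤ) hlat
  constructor
  · -- remove the `p`-part of the saturation index
    have hy2 : (c₁ : ℤ) • X = ((p ^ n : ℕ) : ℤ) • y := by
      have h3 : ((p ^ c : ℕ) : ℤ) • ((c₁ : ℤ) • X) =
          ((p ^ c : ℕ) : ℤ) • (((p ^ n : ℕ) : ℤ) • y) := by
        rw [smul_smul, smul_smul]
        have e5 : ((p ^ c : ℕ) : ℤ) * (c₁ : ℤ) = (c₀ : ℤ) := by rw [hc₀eq]; push_cast; ring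
        have e6 : ((p ^ c : ℕ) : ℤ) * ((p ^ n : ℕ) : ℤ) = ((p ^ m : ℕ) : ℤ) := by
          rw [hm]; push_cast; ring
        rw [e5, e6, hy]
      have hpc : ((p ^ c : ℕ) : ℤ) ≠ 0 := by exact_mod_cast (pow_pos hp.pos c).ne'
      exact zsmul_right_injective hpc h3
    -- Bezout
    have hcop : IsCoprime (c₁ : ℤ) ((p ^ n : ℕ) : ℤ) := by
      rw [Int.isCoprime_iff_gcd_eq_one, Int.gcd_natCast_natCast]
      exact Nat.Coprime.pow_right n ((Nat.Prime.coprime_iff_not_dvd hp).mpr hc₁).symm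
    obtain ⟨u, v, huv⟩ := hcop
    refine ⟨u • y + v • X, ?_⟩
    have h7 : X = ((p ^ n : ℕ) : ℤ) • (u • y + v • X) := by
      calc X = (u * (c₁ : ℤ) + v * ((p ^ n : ℕ) : ℤ)) • X := by rw [huv, one_smul]
        _ = u • ((c₁ : ℤ) • X) + ((p ^ n : ℕ) : ℤ) • (v • X) := by
            rw [add_smul, mul_smul, mul_comm v, mul_smul]
        _ = ((p ^ n : ℕ) : ℤ) • (u • y + v • X) := by
            rw [hy2, smul_add, smul_comm u]
    rw [zsmul_eq_mul] at h7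
    push_cast at h7
    exact h7
  · refine ⟨(p : ℤ) ^ c * k, ?_⟩
    rw [hk, hm]
    push_cast
    ring

end MidOp

/-! ## TOP ∘ MID: the frozen conclusion from generator-Chebotarev, the machine facts and `(UNI)` -/

section Assembly

open CuspForm ModularCurve

variable {p : ℕ} {N : ℕ} [NeZero N] {S : Finset ℕ}
  {𝒪 : Type} [CommRing 𝒪] [IsDomain 𝒪] [IsDiscreteValuationRing 𝒪]
  [IsAdicComplete (IsLocalRing.maximalIdeal 𝒪) 𝒪]
  {θ : CuspForm.heckeAlgebra N 2 (↑S : Set ℕ) →+* IsLocalRing.ResidueField 𝒪}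
  {T : Type} [CommRing T] [IsLocalRing T] [IsNoetherianRing T]
  [IsAdicComplete (IsLocalRing.maximalIdeal T) T] [Algebra 𝒪 T] [IsLocalHom (algebraMap 𝒪 T)]
  [Module.Finite 𝒪 T] [Module.Free 𝒪 T]

/-- **S34 from generator-Chebotarev, the S31 machine facts and `(UNI)`.** -/
theorem isUnipotentOnInertiaAt_of_facts (hCheb : Fermat.Agent.S31.helper8024.GenCheb)
    (hp : p.Prime) (hp𝒪 : (p : 𝒪) ∈ IsLocalRing.maximalIdeal 𝒪) (hpS : p ∈ S)
    (H : CuspForm.HeckeGaloisRepDatum N (↑S : Set ℕ) 𝒪 θ T)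
    (q : ℕ) (hq : q.Prime) (hqp : q ≠ p)
    {J : Type*} [AddCommGroup J] [Module HeckeAlg J] [DistribMulAction GQ J]
    [SMulCommClass GQ HeckeAlg J]
    (hFrob : FrobeniusQuadratic (K := ℚ) (L := Qb) N p J)
    (hUni : ∀ P : ValuationSubring Qb, P.LiesOverPrime q → ∀ τ ∈ P.inertiaSubgroupIn ℚ,
      ∀ x : J, (∃ n : ℕ, p ^ n • x = 0) → τ • τ • x - (2 : ℤ) • (τ • x) + x = 0)
    (hK1 : ∀ m : ℕ, ∃ L : IntermediateField ℚ Qb, FiniteDimensional ℚ L ∧
      ∀ σ : GQ, (∀ x ∈ L, σ x = x) → ∀ x : J, p ^ m • x = 0 → σ • x = x)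
    {Λ : Type*} [AddCommGroup Λ] [Module.Finite ℤ Λ] [Module.Free ℤ Λ]
    (t : Nat.Primes → Module.End ℤ Λ)
    (Φ : heckeAlgebra N 2 (↑S : Set ℕ) →+* Module.End ℤ Λ) (hΦ : Function.Injective Φ)
    (hΦT : ∀ (ℓ : ℕ) (hℓ : ℓ.Prime) (hℓN : ¬ ℓ ∣ N) (hℓS : ℓ ∉ (↑S : Set ℕ)),
      Φ (heckeAlgebra.T hℓ hℓN hℓS) = t (⟨ℓ, hℓ⟩ : Nat.Primes))
    (hK5 : ∀ m : ℕ, ∃ ι : Λ →+ J, (∀ v, p ^ m • ι v = 0) ∧
      (∀ ℓ : Nat.Primes, ¬ (ℓ : ℕ) ∣ N → (ℓ : ℕ) ∉ (↑S : Set ℕ) →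
        ∀ v, ι (t ℓ v) = heckeGen ℓ • ι v) ∧
      (∀ v, ι v = 0 → ∃ w, v = ((p ^ m : ℕ) : ℤ) • w)) :
    H.ρ.IsUnipotentOnInertiaAt q :=
  isUnipotentOnInertiaAt_of_rec hCheb hp𝒪 H q
    (stmt_UnipRec_of_facts hp hq (Finset.mem_coe.mpr hpS) hqp hFrob hUni hK1 t Φ hΦ hΦT hK5)

/-- **S34 from generator-Chebotarev, the operator-wise machine facts and `(UNI)`.**  Same
inputs as `stmt_UnipRec_of_operatorwise`. -/
theorem isUnipotentOnInertiaAt_of_operatorwise (hCheb : Fermat.Agent.S31.helper8024.GenCheb)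
    (hp : p.Prime) (hp𝒪 : (p : 𝒪) ∈ IsLocalRing.maximalIdeal 𝒪) (hpS : p ∈ S)
    (H : CuspForm.HeckeGaloisRepDatum N (↑S : Set ℕ) 𝒪 θ T)
    (q : ℕ) (hq : q.Prime) (hqp : q ≠ p)
    {J : Type*} [AddCommGroup J] [DistribMulAction GQ J]
    (TJ : Nat.Primes → Module.End ℤ J)
    (hFL : ∀ x : J, ∃ L : IntermediateField ℚ Qb, FiniteDimensional ℚ L ∧
      ∀ σ : GQ, (∀ y ∈ L, σ y = y) → σ • x = x)
    (hFQ : ∀ ℓ : ℕ, (hℓ : ℓ.Prime) → ¬ ℓ ∣ N * p →
      ∀ A : ValuationSubring Qb, A.LiesOverPrime ℓ →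
        ∀ σ : GQ, A.IsFrobeniusAt σ ℓ → ∀ x : J, (∃ k : ℕ, p ^ k • x = 0) →
          σ • σ • x - TJ ⟨ℓ, hℓ⟩ (σ • x) + ℓ • x = 0)
    (hUni : ∀ P : ValuationSubring Qb, P.LiesOverPrime q → ∀ τ ∈ P.inertiaSubgroupIn ℚ,
      ∀ x : J, (∃ n : ℕ, p ^ n • x = 0) → τ • τ • x - (2 : ℤ) • (τ • x) + x = 0)
    {Λ : Type*} [AddCommGroup Λ] [Module.Finite ℤ Λ] [Module.Free ℤ Λ]
    (Φ : heckeAlgebra N 2 (↑S : Set ℕ) →+* Module.End ℤ Λ) (hΦ : Function.Injective Φ)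
    (hK5 : ∀ m : ℕ, ∃ F : Finset J, (∀ y ∈ F, p ^ m • y = 0) ∧
      ∀ (ℓ : ℕ) (hℓ : ℓ.Prime) (hℓN : ¬ ℓ ∣ N) (hℓS : ℓ ∉ (↑S : Set ℕ)) (Q : ℤ[X]),
        (∀ y ∈ F, aeval (TJ ⟨ℓ, hℓ⟩) Q y = 0) →
          ∀ v : Λ, ∃ w : Λ,
            aeval (Φ (heckeAlgebra.T hℓ hℓN hℓS)) Q v = ((p ^ m : ℕ) : ℤ) • w) :
    H.ρ.IsUnipotentOnInertiaAt q :=
  isUnipotentOnInertiaAt_of_rec hCheb hp𝒪 H q
    (stmt_UnipRec_of_operatorwise hp hq (Finset.mem_coe.mpr hpS) hqp TJ hFL hFQ hUni Φ hΦ hK5)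

end Assembly

end Fermat.Agent.S34.helper1336
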