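/-
S34-GENERAL (helper8267, captain S34): the geometry export of S34 in the LEVEL-GENERAL
vocabulary adopted by the S35 geometry module (level `N` with `q ∥ N`, the Atkin–Lehner
automorphism `helper1073.atkinLehnerBar N q hq hqN hq2`), and its reduction to the export
`Stmt_TorFixGeom` consumed by the S34 chain (levels written `q * M`, `helper1219.atkinLehnerBar`).

* `Stmt_TorFixGen` : (TORFIX) at every level `N`, `q ∥ N`, divisible by `r ∈ {2, 3}`, `r ≠ q`.
* `stmt_TorFixGeom_of_gen` : `Stmt_TorFixGen → Stmt_TorFixGeom`.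
* `result_of_torFixGen` : the frozen statement S34 from `Stmt_TorFixGen` and `Stmt_UniDescent`.
-/
import Fermat.Agent.S34.helper8267_Final
import Fermat.Agent.S35.helper1073_AtkinLehnerBridge

set_option autoImplicit false

namespace Fermat.Agent.S34.helper8267

open CuspForm ModularCurve AlgebraicCurve CongruenceSubgroup IsLocalRing

local notation "Qb" => AlgebraicClosure ℚ

/-- **(TORFIX), level-general form** (the S34 twin of `helper2039.Stmt_TorFrobAux`, element
form): at every level `N` exactly divisible by the prime `q` and divisible by an auxiliary prime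
`r ∈ {2, 3}`, `r ≠ q`, for every prime `p ≠ q`, every place `A` over `q` and every `τ` in its
inertia group, `τ` fixes the class of every `p ^ m`-Kummer element which is `≡ 1` for the Gauss
valuation and for its twin under `W_q = helper1073.atkinLehnerBar N q hq hqN hq2`. -/
def Stmt_TorFixGen : Prop :=
  ∀ (N : ℕ) [NeZero N] (q : ℕ) (hq : q.Prime) (hqN : q ∣ N) (hq2 : ¬ q ^ 2 ∣ N) (r : ℕ),
    (r = 2 ∨ r = 3) → r ≠ q → r ∣ N → ∀ p : ℕ, p.Prime → p ≠ q → ∀ (m : ℕ)
      (A : ValuationSubring Qb), A.LiesOverPrime q → ∀ τ ∈ A.inertiaSubgroupIn ℚ,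
        Fermat.Agent.S34.helper584.Stmt_TorFix N (p ^ m) A
          (Fermat.Agent.S35.helper1073.atkinLehnerBar N q hq hqN hq2) τ

/-- The level-general export gives the export consumed by the S34 chain. -/
theorem stmt_TorFixGeom_of_gen (hGen : Stmt_TorFixGen) : Stmt_TorFixGeom := by
  intro q M p r _ _ h hq hp hqp hr hrq hrM A hA τ hτ m
  haveI : NeZero (q * M) := ⟨mul_ne_zero hq.ne_zero (NeZero.ne M)⟩
  have key := hGen (q * M) q hq (dvd_mul_right q M)
    (Fermat.Agent.S35.helper1073.not_sq_dvd_of_coprime hq h) r hr hrq (Dvd.dvd.mul_left hrM q)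
    p hp (Ne.symm hqp) m A hA τ hτ
  intro f hK h1 h2
  rw [Fermat.Agent.S35.helper1073.atkinLehnerBar_eq_helper1219 q M hq h f] at h2
  exact key f hK h1 h2

/-- **S34 from the level-general geometry export and the level descent.** -/
theorem result_of_torFixGen
    {𝒪 : Type} [CommRing 𝒪] [IsDomain 𝒪] [IsDiscreteValuationRing 𝒪]
    [IsAdicComplete (maximalIdeal 𝒪) 𝒪] [Finite (ResidueField 𝒪)] [CharZero 𝒪]
    {p : ℕ} (hp : p.Prime) (hp𝒪 : (p : 𝒪) ∈ maximalIdeal 𝒪)
    {N : ℕ} [NeZero N] {S : Finset ℕ} (hpS : p ∈ S) (hNS : ∀ q : ℕ, q.Prime → q ∣ N → q ∈ S)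
    {θ : CuspForm.heckeAlgebra N 2 (↑S : Set ℕ) →+* ResidueField 𝒪}
    {T : Type} [CommRing T] [IsLocalRing T] [IsNoetherianRing T]
    [IsAdicComplete (maximalIdeal T) T] [Algebra 𝒪 T] [IsLocalHom (algebraMap 𝒪 T)]
    [Module.Finite 𝒪 T] [Module.Free 𝒪 T]
    (H : CuspForm.HeckeGaloisRepDatum N (↑S : Set ℕ) 𝒪 θ T)
    (q : ℕ) (hq : q.Prime) (hqp : q ≠ p) (hqN : q ∣ N) (hq2 : ¬ q ^ 2 ∣ N)
    (hGen : Stmt_TorFixGen) (hD : Stmt_UniDescent) :
    H.ρ.IsUnipotentOnInertiaAt q :=
  result_of_torFix hp hp𝒪 hpS hNS H q hq hqp hqN hq2 (stmt_TorFixGeom_of_gen hGen) hD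

end Fermat.Agent.S34.helper8267
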