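/-
S34-NODAL (helper8267, captain S34): the frozen statement S34 from the geometric leaf in the
shape exported by the integration file `helper2423_TorFixInst` (`Stmt_NodalExport`, exports
(E1) + (E3) of the geometry module shared with S35) and the level descent.

* `Stmt_NodalGeom` : `helper2423.Stmt_NodalExport q r (p ^ m)` for all primes `q ≠ p`, all
  `r ∈ {2, 3}`, `r ≠ q`, all `m` (ONE closed Prop: the target of the (E3) instance).
* `stmt_TorFixGeom_of_nodal` : `Stmt_NodalGeom → Stmt_TorFixGeom`.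
* `result_of_nodal` : the frozen statement S34 from `Stmt_NodalGeom` and `Stmt_UniDescent`.
-/
import Fermat.Agent.S34.helper8267_Final
import Fermat.Agent.S34.helper2423_TorFixInst

set_option autoImplicit false

namespace Fermat.Agent.S34.helper8267

open CuspForm ModularCurve AlgebraicCurve CongruenceSubgroup IsLocalRing

/-- **The geometric leaf of S34 as ONE closed Prop**: the nodal export of the geometry module at
every prime `q`, every auxiliary prime `r ∈ {2, 3}`, `r ≠ q`, and every modulus `p ^ m`,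
`p ≠ q` prime. -/
def Stmt_NodalGeom : Prop :=
  ∀ (q r p : ℕ) [NeZero q], q.Prime → p.Prime → q ≠ p → (r = 2 ∨ r = 3) → r ≠ q → ∀ m : ℕ,
    Fermat.Agent.S34.helper2423.Stmt_NodalExport q r (p ^ m)

/-- The nodal export gives the geometry export (TORFIX) consumed by the S34 chain. -/
theorem stmt_TorFixGeom_of_nodal (hN : Stmt_NodalGeom) : Stmt_TorFixGeom := by
  intro q M p r _ _ h hq hp hqp hr hrq hrM A hA τ hτ m
  exact Fermat.Agent.S34.helper2423.torFix_of_nodalExport hp hq hqp.symm r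
    (hN q r p hq hp hqp hr hrq) M h (Dvd.dvd.mul_left hrM q) A hA τ hτ m

/-- **S34 from the nodal export of the geometry module and the level descent.** -/
theorem result_of_nodal
    {𝒪 : Type} [CommRing 𝒪] [IsDomain 𝒪] [IsDiscreteValuationRing 𝒪]
    [IsAdicComplete (maximalIdeal 𝒪) 𝒪] [Finite (ResidueField 𝒪)] [CharZero 𝒪]
    {p : ℕ} (hp : p.Prime) (hp𝒪 : (p : 𝒪) ∈ maximalIdeal 𝒪)
    {N : ℕ} [NeZero N] {S : Finset ℕ} (hpS : p ∈ S) (hNS : ∀ q : ℕ, q.Prime → q ∣ N → q ∈ S)
    {θ : CuspForm.heckeAlgebra N 2 (↑S : Set ℕ) →+* ResidueField 𝒪}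
    {T : Type} [CommRing T] [IsLocalRing T] [IsNoetherianRing T]
    [IsAdicComplete (maximalIdeal T) T] [Algebra 𝒪 T] [IsLocalHom (algebraMap 𝒪 T)]
    [Module.Finite 𝒪 T] [Module.Free 𝒪 T]
    (H : CuspForm.HeckeGaloisRepDatum N (↑S : Set ℕ) 𝒪 θ T)
    (q : ℕ) (hq : q.Prime) (hqp : q ≠ p) (hqN : q ∣ N) (hq2 : ¬ q ^ 2 ∣ N)
    (hN : Stmt_NodalGeom) (hD : Stmt_UniDescent) :
    H.ρ.IsUnipotentOnInertiaAt q :=
  result_of_torFix hp hp𝒪 hpS hNS H q hq hqp hqN hq2 (stmt_TorFixGeom_of_nodal hN) hD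

end Fermat.Agent.S34.helper8267
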