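/-
S34 EXPORTS (helper8267): (TORFIX) as UNCONDITIONAL theorems, for the consumers of the S34 /
S35 geometry (X0 block of S43, S33, S36).

From `stmt_TorFixGeom_all` (`helper8267_ChartNodesAll`: the chart / node package at the
auxiliary levels is a theorem):

* `stmt_TorFixGen_all : Stmt_TorFixGen` — the element (function) form at every level `N`
  exactly divisible by `q` and divisible by an auxiliary prime `r ∈ {2, 3}`, `r ≠ q`, in the
  level-general vocabulary (`helper1073.atkinLehnerBar N q hq hqN hq2`);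
* `torFix_class_aux` — the class form on the toric part `kInfty ⊓ kZero` of `J₀(M)[lam ^ k]`
  at those levels;
* `stmt_TorFix_all : Fermat.Agent.S35.helper2039.Stmt_TorFix` — the class form at EVERY level
  `M` with `q ∥ M` (level descent `helper1270.stmt_TorFix_of_aux`): every `τ` in the inertia
  group of `A ∣ q` fixes `kInfty A M (lam ^ k) ⊓ kZero A M (lam ^ k) W_q`, `lam ≠ q` prime;
* `inertia_sub_fixed_all` — `(τ - 1)² = 0` on `J₀(M)[lam ^ k]` (class form of the S34
  unipotence), unconditionally.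
-/
import Fermat.Agent.S34.helper8267_ChartNodesAll
import Fermat.Agent.S34.helper8267_General
import Fermat.Agent.S35.helper1270_TorFrobDesc
import Fermat.Agent.S35.helper1687_CommonRepSpec

set_option autoImplicit false

namespace Fermat.Agent.S34.helper8267

open CuspForm ModularCurve AlgebraicCurve

local notation "Qb" => AlgebraicClosure ℚ
local notation "GQ" => (AlgebraicClosure ℚ ≃ₐ[ℚ] AlgebraicClosure ℚ)

/-- **(TORFIX), level-general element form, unconditionally**: at every level `N` exactly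
divisible by the prime `q` and divisible by `r ∈ {2, 3}`, `r ≠ q`. -/
theorem stmt_TorFixGen_all : Stmt_TorFixGen := by
  intro N _ q hq hqN hq2 r hr hrq hrN p hp hpq m A hA τ hτ
  obtain ⟨M, rfl⟩ := hqN
  have hM0 : M ≠ 0 := by
    rintro rfl
    exact NeZero.ne (q * 0) (mul_zero q)
  have hcop : Nat.Coprime q M := by
    rw [Nat.Prime.coprime_iff_not_dvd hq]
    rintro ⟨c, rfl⟩
    exact hq2 ⟨c, by ring⟩
  haveI : NeZero q := ⟨hq.ne_zero⟩
  haveI : NeZero M := ⟨hM0⟩
  have hrp : r.Prime := by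
    rcases hr with rfl | rfl
    · exact Nat.prime_two
    · exact Nat.prime_three
  have hrM : r ∣ M :=
    (Nat.Coprime.dvd_mul_left ((Nat.coprime_primes hrp hq).mpr hrq)).mp hrN
  have key := stmt_TorFixGeom_all q M p r hcop hq hp (Ne.symm hpq) hr hrq hrM A hA τ hτ m
  intro f hK h1 h2
  refine key f hK h1 ?_
  rw [Fermat.Agent.S35.helper1073.atkinLehnerBar_eq_helper1219 q M hq hcop f]
  exact h2

/-- **(TORFIX), class form at the auxiliary levels**: at a level `M` exactly divisible by `q`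
and divisible by `r ∈ {2, 3}`, `r ≠ q`, every `τ` in the inertia group of `A ∣ q` fixes the
toric part `kInfty ⊓ kZero` of `J₀(M)[lam ^ k]`, `lam ≠ q` prime. -/
theorem torFix_class_aux (M : ℕ) [NeZero M] (q : ℕ) (hq : q.Prime) (hqM : q ∣ M)
    (hq2 : ¬ q ^ 2 ∣ M) (r : ℕ) (hr : r = 2 ∨ r = 3) (hrq : r ≠ q) (hrM : r ∣ M)
    (lam : ℕ) (hlam : lam.Prime) (hlamq : lam ≠ q) (k : ℕ)
    (A : ValuationSubring Qb) (hA : A.LiesOverPrime q) (τ : GQ)
    (hτ : τ ∈ A.inertiaSubgroupIn ℚ) (y : JZero M)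
    (hy₁ : y ∈ Fermat.Agent.S35.helper1687.kInfty A M (lam ^ k))
    (hy₂ : y ∈ Fermat.Agent.S35.helper1687.kZero A M (lam ^ k)
      (Fermat.Agent.S35.helper1073.atkinLehnerBar M q hq hqM hq2)) :
    τ • y = y :=
  Fermat.Agent.S35.helper1687.torFix_atkinLehner_of_element M q hq hqM hq2
    (pow_ne_zero k hlam.ne_zero) A hA τ
    (stmt_TorFixGen_all M q hq hqM hq2 r hr hrq hrM lam hlam hlamq k A hA τ hτ) y hy₁ hy₂

/-- **(TORFIX) of the S35 Spec, unconditionally**: at every level `M` with `q ∥ M`, every `τ`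
in the inertia group of a place `A` over `q` fixes the toric part
`kInfty A M (lam ^ k) ⊓ kZero A M (lam ^ k) W_q` of `J₀(M)[lam ^ k]` (`lam ≠ q` prime). -/
theorem stmt_TorFix_all : Fermat.Agent.S35.helper2039.Stmt_TorFix :=
  Fermat.Agent.S35.helper1270.stmt_TorFix_of_aux
    fun M _ q hq hqM hq2 r hr hrq hrM lam hlam hlamq k A hA τ hτ y hy₁ hy₂ =>
      torFix_class_aux M q hq hqM hq2 r hr hrq hrM lam hlam hlamq k A hA τ hτ y hy₁ hy₂

/-- **`(τ - 1)² = 0` on `J₀(M)[lam ^ k]`, unconditionally**, for `τ` in the inertia group at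
`q ∥ M`, `lam ≠ q` prime (class form of the S34 unipotence). -/
theorem inertia_sub_fixed_all (M q : ℕ) [NeZero M] (hq : q.Prime) (hqM : q ∣ M)
    (hq2 : ¬ q ^ 2 ∣ M) (lam : ℕ) (hlam : lam.Prime) (hlamq : lam ≠ q) (k : ℕ)
    {A : ValuationSubring Qb} (hA : A.LiesOverPrime q) {τ : GQ}
    (hτ : τ ∈ A.inertiaSubgroupIn ℚ) {x : JZero M} (hx : ((lam ^ k : ℕ) : ℤ) • x = 0) :
    τ • (τ • x - x) = τ • x - x :=
  Fermat.Agent.S35.helper2039.inertia_sub_fixed stmt_TorFix_all M q hq hqM hq2 lam hlam hlamq k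
    hA hτ hx

end Fermat.Agent.S34.helper8267
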